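import Fermat.Agent.GaloisReps.CoeffExt

/-!
# Enlarging coefficients by one algebraic integer
-/

set_option autoImplicit false
set_option linter.style.haveILetI false

noncomputable section

open IsLocalRing

namespace Fermat.Agent.RT.Lifting

/-- A complete discrete valuation ring inside `ℂ` has a finite extension inside `ℂ` containing a
given algebraic integer. -/
theorem exists_coeff_point (O : Type) [CommRing O] [IsDomain O] [IsDiscreteValuationRing O]
    [IsAdicComplete (maximalIdeal O) O] [Finite (ResidueField O)] [CharZero O] (j : O →+* ℂ)
    (hj : Function.Injective j) {z : ℂ} (hz : IsIntegral ℤ z) :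
    ∃ (R : Type) (_ : CommRing R) (_ : IsDomain R) (_ : IsDiscreteValuationRing R)
      (_ : IsAdicComplete (maximalIdeal R) R) (_ : Finite (ResidueField R)) (_ : CharZero R)
      (_ : Algebra O R) (_ : Module.Finite O R) (_ : IsLocalHom (algebraMap O R))
      (jR : R →+* ℂ) (x : R), Function.Injective (algebraMap O R) ∧ Function.Injective jR ∧
        jR.comp (algebraMap O R) = j ∧ jR x = z := by
  letI : Algebra O ℂ := j.toAlgebra
  letI : Algebra (FractionRing O) ℂ := (IsFractionRing.lift (K := FractionRing O) hj).toAlgebra
  haveI : IsScalarTower O (FractionRing O) ℂ :=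
    IsScalarTower.of_algebraMap_eq fun a => (IsFractionRing.lift_algebraMap hj a).symm
  have hzO : IsIntegral O z := hz.tower_top
  let L := IntermediateField.adjoin (FractionRing O) {z}
  haveI : FiniteDimensional (FractionRing O) L :=
    IntermediateField.adjoin.finiteDimensional hzO.tower_top
  obtain ⟨hdvr, hfin, hloc, hhom, hcompl⟩ := GaloisReps.exists_integralClosure_dvr O L
  have hinj : Function.Injective (algebraMap O (integralClosure O L)) := fun a b h =>
    IsFractionRing.injective O (FractionRing O) ((algebraMap (FractionRing O) L).injective (by
      simpa [← IsScalarTower.algebraMap_apply] using congrArg Subtype.val h))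
  have hx : (⟨z, IntermediateField.mem_adjoin_simple_self _ z⟩ : L) ∈ integralClosure O L :=
    (isIntegral_algHom_iff (L.val.restrictScalars O) L.val.injective).mp hzO
  refine ⟨integralClosure O L, inferInstance, inferInstance, hdvr, hcompl,
    Module.finite_of_finite (IsLocalRing.ResidueField O), charZero_of_injective_algebraMap hinj,
    inferInstance, hfin, hhom, (algebraMap L ℂ).comp (integralClosure O L).val.toRingHom,
    ⟨_, hx⟩, hinj, (algebraMap L ℂ).injective.comp Subtype.val_injective, rfl, rfl⟩

end Fermat.Agent.RT.Lifting

end
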