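import Fermat.Agent.RT.Lifting.AtP.Transfer
import Fermat.Agent.RT.Lifting.AtP.Coeff
import Fermat.Agent.RT.Assembly.RepLemmas
import Fermat.Agent.ConductorLevel.Eigen
import Fermat.Agent.OrdinaryAtP.Reduction
import Fermat.Agent.GaloisReps.Models
import Fermat.Agent.FiniteFlat.FlatProof

/-!
# The conditions at `p` at the points of a deformation space

A representation attached to a newform with residual representation `ρbar` is flat at `p` when `p`
does not divide the level, and ordinary when `ρbar` is distinguished ordinary and `p ^ 2` does not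
divide the level.
-/

set_option autoImplicit false
set_option linter.style.haveILetI false

noncomputable section

open IsLocalRing Module Polynomial CongruenceSubgroup ModularFormClass
open ModularCurve
open scoped TensorProduct

namespace Fermat.Agent.RT.Lifting

open Fermat.Agent.Deform Fermat.Agent.Arith Fermat.Agent.RT.Assembly

/-- The eigencharacter of a newform with values in the coefficients of an attached
representation. -/
theorem exists_attached {p : ℕ} (hp : p.Prime) {M : ℕ} [NeZero M] {g : CuspForm (Gamma0 M) 2}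
    (hg : g.IsNewform) {R : Type} [CommRing R] [IsLocalRing R]
    [IsHausdorff (maximalIdeal R) R] (ρ : GaloisRepAdic R) (j : R →+* ℂ)
    (hj : Function.Injective j) (hdet : ρ.DetIsCyclotomic p)
    (htr : ∀ ℓ : ℕ, ℓ.Prime → ℓ ≠ p → ¬ ℓ ∣ M → ∀ A : ValuationSubring QBar, A.LiesOverPrime ℓ →
      ∀ σ : Gal, A.IsFrobeniusAt σ ℓ → j (LinearMap.trace R ρ.V (ρ.ρ σ)) = qCoeff g ℓ) :
    ∃ π : CuspForm.heckeAlgebra M 2 (↑(insert p M.primeFactors) : Set ℕ) →+* R,
      GaloisReps.FrobCharpoly ρ π := by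
  have hne : ∀ ℓ : ℕ, ℓ ∉ (↑(insert p M.primeFactors) : Set ℕ) → ℓ ≠ p :=
    fun ℓ hℓ h => hℓ (Finset.mem_coe.mpr (h ▸ Finset.mem_insert_self _ _))
  have hndvd : ∀ ℓ : ℕ, ℓ.Prime → ℓ ∉ (↑(insert p M.primeFactors) : Set ℕ) → ¬ ℓ ∣ M :=
    fun ℓ hℓ hℓS h => hℓS (Finset.mem_coe.mpr
      (Finset.mem_insert_of_mem (Nat.mem_primeFactors.mpr ⟨hℓ, h, NeZero.ne M⟩)))
  have hrange : ∀ t : CuspForm.heckeAlgebra M 2 (↑(insert p M.primeFactors) : Set ℕ),
      ConductorLevel.eigenChar hg.1 _ t ∈ j.range := fun t =>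
    ConductorLevel.eigenChar_range_le hg.1 (subalgebraOfSubring j.range) (fun ℓ hℓ hℓS => by
      obtain ⟨A, hA⟩ := Arith.exists_liesOverPrime hℓ
      obtain ⟨σ, hσ⟩ := Arith.exists_isFrobeniusAt hA hℓ
      exact ⟨_, htr ℓ hℓ (hne ℓ hℓS) (hndvd ℓ hℓ hℓS) A hA σ hσ⟩) ⟨t, rfl⟩
  let e : R ≃+* j.range := RingEquiv.ofBijective j.rangeRestrict
    ⟨fun a b h => hj (congrArg Subtype.val h), j.rangeRestrict_surjective⟩
  let π : CuspForm.heckeAlgebra M 2 (↑(insert p M.primeFactors) : Set ℕ) →+* R :=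
    e.symm.toRingHom.comp ((ConductorLevel.eigenChar hg.1 _).codRestrict j.range hrange)
  have hπ : ∀ t, j (π t) = ConductorLevel.eigenChar hg.1 _ t := fun t =>
    congrArg Subtype.val (e.apply_symm_apply
      ((ConductorLevel.eigenChar hg.1 _).codRestrict j.range hrange t))
  refine ⟨π, fun ℓ hℓ hℓM hℓS A hA σ hσ => ?_⟩
  have hT : π (CuspForm.heckeAlgebra.T hℓ hℓM hℓS) = LinearMap.trace R ρ.V (ρ.ρ σ) :=
    hj ((hπ _).trans ((ConductorLevel.eigenChar_T hg.1 hℓ hℓM hℓS).trans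
      (htr ℓ hℓ (hne ℓ hℓS) hℓM A hA σ hσ).symm))
  have hd : LinearMap.det (ρ.ρ σ) = (ℓ : R) := det_eq_natCast hdet fun n μ hμ =>
    GaloisReps.frobenius_apply_root hA hℓ hσ hμ fun h =>
      hne ℓ hℓS ((Nat.prime_dvd_prime_iff_eq hℓ hp).mp (hℓ.dvd_of_dvd_pow h))
  let b := Module.finBasisOfFinrankEq R ρ.V ρ.finrank_eq
  rw [hT, ← LinearMap.charpoly_toMatrix (ρ.ρ σ) b, Matrix.charpoly_fin_two,
    ← LinearMap.trace_eq_matrix_trace, LinearMap.det_toMatrix, hd]

/-- Orders on the levels of the model of `J₀(M)` at a prime `p ∤ M`. -/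
theorem nonempty_galOrder_model {M p : ℕ} [NeZero M] [Fact p.Prime] (hpM : ¬ p ∣ M) (n : ℕ) :
    Nonempty (FiniteFlat.GalOrder p
      (GaloisReps.ModelLevel (GaloisReps.modelOfCongruence (GaloisReps.congruenceProperty M p)) n)) := by
  obtain ⟨O'⟩ := FiniteFlat.nonempty_galOrder_jTorsBy (Fact.out : p.Prime) hpM
    (c := ((p ^ n : ℕ) : ℤ)) (Int.natCast_ne_zero.mpr (pow_ne_zero n (Fact.out : p.Prime).ne_zero))
  let i : GaloisReps.JTors M p n →+ FiniteFlat.JTorsBy M ((p ^ n : ℕ) : ℤ) :=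
    { toFun := fun x => ⟨(x : JZero M), x.2⟩
      map_zero' := rfl
      map_add' := fun _ _ => rfl }
  exact GaloisReps.nonempty_galOrder_modelLevel
    (GaloisReps.torsionIso M p (GaloisReps.conjProperty M))
    (GaloisReps.torsionGalois M p (GaloisReps.congruenceProperty M p)) n i
    (fun x y h => Subtype.ext (congrArg Subtype.val h :)) (fun σ x => rfl) O'

variable {O : Type} [CommRing O] [IsDomain O] [IsDiscreteValuationRing O]
  [IsAdicComplete (maximalIdeal O) O] {ρbar : ResidualGaloisRep (ResidueField O)} {p : ℕ}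

omit [IsAdicComplete (maximalIdeal O) O] in
/-- Flatness at the points of level prime to `p`. -/
theorem pointCond_flat (hp : p.Prime) (habs : ρbar.IsAbsolutelyIrreducible) :
    PointCond p ρbar (flatCond (O := O) p) (fun M => ¬ p ∣ M) := by
  intro M _ g hg hpM O' _ _ _ _ hfinres _ _ _ _ ρ j hj hres hdet htr
  haveI : Fact p.Prime := ⟨hp⟩
  obtain ⟨π, hπ⟩ := exists_attached hp hg ρ j hj hdet htr
  exact GaloisReps.isFlatAt_of_frobCharpoly _ ρ hfinres
    (isAbsolutelyIrreducible_of_isEquiv_baseChange _ habs hres) hdet.1 π hπ (nonempty_galOrder_model hpM)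

omit [IsAdicComplete (maximalIdeal O) O] in
/-- Ordinarity at the points of level exactly divisible by `p` or prime to `p`. -/
theorem pointCond_ord (hp : p.Prime) (hp2 : p ≠ 2) (habs : ρbar.IsAbsolutelyIrreducible)
    (hdist : IsDistinguishedOrdinary p ρbar) (hU : UnitRootProperty p)
    (hG : ∀ (A : ValuationSubring QBar) (M : ℕ) [NeZero (p * M)],
      A.LiesOverPrime p → 4 ∣ M → ¬ p ∣ M → OrdinaryAtP.NoTrivialQuotient A (p * M) p) :
    PointCond p ρbar (ordCond (O := O) p) (fun M => ¬ p ^ 2 ∣ M) := by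
  intro M _ g hg hpM O' _ _ _ _ hfinres _ _ _ _ ρ j hj hres hdet htr
  haveI : Fact p.Prime := ⟨hp⟩
  show ρ.IsOrdinaryAt p
  have habs' := isAbsolutelyIrreducible_of_isEquiv_baseChange _ habs hres
  have hdist' := isDistinguishedOrdinary_residual _ hres hdist
  by_cases hdvd : p ∣ M
  · obtain ⟨π, hπ⟩ := exists_attached hp hg ρ j hj hdet htr
    obtain ⟨N, _, hMN, h4, hpN⟩ := OrdinaryAtP.exists_four_mul_level hp2 ⟨hdvd, hpM⟩
    exact OrdinaryAtP.isOrdinaryAt_of_frobCharpoly hMN hp2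
      (GaloisReps.congruenceProperty (p * N) p) (fun P hP => hG P N hP h4 hpN) ρ habs' hdet.1 π hπ
      hdist'.1
  · obtain ⟨R, _, _, _, _, _, _, _, _, hloc, jR, x, hinj, hjR, hcomp, hx⟩ :=
      exists_coeff_point O' j hj (ConductorLevel.isIntegral_qCoeff (f := g) hg.1 hp)
    let ρR := ρ.baseChangeAlong (algebraMap O' R) hloc
    have htrR : ∀ σ, LinearMap.trace R ρR.V (ρR.ρ σ) =
        algebraMap O' R (LinearMap.trace O' ρ.V (ρ.ρ σ)) := fun σ => by
      letI := (algebraMap O' R).toAlgebra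
      exact LinearMap.trace_baseChange (ρ.ρ σ) R
    have hval : ∀ ℓ : ℕ, ∃ y : R, ℓ.Prime → ¬ ℓ ∣ M → jR y = qCoeff g ℓ := by
      intro ℓ
      by_cases h : ℓ.Prime ∧ ¬ ℓ ∣ M
      · by_cases hℓp : ℓ = p
        · exact ⟨x, fun _ _ => hℓp ▸ hx⟩
        · obtain ⟨A, hA⟩ := Arith.exists_liesOverPrime h.1
          obtain ⟨σ, hσ⟩ := Arith.exists_isFrobeniusAt hA h.1
          exact ⟨algebraMap O' R (LinearMap.trace O' ρ.V (ρ.ρ σ)), fun _ _ =>
            (RingHom.congr_fun hcomp _).trans (htr ℓ h.1 hℓp h.2 A hA σ hσ)⟩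
      · exact ⟨0, fun h1 h2 => absurd ⟨h1, h2⟩ h⟩
    choose a ha using hval
    have hresR : ρR.residual.IsEquiv
        (ρ.residual.baseChangeAlong (ResidueField.map (algebraMap O' R))) :=
      residual_baseChangeAlong_isEquiv (algebraMap O' R) hloc ρ
    have hpR : (p : R) ∈ maximalIdeal R := by
      rw [← map_natCast (algebraMap O' R) p]
      exact map_nonunit (algebraMap O' R) _ hdet.1
    obtain ⟨hord, -⟩ := hU R hpR jR hjR M a ρR hdvd
      ⟨M, inferInstance, g, hg, dvd_rfl, fun ℓ hℓ hℓM => (ha ℓ hℓ hℓM).symm⟩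
      (isAbsolutelyIrreducible_of_isEquiv_baseChange _ habs' hresR)
      (isDistinguishedOrdinary_residual _ hresR hdist')
      (CFT.Tangent.DetIsCyclotomic.baseChange _ hloc hdet)
      (fun ℓ hℓ hℓp hℓM A hA σ hσ => hjR (by
        rw [htrR, ha ℓ hℓ hℓM]
        exact (RingHom.congr_fun hcomp _).trans (htr ℓ hℓ hℓp hℓM A hA σ hσ)))
    exact isOrdinaryAt_of_pair hdist.2 (algebraMap O' R) hloc (algebraMap O' R) hloc
      (fun a h0 _ => hinj (h0.trans (map_zero _).symm)) _ hres hord hord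

end Fermat.Agent.RT.Lifting

end
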