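import Fermat.Agent.RT.Lifting.AtP.Conds
import Fermat.Agent.EC.Rep.Local.StrictOrdinary
import Fermat.Agent.EC.Rep.TWHypothesis
import Fermat.Agent.Deform.Residual

/-!
# The residual representation of a curve with multiplicative reduction at `p`
-/

set_option autoImplicit false
set_option linter.style.haveILetI false

noncomputable section

open IsLocalRing Module
open scoped TensorProduct

namespace Fermat.Agent.RT.Lifting

open Fermat.Agent.Deform Fermat.Agent.Arith

variable {O : Type} [CommRing O] [IsDomain O] [IsDiscreteValuationRing O]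
  {p : ℕ} [Fact p.Prime] [CharP (ResidueField O) p] {W : Rigid O}
  {ρbar : ResidualGaloisRep (ResidueField O)} {bb : Basis (Fin 2) (ResidueField O) ρbar.V}
  {E : WeierstrassCurve ℤ} {hΔ : E.Δ ≠ 0}

/-- `ρbar` is the extension of scalars of `E[p]`. -/
theorem isEquiv_residualRep (hW : W.rb = matRes ρbar bb) (hE : IsResidualOf E hΔ p W) :
    ρbar.IsEquiv ((EC.Rep.residualRep E p hΔ).baseChangeAlong
      (ZMod.castHom dvd_rfl (ResidueField O))) := by
  obtain ⟨b, hb⟩ := hE
  letI := (ZMod.castHom dvd_rfl (ResidueField O) : ZMod p →+* ResidueField O).toAlgebra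
  refine isEquiv_of_matRes_eq bb (b.baseChange (ResidueField O)) ?_
  rw [← hW]
  refine Eq.trans ?_ (matRes_baseChangeAlong _ _ b).symm
  refine MonoidHom.ext fun σ => Matrix.ext fun i j => ?_
  rw [mapM_apply]
  exact hb σ i j

/-- At an odd multiplicative prime `p`, `ρbar` is distinguished ordinary. -/
theorem isDistinguishedOrdinary_of_multiplicative (hW : W.rb = matRes ρbar bb)
    (hE : IsResidualOf E hΔ p W) (hS : E.IsSemistableModel) (hp2 : p ≠ 2)
    (hbad : (p : ℤ) ∣ E.Δ) : IsDistinguishedOrdinary p ρbar := by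
  obtain ⟨e⟩ := isEquiv_residualRep hW hE
  set f := (ZMod.castHom dvd_rfl (ResidueField O) : ZMod p →+* ResidueField O)
  refine ⟨?_, fun P hP => ?_⟩
  · exact isOrdinaryAt_of_isEquiv
      (ρ := (GaloisRepAdic.ofResidualGaloisRep (EC.Rep.residualRep E p hΔ)).baseChangeAlong f
        inferInstance)
      ⟨⟨e.symm.toLinearEquiv, e.symm.map_apply⟩⟩
      (isOrdinaryAt_baseChange f inferInstance
        (EC.Rep.isStrictOrdinaryAt_residualRep hΔ hp2 hbad
          (hS p (Fact.out : p.Prime) hbad)).isOrdinaryAt)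
  · haveI : Fact (2 < p) := ⟨lt_of_le_of_ne (Fact.out : p.Prime).two_le hp2.symm⟩
    obtain ⟨τ, hτ, hcyc⟩ := EC.Rep.exists_mem_inertia_cyclotomicHom_eq hP (-1 : (ZMod p)ˣ)
    refine ⟨τ, hτ, fun h1 => ZMod.neg_one_ne_one (n := p) (f.injective ?_)⟩
    letI := f.toAlgebra
    have e1 : LinearMap.det (((EC.Rep.residualRep E p hΔ).baseChangeAlong f).ρ τ) =
        f (LinearMap.det ((EC.Rep.residualRep E p hΔ).ρ τ)) :=
      LinearMap.det_baseChange (A := ResidueField O) _
    have e3 : ((EC.Rep.residualRep E p hΔ).baseChangeAlong f).ρ τ =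
        (e.toLinearEquiv : ρbar.V →ₗ[ResidueField O] _) ∘ₗ ρbar.ρ τ ∘ₗ
        (e.toLinearEquiv.symm : _ →ₗ[ResidueField O] ρbar.V) := by
      ext x
      simp [e.map_apply τ]
    rw [EC.Rep.det_residualRep_cyclotomicHom, hcyc, Units.val_neg, Units.val_one, e3,
      LinearMap.det_conj, h1] at e1
    rw [← e1, map_one]

end Fermat.Agent.RT.Lifting

end
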