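import Fermat.Agent.Deform.Burnside
import Fermat.Agent.GaloisReps.Attach

/-!
# Two by two matrix representations with a split element

Representations with equal traces, an element `diag(u, w)`, `u - w` a unit, and residually
irreducible differ by a diagonal change of basis; traces are determined at Frobenius elements.
-/

set_option autoImplicit false
set_option linter.style.haveILetI false

noncomputable section

namespace Fermat.Agent.RT.Lifting.AtP

open IsLocalRing Module Fermat.Agent.Deform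

variable {A : Type} [CommRing A]

/-- Diagonalisation of a matrix whose eigenvalues differ by a unit. -/
theorem exists_conj_diagonal [IsLocalRing A] (M : M2 A) {u w : A} (ht : M.trace = u + w)
    (hd : M.det = u * w) (h : IsUnit (u - w)) :
    ∃ P : (M2 A)ˣ, (↑P⁻¹ : M2 A) * M * P = Matrix.diagonal ![u, w] := by
  rw [Matrix.trace_fin_two] at ht
  rw [Matrix.det_fin_two] at hd
  suffices key : ∃ P : M2 A, IsUnit P.det ∧ M * P = P * Matrix.diagonal ![u, w] by
    obtain ⟨P, hP, hMP⟩ := key
    obtain ⟨Q, rfl⟩ := (Matrix.isUnit_iff_isUnit_det P).mpr hP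
    exact ⟨Q, by rw [mul_assoc, hMP, ← mul_assoc, Units.inv_mul, one_mul]⟩
  have hsum : IsUnit ((M 0 0 - w) + (M 1 1 - w)) := by
    rwa [show M 0 0 - w + (M 1 1 - w) = u - w by linear_combination ht]
  rcases IsLocalRing.isUnit_or_isUnit_of_isUnit_add hsum with hu | hu
  · refine ⟨!![M 0 0 - w, -M 0 1; M 1 0, M 0 0 - w], ?_, ?_⟩
    · rw [Matrix.det_fin_two_of]
      rw [show (M 0 0 - w) * (M 0 0 - w) - -M 0 1 * M 1 0 = (M 0 0 - w) * (u - w) by
        linear_combination M 0 0 * ht - hd]
      exact hu.mul h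
    · ext i j
      fin_cases i <;> fin_cases j <;>
        simp [Matrix.mul_apply, Fin.sum_univ_two, Matrix.diagonal]
      · linear_combination M 0 0 * ht - hd
      · ring
      · linear_combination M 1 0 * ht
      · linear_combination hd - w * ht
  · refine ⟨!![M 0 1, -(M 1 1 - w); M 1 1 - w, M 1 0], ?_, ?_⟩
    · rw [Matrix.det_fin_two_of]
      rw [show M 0 1 * M 1 0 - -(M 1 1 - w) * (M 1 1 - w) = (M 1 1 - w) * (u - w) by
        linear_combination M 1 1 * ht - hd]
      exact hu.mul h
    · ext i j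
      fin_cases i <;> fin_cases j <;>
        simp [Matrix.mul_apply, Fin.sum_univ_two, Matrix.diagonal]
      · linear_combination M 0 1 * ht
      · linear_combination w * ht - hd
      · linear_combination M 1 1 * ht - hd
      · ring

/-- Equal traces, a common split element and off-diagonal units: a diagonal change of basis. -/
theorem exists_conj_eq {R R' : Gal →* M2 A} {τ : Gal} {u w : A} (hu : IsUnit (u - w))
    (hR : R τ = Matrix.diagonal ![u, w]) (hR' : R' τ = Matrix.diagonal ![u, w])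
    (htr : ∀ σ, (R σ).trace = (R' σ).trace) {σ₀ σ₁ : Gal} (hb : IsUnit (R σ₀ 0 1))
    (hc : IsUnit (R σ₁ 1 0)) : ∃ P : (M2 A)ˣ, conjM P R' = R := by
  have hdiag : ∀ σ, R' σ 0 0 = R σ 0 0 ∧ R' σ 1 1 = R σ 1 1 := by
    intro σ
    have h1 := htr σ
    have h2 := htr (σ * τ)
    simp [Matrix.trace_fin_two, map_mul, hR, hR', Matrix.mul_apply, Fin.sum_univ_two] at h1 h2
    have h0 : R' σ 0 0 = R σ 0 0 := hu.mul_right_cancel (by linear_combination w * h1 - h2)
    exact ⟨h0, by linear_combination h0 * (-1 : A) - h1⟩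
  have hprod : ∀ σ σ', R' σ 0 1 * R' σ' 1 0 = R σ 0 1 * R σ' 1 0 := by
    intro σ σ'
    have h1 := (hdiag (σ * σ')).1
    simp only [map_mul, Matrix.mul_apply, Fin.sum_univ_two] at h1
    rw [(hdiag σ).1, (hdiag σ').1] at h1
    linear_combination h1
  have hb' : IsUnit (R' σ₀ 0 1) := isUnit_of_mul_isUnit_left (y := R' σ₁ 1 0)
    (hprod σ₀ σ₁ ▸ hb.mul hc)
  obtain ⟨B, hB⟩ := hb
  obtain ⟨B', hB'⟩ := hb'
  set t : Aˣ := B * B'⁻¹ with ht
  have hten : ∀ σ', R σ' 1 0 = R' σ' 1 0 * (↑t⁻¹ : A) := by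
    intro σ'
    have h := hprod σ₀ σ'
    rw [← hB, ← hB'] at h
    calc R σ' 1 0 = (↑B⁻¹ : A) * ((B : A) * R σ' 1 0) := by rw [← mul_assoc, B.inv_mul, one_mul]
      _ = (↑B⁻¹ : A) * ((B' : A) * R' σ' 1 0) := by rw [← h]
      _ = R' σ' 1 0 * (↑t⁻¹ : A) := by
        rw [ht, mul_inv_rev, inv_inv, Units.val_mul]; ring
  have hzero : ∀ σ, R σ 0 1 = R' σ 0 1 * (t : A) := by
    intro σ
    have h := hprod σ σ₁
    rw [hten σ₁, mul_left_comm] at h
    have hc' : IsUnit (R' σ₁ 1 0) := by
      rw [hten σ₁] at hc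
      exact isUnit_of_mul_isUnit_left hc
    refine hc'.mul_right_cancel ?_
    calc R σ 0 1 * R' σ₁ 1 0
        = R σ 0 1 * R' σ₁ 1 0 * ((↑t⁻¹ : A) * t) := by rw [t.inv_mul, mul_one]
      _ = R' σ₁ 1 0 * (R σ 0 1 * (↑t⁻¹ : A)) * t := by ring
      _ = _ := by rw [← h]; ring
  let P : (M2 A)ˣ :=
    ⟨Matrix.diagonal ![1, (t : A)], Matrix.diagonal ![1, (↑t⁻¹ : A)],
      by rw [Matrix.diagonal_mul_diagonal, ← Matrix.diagonal_one]; congr 1; funext i
         fin_cases i <;> simp,
      by rw [Matrix.diagonal_mul_diagonal, ← Matrix.diagonal_one]; congr 1; funext i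
         fin_cases i <;> simp⟩
  refine ⟨P, MonoidHom.ext fun σ => ?_⟩
  show Matrix.diagonal ![1, (↑t⁻¹ : A)] * R' σ * Matrix.diagonal ![1, (t : A)] = R σ
  ext i j
  rw [Matrix.mul_diagonal, Matrix.diagonal_mul]
  fin_cases i <;> fin_cases j <;> simp
  · exact (hdiag σ).1
  · exact (hzero σ).symm
  · rw [hten σ, mul_comm]
  · rw [mul_comm ((↑t⁻¹ : A)) _, mul_assoc, t.inv_mul, mul_one]; exact (hdiag σ).2

/-- Traces of powers depend only on trace and determinant. -/
theorem trace_pow_eq {X Y : M2 A} (ht : X.trace = Y.trace) (hd : X.det = Y.det) (i : ℕ) :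
    (X ^ i).trace = (Y ^ i).trace := by
  have step : ∀ (Z : M2 A) (k : ℕ),
      Z ^ (k + 2) = Z.trace • Z ^ (k + 1) - Z.det • Z ^ k := by
    intro Z k
    have h : Z * Z = Z.trace • Z - Z.det • 1 := by
      ext i j
      fin_cases i <;> fin_cases j <;>
        simp [Matrix.mul_apply, Fin.sum_univ_two, Matrix.trace_fin_two, Matrix.det_fin_two] <;> ring
    rw [pow_succ, pow_succ, mul_assoc, h, mul_sub, mul_smul_comm, mul_smul_comm, mul_one,
      ← pow_succ]
  induction i using Nat.twoStepInduction with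
  | zero => simp
  | one => simpa using ht
  | more k ih1 ih2 =>
    rw [step, step, Matrix.trace_sub, Matrix.trace_sub, Matrix.trace_smul, Matrix.trace_smul,
      Matrix.trace_smul, Matrix.trace_smul, ih1, ih2, ht, hd]

/-- The trace of the square. -/
theorem two_mul_det (X : M2 A) : 2 * X.det = X.trace * X.trace - (X * X).trace := by
  simp [Matrix.trace_fin_two, Matrix.det_fin_two, Matrix.mul_apply, Fin.sum_univ_two]; ring

/-- Traces and determinants agreeing at almost all Frobenius elements give equal traces. -/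
theorem trace_eq_of_frobenius [IsLocalRing A] [IsHausdorff (maximalIdeal A) A]
    {R R' : Gal →* M2 A} (hR : IsCont R) (hR' : IsCont R') (S : Finset ℕ)
    (h : ∀ ℓ : ℕ, ℓ.Prime → ℓ ∉ S → ∀ B : ValuationSubring (AlgebraicClosure ℚ),
      B.LiesOverPrime ℓ → ∀ s : Gal, B.IsFrobeniusAt s ℓ →
        (R s).trace = (R' s).trace ∧ (R s).det = (R' s).det) (σ : Gal) :
    (R σ).trace = (R' σ).trace := by
  refine sub_eq_zero.mp (IsHausdorff.haus' (I := maximalIdeal A) _ fun n => ?_)
  rw [SModEq.zero, smul_eq_mul, Ideal.mul_top]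
  obtain ⟨F, hF, hfix⟩ := hR n
  obtain ⟨F', hF', hfix'⟩ := hR' n
  obtain ⟨ℓ, hℓ, hℓS, B, hB, s, hs, i, hi⟩ :=
    GaloisReps.frobeniusDensity (F ⊔ F') inferInstance σ S
  have hg := GaloisReps.inv_mul_fixes (g := s ^ i) (h := σ) (fun x hx => (hi x hx).symm)
  have key : ∀ (T : Gal →* M2 A), (∀ a b, T ((s ^ i)⁻¹ * σ) a b - (1 : M2 A) a b ∈
      maximalIdeal A ^ n) → (T σ).trace - (T (s ^ i)).trace ∈ maximalIdeal A ^ n := by
    intro T hT
    have e : T σ - T (s ^ i) = T (s ^ i) * (T ((s ^ i)⁻¹ * σ) - 1) := by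
      rw [mul_sub, ← map_mul, mul_inv_cancel_left, mul_one]
    rw [← Matrix.trace_sub, e, Matrix.trace]
    refine Ideal.sum_mem _ fun a _ => ?_
    rw [Matrix.diag_apply, Matrix.mul_apply]
    exact Ideal.sum_mem _ fun b _ => Ideal.mul_mem_left _ _ (hT b a)
  have h1 := key R (hfix _ fun x hx => hg x (le_sup_left (b := F') hx))
  have h2 := key R' (hfix' _ fun x hx => hg x (le_sup_right (a := F) hx))
  obtain ⟨ht, hd⟩ := h ℓ hℓ hℓS B hB s hs
  have e : (R (s ^ i)).trace = (R' (s ^ i)).trace := by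
    rw [map_pow, map_pow]; exact trace_pow_eq ht hd i
  have := sub_mem h1 h2
  rwa [e, sub_sub_sub_cancel_right] at this

/-- A residually absolutely irreducible representation has off-diagonal unit entries in any
basis. -/
theorem exists_isUnit_entry [IsLocalRing A] (ρ : GaloisRepAdic A)
    (habs : ρ.residual.IsAbsolutelyIrreducible) (b : Basis (Fin 2) A ρ.V) (i j : Fin 2) :
    ∃ σ, IsUnit (matOf ρ b σ i j) := by
  by_contra hne
  push Not at hne
  have hspan := span_matrix_eq_top ρ.residual habs (b.baseChange (ResidueField A))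
  have hle : Submodule.span (ResidueField A) (Set.range fun σ =>
      LinearMap.toMatrixAlgEquiv (b.baseChange (ResidueField A)) (ρ.residual.ρ σ)) ≤
      LinearMap.ker (Matrix.entryLinearMap (ResidueField A) (ResidueField A) i j) := by
    rw [Submodule.span_le]
    rintro _ ⟨σ, rfl⟩
    show LinearMap.toMatrixAlgEquiv (b.baseChange (ResidueField A))
      ((ρ.ρ σ).baseChange (ResidueField A)) i j = 0
    rw [LinearMap.toMatrixAlgEquiv_apply, Basis.baseChange_apply, LinearMap.baseChange_tmul,
      Basis.baseChange_repr_tmul, Algebra.smul_def, mul_one, ResidueField.algebraMap_eq,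
      residue_eq_zero_iff, ← matOf_apply]
    exact hne σ
  have h := hle (hspan ▸ (Submodule.mem_top (x := Matrix.single i j (1 : ResidueField A))))
  simp at h

/-- A simple residual root lifts: a root congruent to `1` of `X² - t X + d`. -/
theorem exists_root_congr_one [IsLocalRing A] [IsAdicComplete (maximalIdeal A) A] {t d : A}
    (h : 1 - t + d ∈ maximalIdeal A) (hd : d - 1 ∉ maximalIdeal A) :
    ∃ w : A, w * w - t * w + d = 0 ∧ w - 1 ∈ maximalIdeal A := by
  open Polynomial in
  obtain ⟨w, hw, hw'⟩ := HenselianRing.is_henselian (I := maximalIdeal A)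
    (X ^ 2 - C t * X + C d) (by monicity!)
    (1 : A) (by simpa using h) (by
      have hu : IsUnit (2 - t) := notMem_maximalIdeal.mp fun hm => hd (by
        have := sub_mem hm h
        rwa [show 2 - t - (1 - t + d) = -(d - 1) by ring, neg_mem_iff] at this)
      simp only [derivative_add, derivative_sub, derivative_X_pow, derivative_mul, derivative_C,
        derivative_X]
      simpa [one_add_one_eq_two] using hu.map (Ideal.Quotient.mk (maximalIdeal A)))
  refine ⟨w, ?_, hw'⟩
  simp [Polynomial.IsRoot] at hw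
  linear_combination hw

end Fermat.Agent.RT.Lifting.AtP

end
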