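import Fermat.Agent.RT.Lifting.AtP.EigenLine
import Fermat.Agent.RT.Lifting.AtP.SplitMatrices
import Fermat.Agent.RT.Lifting.Interface
import Fermat.Agent.RT.Assembly.RepLemmas
import Fermat.Agent.GaloisReps.Models
import Fermat.Agent.ConductorLevel.Eigen

/-!
# The unit root at good ordinary points

A lift of a newform of level prime to `p` whose residual representation is distinguished ordinary
is ordinary, and Frobenius at `p` acts on its unramified quotient by the unit root of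
`X² - a_p X + p`. The proof compares it with the eigen-lattice of `J₀(M)`.
-/

set_option autoImplicit false
set_option linter.style.haveILetI false

noncomputable section

open IsLocalRing Module CongruenceSubgroup ModularFormClass
open Fermat.Agent.Deform Fermat.Agent.Arith
open scoped Pointwise

namespace Fermat.Agent.RT.Lifting.AtP

section Bases

variable {A : Type} [CommRing A] {V : Type} [AddCommGroup V] [Module A V]
  (T : Gal →* Module.End A V)

/-- The matrices of an action in a basis. -/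
def matsIn (b : Basis (Fin 2) A V) : Gal →* M2 A :=
  (LinearMap.toMatrixAlgEquiv b).toMonoidHom.comp T

theorem exists_basis_conjM (b : Basis (Fin 2) A V) (P : (M2 A)ˣ) :
    ∃ b' : Basis (Fin 2) A V, matsIn T b' = conjM P (matsIn T b) := by
  let u : (Module.End A V)ˣ := Units.map (LinearMap.toMatrixAlgEquiv b).symm.toMonoidHom P
  let e : V ≃ₗ[A] V := LinearMap.GeneralLinearGroup.generalLinearEquiv A V u
  refine ⟨b.map e, MonoidHom.ext fun σ => ?_⟩
  have h : LinearMap.toMatrixAlgEquiv b ((↑u⁻¹ : Module.End A V) * T σ * (↑u : Module.End A V)) =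
      conjM P (matsIn T b) σ := by
    rw [map_mul, map_mul]
    exact congrArg₂ (· * ·) (congrArg₂ (· * ·) ((LinearMap.toMatrixAlgEquiv b).apply_symm_apply _)
      rfl) ((LinearMap.toMatrixAlgEquiv b).apply_symm_apply _)
  refine Eq.trans ?_ h
  ext i j
  show LinearMap.toMatrixAlgEquiv (b.map e) (T σ) i j = _
  rw [LinearMap.toMatrixAlgEquiv_apply, LinearMap.toMatrixAlgEquiv_apply]
  rfl

theorem exists_conjM_eq (b b' : Basis (Fin 2) A V) :
    ∃ P : (M2 A)ˣ, conjM P (matsIn T b) = matsIn T b' :=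
  ⟨⟨b.toMatrix b', b'.toMatrix b, b.toMatrix_mul_toMatrix_flip b',
    b'.toMatrix_mul_toMatrix_flip b⟩, MonoidHom.ext fun σ =>
    basis_toMatrix_mul_linearMap_toMatrix_mul_basis_toMatrix b' b b' b (T σ)⟩

end Bases

section Local

variable {A : Type} [CommRing A] [IsLocalRing A] {p : ℕ} [Fact p.Prime]

/-- An element of inertia at `p = 2` fixes the square roots of unity, so its determinant is
residually `1`. -/
theorem ne_two_of_det_ne_one (ρ : GaloisRepAdic A) (hdet : ρ.DetIsCyclotomic p) {τ : Gal}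
    (h : LinearMap.det (ρ.residual.ρ τ) ≠ 1) : p ≠ 2 := by
  rintro rfl
  refine h ?_
  have h1 := hdet.2 1 τ 1 fun μ hμ => by
    rcases sq_eq_one_iff.mp (by simpa using hμ : μ ^ 2 = 1) with rfl | rfl <;> simp
  have h2 : LinearMap.det (ρ.ρ τ) - 1 ∈ maximalIdeal A := by
    refine (Ideal.span_singleton_le_iff_mem _).mpr ?_ (by simpa using h1)
    simpa using hdet.1
  show LinearMap.det ((ρ.ρ τ).baseChange (ResidueField A)) = 1
  rw [LinearMap.det_baseChange, ResidueField.algebraMap_eq, ← map_one (residue A)]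
  exact Ideal.Quotient.eq.mpr h2

/-- The residual determinant. -/
theorem det_residual (ρ : GaloisRepAdic A) (τ : Gal) :
    LinearMap.det (ρ.residual.ρ τ) = residue A (LinearMap.det (ρ.ρ τ)) := by
  show LinearMap.det ((ρ.ρ τ).baseChange (ResidueField A)) = _
  rw [LinearMap.det_baseChange, ResidueField.algebraMap_eq]

omit [Fact p.Prime] in
/-- An element acting residually as `diag(ū, 1)`, `ū ≠ 1`, has eigenvalues `u`, `w ≡ 1`. -/
theorem exists_split_basis [IsAdicComplete (maximalIdeal A) A] (ρ : GaloisRepAdic A)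
    (P : ValuationSubring QBar) (hP : P.LiesOverPrime p)
    (hord : (GaloisRepAdic.ofResidualGaloisRep ρ.residual).IsOrdinaryAt p) {τ : Gal}
    (hτ : τ ∈ P.inertiaSubgroupIn ℚ) (hdet : LinearMap.det (ρ.residual.ρ τ) ≠ 1) :
    ∃ (b : Basis (Fin 2) A ρ.V) (u w : A), IsUnit (u - 1) ∧ IsUnit (u - w) ∧
      matOf ρ b τ = Matrix.diagonal ![u, w] ∧
      ∀ σ ∈ P.inertiaSubgroupIn ℚ,
        matOf ρ b σ 1 0 ∈ maximalIdeal A ∧ matOf ρ b σ 1 1 - 1 ∈ maximalIdeal A := by
  set k := ResidueField A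
  obtain ⟨L, ⟨B, hL⟩, -, hI⟩ := hord P hP
  let B' : Basis (Fin 2) k ρ.residual.V := B
  let X : Gal →* M2 k := (LinearMap.toMatrixAlgEquiv B').toMonoidHom.comp ρ.residual.ρ
  have hX : ∀ σ ∈ P.inertiaSubgroupIn ℚ, X σ 1 0 = 0 ∧ X σ 1 1 = 1 := by
    intro σ hσ
    have h : ∀ j, B'.repr (ρ.residual.ρ σ (B' j)) 1 - B'.repr (B' j) 1 = 0 := by
      intro j
      have hm := hI σ hσ (B' j)
      rw [hL, Submodule.mem_span_singleton] at hm
      obtain ⟨c, hc⟩ := hm
      have hc' : c • B' 0 = ρ.residual.ρ σ (B' j) - B' j := hc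
      rw [← Finsupp.sub_apply, ← map_sub, ← hc']
      simp
    have h0 := h 0
    have h1 := h 1
    simp [sub_eq_zero] at h0 h1
    constructor
    · show LinearMap.toMatrixAlgEquiv B' (ρ.residual.ρ σ) 1 0 = 0
      rw [LinearMap.toMatrixAlgEquiv_apply]; exact h0
    · show LinearMap.toMatrixAlgEquiv B' (ρ.residual.ρ σ) 1 1 = 1
      rw [LinearMap.toMatrixAlgEquiv_apply]; exact h1
  let b₀ : Basis (Fin 2) A ρ.V := Module.finBasisOfFinrankEq A ρ.V ρ.finrank_eq
  set t := (matOf ρ b₀ τ).trace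
  set d := (matOf ρ b₀ τ).det
  -- the bases of the reduction
  have hbar : ∀ (b : Basis (Fin 2) A ρ.V), ∃ Q : (M2 k)ˣ, ∀ σ,
      X σ * Q = (Q : M2 k) * (matOf ρ b σ).map (residue A) := by
    intro b
    obtain ⟨Q, hQ⟩ := exists_conjM_eq ρ.residual.ρ B' (b.baseChange k)
    refine ⟨Q, fun σ => ?_⟩
    have e : matsIn ρ.residual.ρ (b.baseChange k) σ = (matOf ρ b σ).map (residue A) := by
      ext i j
      show LinearMap.toMatrixAlgEquiv (b.baseChange k) ((ρ.ρ σ).baseChange k) i j = _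
      rw [LinearMap.toMatrixAlgEquiv_apply, Basis.baseChange_apply, LinearMap.baseChange_tmul,
        Basis.baseChange_repr_tmul, Algebra.smul_def, mul_one, ResidueField.algebraMap_eq,
        Matrix.map_apply, matOf_apply]
    rw [← e, ← hQ, conjM_apply, ← mul_assoc, ← mul_assoc, Units.mul_inv, one_mul]
    rfl
  have hres : residue A (1 - t + d) = 0 ∧ residue A d ≠ 1 := by
    obtain ⟨Q, hQ⟩ := hbar b₀
    have e : X τ = (Q : M2 k) * (matOf ρ b₀ τ).map (residue A) * (↑Q⁻¹ : M2 k) := by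
      rw [← hQ, mul_assoc, Units.mul_inv, mul_one]
    have et : (X τ).trace = residue A t := by
      rw [e, Matrix.trace_units_conj]; exact (AddMonoidHom.map_trace (residue A) _).symm
    have ed : (X τ).det = residue A d := by
      rw [e, Matrix.det_units_conj]; exact ((residue A).map_det _).symm
    rw [Matrix.trace_fin_two, (hX τ hτ).2] at et
    rw [Matrix.det_fin_two, (hX τ hτ).1, (hX τ hτ).2, mul_zero, sub_zero, mul_one] at ed
    refine ⟨by rw [map_add, map_sub, map_one, ← et, ← ed]; ring, ?_⟩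
    rw [show d = LinearMap.det (ρ.ρ τ) from LinearMap.det_toMatrix b₀ _, ← det_residual]
    exact hdet
  obtain ⟨w, hw, hw1⟩ := exists_root_congr_one (t := t) (d := d)
    ((residue_eq_zero_iff _).mp hres.1) fun hm => hres.2 (by
      rw [← map_one (residue A)]; exact Ideal.Quotient.eq.mpr hm)
  have hu : IsUnit (t - w - 1) := notMem_maximalIdeal.mp fun hm => hres.2 (by
    have hw' : residue A w = 1 := by rw [← map_one (residue A)]; exact Ideal.Quotient.eq.mpr hw1
    have ht' : residue A (t - w - 1) = 0 := (residue_eq_zero_iff _).mpr hm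
    have h2 := congrArg (residue A) hw
    simp only [map_add, map_sub, map_mul, map_zero, hw', map_one] at h2 ht'
    linear_combination h2 + ht')
  have huw : IsUnit (t - w - w) := notMem_maximalIdeal.mp fun hm => notMem_maximalIdeal.mpr hu (by
    have := add_mem hm hw1
    rwa [sub_add_sub_cancel] at this)
  obtain ⟨P₀, hP₀⟩ := exists_conj_diagonal (matOf ρ b₀ τ) (u := t - w) (w := w)
    (sub_add_cancel t w).symm (by linear_combination hw) huw
  obtain ⟨b, hb⟩ := exists_basis_conjM ρ.ρ b₀ P₀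
  have hbτ : matOf ρ b τ = Matrix.diagonal ![t - w, w] := (DFunLike.congr_fun hb τ).trans hP₀
  refine ⟨b, t - w, w, hu, huw, hbτ, fun σ hσ => ?_⟩
  -- the adapted basis reduces to one adapted to the ordinary line
  obtain ⟨Q, hQ⟩ := hbar b
  have hT := hQ τ
  rw [hbτ] at hT
  have h10 := congrArg (fun Y : M2 k => Y 1 0) hT
  simp [Matrix.mul_apply, Fin.sum_univ_two, (hX τ hτ).1, (hX τ hτ).2] at h10
  have hu' : residue A t - residue A w - 1 ≠ 0 := fun h =>
    notMem_maximalIdeal.mpr hu ((residue_eq_zero_iff _).mp (by simpa using h))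
  have hQ10 : (Q : M2 k) 1 0 = 0 :=
    (mul_eq_zero.mp (show (Q : M2 k) 1 0 * (residue A t - residue A w - 1) = 0 by
      linear_combination -h10)).resolve_right hu'
  have hdQ : (Q : M2 k).det ≠ 0 := ((Matrix.isUnit_iff_isUnit_det _).mp Q.isUnit).ne_zero
  rw [Matrix.det_fin_two, hQ10, mul_zero, sub_zero] at hdQ
  have hS := hQ σ
  have e10 := congrArg (fun Y : M2 k => Y 1 0) hS
  have e11 := congrArg (fun Y : M2 k => Y 1 1) hS
  simp [Matrix.mul_apply, Fin.sum_univ_two, hQ10, (hX σ hσ).1, (hX σ hσ).2,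
    (mul_ne_zero_iff.mp hdQ).2] at e10 e11
  exact ⟨(residue_eq_zero_iff _).mp e10, (residue_eq_zero_iff _).mp (by
    rw [map_sub, map_one, e11, sub_self])⟩

end Local

section Coeff

variable {O : Type} [CommRing O] [IsDomain O] [IsDiscreteValuationRing O]
  [IsAdicComplete (maximalIdeal O) O] [Finite (ResidueField O)] [CharZero O]

/-- The character of a newform with values in a finite extension of `O`. -/
theorem exists_eigenCoeff (ι : O →+* ℂ) (hι : Function.Injective ι) {M : ℕ} [NeZero M]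
    {g : CuspForm (Gamma0 M) 2} (hg : g.IsNewform) (a : ℕ → O)
    (ha : ∀ ℓ : ℕ, ℓ.Prime → ¬ ℓ ∣ M → qCoeff g ℓ = ι (a ℓ)) :
    ∃ (O' : Type) (_ : CommRing O') (_ : IsDomain O') (_ : IsDiscreteValuationRing O')
      (_ : IsAdicComplete (maximalIdeal O') O') (_ : Finite (ResidueField O')) (_ : CharZero O')
      (f : O →+* O') (θ : GaloisReps.FullHecke M →+* O'), IsLocalHom f ∧ Function.Injective f ∧
      ∀ (ℓ : ℕ) (hℓ : ℓ.Prime), ¬ ℓ ∣ M → θ (HeckeDuality.heckeOp M 2 ℓ hℓ) = f (a ℓ) := by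
  letI : Algebra O ℂ := ι.toAlgebra
  have : Module.IsTorsionFree O ℂ := Module.isTorsionFree_iff_algebraMap_injective.mpr hι
  letI : Algebra (FractionRing O) ℂ := FractionRing.liftAlgebra O ℂ
  let φ : AlgebraicClosure (FractionRing O) →ₐ[FractionRing O] ℂ := IsAlgClosed.lift
  have : Module.Finite ℤ (GaloisReps.FullHecke M) :=
    IntegralStructure.heckeAlgebra_finite M 2 ∅
  set χ := ConductorLevel.eigenChar hg.1 ∅
  have hrange : ∀ t, ∃ y, φ y = χ t := by
    intro t
    obtain ⟨q, hq, h0⟩ := (Algebra.IsIntegral.isIntegral (R := ℤ) t).map χ.toIntAlgHom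
    have h0' : ((q.map (Int.castRingHom (AlgebraicClosure (FractionRing O)))).map
        (φ : AlgebraicClosure (FractionRing O) →+* ℂ)).IsRoot (χ t) := by
      rw [Polynomial.map_map, RingHom.ext_int
        ((φ : AlgebraicClosure (FractionRing O) →+* ℂ).comp (Int.castRingHom _))
        (algebraMap ℤ ℂ), Polynomial.IsRoot, Polynomial.eval_map]
      exact h0
    have hne : (q.map (Int.castRingHom (AlgebraicClosure (FractionRing O)))).map
        (φ : AlgebraicClosure (FractionRing O) →+* ℂ) ≠ 0 := ((hq.map _).map _).ne_zero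
    have h1 := (Polynomial.mem_roots hne).mpr h0'
    rw [← Polynomial.roots_map_of_injective_of_card_eq_natDegree (RingHom.injective _)
      IsAlgClosed.card_roots_eq_natDegree] at h1
    obtain ⟨y, -, hy⟩ := Multiset.mem_map.mp h1
    exact ⟨y, hy⟩
  choose y hy using hrange
  have hφ : Function.Injective φ := φ.toRingHom.injective
  let θK : GaloisReps.FullHecke M →+* AlgebraicClosure (FractionRing O) :=
    { toFun := y
      map_one' := hφ (by rw [hy, map_one, map_one])
      map_mul' := fun s t => hφ (by rw [hy, map_mul, map_mul, hy, hy])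
      map_zero' := hφ (by rw [hy, map_zero, map_zero])
      map_add' := fun s t => hφ (by rw [hy, map_add, map_add, hy, hy]) }
  obtain ⟨O', i1, i2, i3, i4, i5, i6, i7, i8, i9, j, θ', hinj, hjinj, hcomm, hθ'⟩ :=
    GaloisReps.exists_coeffExt O θK
  refine ⟨O', i1, i2, i3, i4, i5, i6, algebraMap O O', θ', i9, hinj,
    fun ℓ hℓ hℓM => hjinj (hφ ?_)⟩
  rw [← RingHom.comp_apply j θ', hθ', ← RingHom.comp_apply j, hcomm]
  refine (hy _).trans ?_
  rw [IsScalarTower.algebraMap_apply O (FractionRing O) (AlgebraicClosure (FractionRing O)),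
    φ.commutes, ← IsScalarTower.algebraMap_apply, HeckeDuality.heckeOp, dif_neg hℓM,
    ConductorLevel.eigenChar_T hg.1 hℓ hℓM (Set.notMem_empty ℓ)]
  exact ha ℓ hℓ hℓM

end Coeff

section Main

variable {O : Type} [CommRing O] [IsDomain O] [IsDiscreteValuationRing O]
  [IsAdicComplete (maximalIdeal O) O] [Finite (ResidueField O)] [CharZero O] {p : ℕ} [Fact p.Prime]

/-- At the chosen place, in a split basis: the line, the trivial quotient and the Frobenius root. -/
theorem ordinary_at_padicPlace (hp : (p : O) ∈ maximalIdeal O) (hp2 : p ≠ 2) (ι : O →+* ℂ)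
    (hι : Function.Injective ι) {L : ℕ} [NeZero L] (a : ℕ → O) (ρ : GaloisRepAdic O)
    (hpL : ¬ p ∣ L) (hcl : IsClassicalSystem ι L a) (habs : ρ.residual.IsAbsolutelyIrreducible)
    (hdet : ρ.DetIsCyclotomic p)
    (htr : ∀ ℓ : ℕ, ℓ.Prime → ℓ ≠ p → ¬ ℓ ∣ L → ∀ A : ValuationSubring QBar, A.LiesOverPrime ℓ →
      ∀ σ : Gal, A.IsFrobeniusAt σ ℓ → LinearMap.trace O ρ.V (ρ.ρ σ) = a ℓ)
    (b : Basis (Fin 2) O ρ.V) {τ : Gal} (hτ : τ ∈ (padicPlace p).inertiaSubgroupIn ℚ)
    {u w : O} (hu : IsUnit (u - 1)) (huw : IsUnit (u - w))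
    (hbτ : matOf ρ b τ = Matrix.diagonal ![u, w])
    (hres : ∀ σ ∈ (padicPlace p).inertiaSubgroupIn ℚ,
      matOf ρ b σ 1 0 ∈ maximalIdeal O ∧ matOf ρ b σ 1 1 - 1 ∈ maximalIdeal O) :
    (∀ σ ∈ (padicPlace p).decompositionSubgroup ℚ, matOf ρ b σ 1 0 = 0) ∧
    (∀ σ ∈ (padicPlace p).inertiaSubgroupIn ℚ, matOf ρ b σ 1 1 = 1) ∧
    ∀ σ, (padicPlace p).IsFrobeniusAt σ p →
      matOf ρ b σ 1 1 ^ 2 - a p * matOf ρ b σ 1 1 + (p : O) = 0 := by
  classical
  obtain ⟨M, hM, g, hg, hML, ha⟩ := hcl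
  have hpM : ¬ p ∣ M := fun h => hpL (h.trans hML)
  obtain ⟨O', i1, i2, i3, i4, i5, i6, f, θ, hf, hfi, hθ⟩ := exists_eigenCoeff ι hι hg a ha
  have hpO' : (p : O') ∈ maximalIdeal O' := by
    rw [← map_natCast f p]; exact map_nonunit f _ hp
  obtain ⟨ι'⟩ := GaloisReps.exists_padicHom O' hpO'
  letI : Algebra ℤ_[p] O' := ι'.toAlgebra
  let E := GaloisReps.torsionIso M p (GaloisReps.conjProperty M)
  let G := GaloisReps.torsionGalois M p (GaloisReps.congruenceProperty M p)
  let D := E.toModel G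
  let T := D.eigenAction (algebraMap ℤ_[p] O') θ
  let R := mapM f (matOf ρ b)
  have hRc : IsCont R := (isCont_matOf ρ b).map f hf
  have hR'c : IsCont (matsIn T (D.eigenBasis θ)) := fun n => by
    obtain ⟨F, hF, hfix⟩ := D.gal_continuous n
    refine ⟨F, hF, fun σ hσ i j => ?_⟩
    have h := D.eigenMatrix_congr (algebraMap ℤ_[p] O') θ (n := n) (g := 1) (h := σ)
      (by rw [inv_one, one_mul]; exact hfix σ hσ) i j
    rw [show D.eigenMatrix (algebraMap ℤ_[p] O') θ 1 = 1 from
      map_one (matsIn T (D.eigenBasis θ))] at h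
    exact (Ideal.span_singleton_le_iff_mem _).mpr (Ideal.pow_mem_pow hpO' n)
      (Ideal.mem_span_singleton.mpr h)
  have htrace : ∀ σ, (R σ).trace = (matsIn T (D.eigenBasis θ) σ).trace :=
    trace_eq_of_frobenius hRc hR'c (L * p).primeFactors fun ℓ hℓ hℓS A hA s hs => by
      have hℓLp : ¬ ℓ ∣ L * p := fun h => hℓS (Nat.mem_primeFactors.mpr
        ⟨hℓ, h, mul_ne_zero (NeZero.ne L) (Fact.out : p.Prime).ne_zero⟩)
      have hℓp : ℓ ≠ p := fun h => hℓLp (h ▸ dvd_mul_left p L)
      have hℓL : ¬ ℓ ∣ L := fun h => hℓLp (dvd_mul_of_dvd_left h p)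
      have hℓM : ¬ ℓ ∣ M := fun h => hℓL (h.trans hML)
      have hℓMp : ¬ ℓ ∣ M * p := fun h => (hℓ.dvd_mul.mp h).elim hℓM fun h' =>
        hℓp ((Nat.prime_dvd_prime_iff_eq hℓ Fact.out).mp h')
      have hchar : (matsIn T (D.eigenBasis θ) s).charpoly = _ :=
        (LinearMap.charpoly_toMatrix (T s) (D.eigenBasis θ)).trans
          (D.charpoly_eigenAction_frobenius (algebraMap ℤ_[p] O') θ
            GaloisReps.frobeniusDensity hpO' hℓ hℓMp hA hs)
      have e1 : (R s).trace = f (a ℓ) := by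
        rw [← htr ℓ hℓ hℓp hℓL A hA s hs, LinearMap.trace_eq_matrix_trace O b]
        exact (AddMonoidHom.map_trace f _).symm
      have e2 : (R s).det = (ℓ : O') := by
        rw [← map_natCast f, ← Assembly.det_eq_natCast hdet fun n μ hμ =>
          GaloisReps.frobenius_apply_root hA hℓ hs hμ fun h => hℓp
            ((Nat.prime_dvd_prime_iff_eq hℓ Fact.out).mp (hℓ.dvd_of_dvd_pow h)),
          ← LinearMap.det_toMatrix b]
        exact (f.map_det _).symm
      refine ⟨by rw [e1, Assembly.trace_eq_of_charpoly hchar, hθ ℓ hℓ hℓM], ?_⟩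
      rw [e2, Matrix.det_eq_sign_charpoly_coeff, hchar]
      simp
  have hRτ : R τ = Matrix.diagonal ![f u, f w] := by
    ext i j
    rw [mapM_apply, hbτ]
    fin_cases i <;> fin_cases j <;> simp
  have hdetτ : (matsIn T (D.eigenBasis θ) τ).det = f u * f w := by
    refine mul_left_cancel₀ (two_ne_zero (α := O')) ?_
    have h : 2 * (R τ).det = 2 * (matsIn T (D.eigenBasis θ) τ).det := by
      rw [two_mul_det, two_mul_det, ← map_mul, ← map_mul, htrace, htrace]
    rw [← h, hRτ]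
    simp [Fin.prod_univ_two]
  have huw' : IsUnit (f u - f w) := by rw [← map_sub]; exact huw.map f
  obtain ⟨P₁, hP₁⟩ := exists_conj_diagonal (matsIn T (D.eigenBasis θ) τ) (u := f u) (w := f w)
    (by rw [← htrace, hRτ]; simp) hdetτ huw'
  obtain ⟨σ₀, hσ₀⟩ := exists_isUnit_entry ρ habs b 0 1
  obtain ⟨σ₁, hσ₁⟩ := exists_isUnit_entry ρ habs b 1 0
  obtain ⟨P₂, hP₂⟩ := exists_conj_eq huw' hRτ
    (show conjM P₁ (matsIn T (D.eigenBasis θ)) τ = _ from hP₁)
    (fun σ => by rw [htrace, conjM_apply, Matrix.trace_units_conj'])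
    (show IsUnit (R σ₀ 0 1) from hσ₀.map f) (show IsUnit (R σ₁ 1 0) from hσ₁.map f)
  obtain ⟨b₁, hb₁⟩ := exists_basis_conjM T (D.eigenBasis θ) P₁
  obtain ⟨b₂, hb₂⟩ := exists_basis_conjM T b₁ P₂
  rw [hb₁, hP₂] at hb₂
  obtain ⟨hdec, hin, hfrob⟩ := line_of_eigenBasis E G hp2 hpM hpO' θ b₂ R (fun σ j => by
      have e := congrArg Subtype.val (b₂.sum_repr (T σ (b₂ j)))
      rw [Fin.sum_univ_two] at e
      rw [← hb₂]
      show _ = LinearMap.toMatrixAlgEquiv b₂ (T σ) 0 j • _ +
        LinearMap.toMatrixAlgEquiv b₂ (T σ) 1 j • _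
      rw [LinearMap.toMatrixAlgEquiv_apply, LinearMap.toMatrixAlgEquiv_apply]
      exact ((D.coe_eigenAction (algebraMap ℤ_[p] O') θ σ (b₂ j)).symm.trans e.symm :))
    hτ hRτ (by rw [← map_one f, ← map_sub]; exact hu.map f) fun σ hσ =>
      ⟨map_nonunit f _ (hres σ hσ).1, by
        show f _ - 1 ∈ _
        rw [← map_one f, ← map_sub]; exact map_nonunit f _ (hres σ hσ).2⟩
  refine ⟨fun σ hσ => hfi ((hdec σ hσ).trans (map_zero f).symm),
    fun σ hσ => hfi ((hin σ hσ).trans (map_one f).symm), fun σ hσ => hfi ?_⟩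
  have h := hfrob σ hσ
  rw [hθ p Fact.out hpM] at h
  rw [map_zero, map_add, map_sub, map_pow, map_mul, map_natCast]
  exact h

end Main

/-- **`UnitRootProperty`**: lifts of newforms of level prime to `p` with distinguished ordinary
residual representation are ordinary, with the unit root on the unramified quotient. -/
theorem unitRootProperty (p : ℕ) [Fact p.Prime] : UnitRootProperty p := by
  intro O _ _ _ _ _ _ hp ι hι L _ a ρ hpL hcl habs hdist hdet htr
  set A₀ := padicPlace p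
  have hA₀ : A₀.LiesOverPrime p := CFT.Local.padicPlace_liesOverPrime p
  obtain ⟨τ, hτ, hτd⟩ := hdist.2 A₀ hA₀
  have hp2 := ne_two_of_det_ne_one ρ hdet hτd
  obtain ⟨b, u, w, hu, huw, hbτ, hres⟩ := exists_split_basis ρ A₀ hA₀ hdist.1 hτ hτd
  obtain ⟨hdec, hin, hfrob⟩ := ordinary_at_padicPlace hp hp2 ι hι a ρ hpL hcl habs hdet htr b hτ
    hu huw hbτ hres
  obtain ⟨s, hs⟩ := Arith.exists_isFrobeniusAt hA₀ Fact.out
  set R := matOf ρ b
  set α := R s 1 1 with hα
  have hroot : ∀ σ, A₀.IsFrobeniusAt σ p → R σ 1 1 = α := by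
    intro σ hσ
    have hi := Arith.inv_mul_mem_inertia hσ hs
    rw [show σ = s * (s⁻¹ * σ) by group, map_mul, Matrix.mul_apply, Fin.sum_univ_two,
      hdec s hs.choose, hin _ hi, zero_mul, zero_add, mul_one]
  have hunit : IsUnit α := by
    have h := (Matrix.isUnit_iff_isUnit_det _).mp (((Group.isUnit s).map R))
    rw [Matrix.det_fin_two, hdec s hs.choose, mul_zero, sub_zero] at h
    exact isUnit_of_mul_isUnit_right h
  -- an adapted basis at every place over `p`
  have key : ∀ A : ValuationSubring QBar, A.LiesOverPrime p → ∃ b' : Basis (Fin 2) O ρ.V,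
      ∀ σ ∈ A.decompositionSubgroup ℚ, matOf ρ b' σ 1 0 = 0 ∧
        (σ ∈ A.inertiaSubgroupIn ℚ → matOf ρ b' σ 1 1 = 1) ∧
        (A.IsFrobeniusAt σ p → matOf ρ b' σ 1 1 = α) := by
    intro A hA
    obtain ⟨g, rfl⟩ := Arith.exists_smul_eq hA₀ hA Fact.out
    obtain ⟨b', hb'⟩ := exists_basis_conjM ρ.ρ b (R.toHomUnits g)
    refine ⟨b', fun σ hσ => ?_⟩
    have he : matOf ρ b' σ = R (g⁻¹ * σ * g) := by
      refine (DFunLike.congr_fun hb' σ).trans ?_
      rw [conjM_apply, ← map_inv, MonoidHom.coe_toHomUnits, MonoidHom.coe_toHomUnits,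
        map_mul, map_mul]
      rfl
    rw [he]
    have hσA : σ • g • A₀ = g • A₀ := MulAction.mem_stabilizer_iff.mp hσ
    refine ⟨hdec _ (MulAction.mem_stabilizer_iff.mpr ?_), fun hI => hin _ ?_, fun hF => hroot _ ?_⟩
    · rw [mul_smul, mul_smul, hσA, inv_smul_smul]
    · have h := (Arith.mem_inertia_smul_iff (g := g⁻¹) (σ := σ) (A := g • A₀)).mpr hI
      rwa [inv_smul_smul, inv_inv] at h
    · have h := Arith.isFrobeniusAt_conj (g := g⁻¹) hF
      rwa [inv_smul_smul, inv_inv] at h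
  refine ⟨fun A hA => ?_, α, hunit, hfrob s hs, fun b₁ A hA => ?_⟩
  · obtain ⟨b', hb'⟩ := key A hA
    have hline : ∀ σ (v : ρ.V), b'.repr v 1 = 0 → matOf ρ b' σ 1 0 = 0 →
        b'.repr (ρ.ρ σ v) 1 = 0 := by
      intro σ v hv h0
      have h := congrFun (LinearMap.toMatrix_mulVec_repr b' b' (ρ.ρ σ) v) 1
      rw [← h]
      simp only [Matrix.mulVec, dotProduct, Fin.sum_univ_two, hv, mul_zero, add_zero]
      rw [show LinearMap.toMatrix b' b' (ρ.ρ σ) 1 0 = matOf ρ b' σ 1 0 from rfl, h0, zero_mul]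
    have hmem : ∀ v : ρ.V, v ∈ O ∙ b' 0 ↔ b'.repr v 1 = 0 := by
      intro v
      rw [Submodule.mem_span_singleton]
      refine ⟨fun ⟨c, hc⟩ => by rw [← hc]; simp, fun h => ⟨b'.repr v 0, ?_⟩⟩
      conv_rhs => rw [← b'.sum_repr v]
      rw [Fin.sum_univ_two, h, zero_smul, add_zero]
    refine ⟨O ∙ b' 0, ⟨b', rfl⟩, fun σ hσ v hv => ?_, fun σ hσ v => ?_⟩
    · exact (hmem _).mpr (hline σ v ((hmem v).mp hv) (hb' σ hσ).1)
    · have hd : σ ∈ A.decompositionSubgroup ℚ :=
        MulAction.mem_stabilizer_iff.mpr (Arith.mem_inertia_iff_forall_mem.mp hσ).1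
      refine (hmem _).mpr ?_
      have h := congrFun (LinearMap.toMatrix_mulVec_repr b' b' (ρ.ρ σ) v) 1
      rw [map_sub, Finsupp.sub_apply, ← h]
      simp only [Matrix.mulVec, dotProduct, Fin.sum_univ_two]
      rw [show LinearMap.toMatrix b' b' (ρ.ρ σ) 1 0 = matOf ρ b' σ 1 0 from rfl, (hb' σ hd).1,
        show LinearMap.toMatrix b' b' (ρ.ρ σ) 1 1 = matOf ρ b' σ 1 1 from rfl, (hb' σ hd).2.1 hσ]
      ring
  · obtain ⟨b', hb'⟩ := key A hA
    obtain ⟨P, hP⟩ := exists_conjM_eq ρ.ρ b₁ b'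
    refine ⟨P, fun σ hσ => ?_⟩
    rw [show conjM P (matOf ρ b₁) σ = matOf ρ b' σ from DFunLike.congr_fun hP σ]
    exact hb' σ hσ

end Fermat.Agent.RT.Lifting.AtP

end
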