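import Fermat.Agent.RT.MazurP.LocalE

/-!
# At a multiplicative `p` with `p ∤ v_p (Δ)` the field of `E[p]` has no unit Kummer generator

Some `σ` in the tame kernel moves `E[p]`, and multiplies no unit of the field of `E[p]` by a
primitive `p`-th root of unity: otherwise that field would have lower jump one, while the
coordinate near the node of a torsion point has order prime to `p` and is moved to order `ζ - 1`.
-/

set_option autoImplicit false
set_option synthInstance.maxHeartbeats 400000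

open scoped WeierstrassCurve.Affine Pointwise
open WeierstrassCurve WeierstrassCurve.Affine Fermat.Agent.Arith

noncomputable section

namespace Fermat.Agent.RT.Lifting.AtP

open Fermat.Agent.EC.Reduction Fermat.Agent.EC.Multiplicative Fermat.Agent.EC.Rep
open Fermat.Agent.RT.MazurP
open Fermat.Agent.EC.AtP (PointQBar)

variable {A : ValuationSubring (AlgebraicClosure ℚ)} {W : WeierstrassCurve ℤ} {p : ℕ}

/-- A power of an element congruent to one to first order is congruent to one to the same order. -/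
theorem valuation_pow_sub_one_of_lt (hA : A.LiesOverPrime p) (hp : p.Prime) {x : QBar}
    (hx : A.valuation (x - 1) < 1) {n : ℕ} (hn : ¬ p ∣ n) :
    A.valuation (x ^ n - 1) = A.valuation (x - 1) := by
  have := Fact.mk hp
  have : CharP (IsLocalRing.ResidueField A) p := residueField_charP hA hp
  have hxA' : x - 1 ∈ A := (A.valuation_le_one_iff _).mp hx.le
  have hxA : x ∈ A := by simpa using add_mem hxA' (one_mem A)
  have hres : res A x = 1 := by
    rw [← sub_eq_zero, ← res_one (A := A), ← res_sub hxA (one_mem A),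
      res_eq_zero_iff hxA', A.mem_nonunits_iff]
    exact hx
  have hsum : ∀ m : ℕ, (∑ i ∈ Finset.range m, x ^ i) ∈ A ∧
      res A (∑ i ∈ Finset.range m, x ^ i) = m := fun m => by
    induction m with
    | zero => simp [zero_mem]
    | succ m ih =>
      rw [Finset.sum_range_succ]
      exact ⟨add_mem ih.1 (pow_mem hxA m),
        by rw [res_add ih.1 (pow_mem hxA m), ih.2, res_pow hxA, hres, one_pow, Nat.cast_succ]⟩
  have h1 : A.valuation (∑ i ∈ Finset.range n, x ^ i) = 1 := by
    refine le_antisymm ((A.valuation_le_one_iff _).mpr (hsum n).1) (not_lt.mp fun h => hn ?_)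
    rw [← A.mem_nonunits_iff, ← res_eq_zero_iff (hsum n).1, (hsum n).2,
      CharP.cast_eq_zero_iff (IsLocalRing.ResidueField A) p] at h
    exact h
  rw [← geom_sum_mul, map_mul, h1, one_mul]

variable [Fact p.Prime] (hA : A.LiesOverPrime p) (hp2 : p ≠ 2) (hΔ0 : W.Δ ≠ 0)
  (hΔ : (p : ℤ) ∣ W.Δ) (hc₄ : ¬ (p : ℤ) ∣ W.c₄) (hv : ¬ p ∣ padicValInt p W.Δ)
include hA hp2 hΔ0 hΔ hc₄ hv

set_option maxHeartbeats 800000 in
/-- **Très ramifié: no unit Kummer generator.** -/
theorem exists_tameKer_forall_unit_ne :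
    ∃ σ ∈ tameKer A p, σ ∉ wildKer A W p ∧ ∀ (ζ y : QBar), IsPrimitiveRoot ζ p →
      A.valuation y = 1 → (∀ h ∈ wildKer A W p, h y = y) → σ y ≠ ζ * y := by
  classical
  have hp : p.Prime := Fact.out
  have : CharP (IsLocalRing.ResidueField A) p := residueField_charP hA hp
  obtain ⟨⟨F⟩, -⟩ := exists_frame hA hp2 hΔ0 hΔ hc₄
  obtain ⟨τ₀, hτ₀, hprim, hpow, hgen⟩ := exists_tame_generator hA
  set g := (cyclotomicHom p τ₀ : ZMod p).val with hgdef
  have hgcast : (cyclotomicHom p τ₀ : ZMod p) = (g : ZMod p) := by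
    rw [hgdef, ZMod.natCast_val, ZMod.cast_id]
  obtain ⟨N, hN⟩ := exists_node_int hA hp hΔ0 hΔ hc₄
  have hnode : ∀ h ∈ A.inertiaSubgroupIn ℚ, h N.r = N.r ∧ h N.t = N.t ∧ h N.a = N.a :=
    fun h hh => N.map_node_eq (res_inertia hh).1 (res_inertia hh).2
  have hat := (N.not_inE0_iff F.S).mp F.S_not
  obtain ⟨x, y₁, hxy, hS⟩ : ∃ x y₁, ∃ hxy : Affine.Nonsingular
      ((W.map (Int.castRingHom ℚ))⁄(AlgebraicClosure ℚ)).toAffine x y₁,
      F.S = Point.some x y₁ hxy := by
    cases hSd : F.S with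
    | zero => exact (F.S_not (by rw [hSd]; trivial)).elim
    | some x y₁ hxy => exact ⟨x, y₁, hxy, rfl⟩
  rw [hS] at hat
  obtain ⟨hc2, i, hi0, hip, hXp⟩ := N.valuation_pow_of_nsmul (hp.odd_of_ne_two hp2) hat
    (by rw [← natCast_zsmul, ← hS]; exact F.hS)
  rw [hN, ← pow_mul] at hXp
  set k := padicValInt p W.Δ * i with hk
  have hpk : ¬ p ∣ k := fun h => by
    rcases hp.dvd_mul.mp h with h | h
    · exact hv h
    · exact absurd (Nat.le_of_dvd hi0 h) (by omega)
  have hnear := N.nearNode hxy hat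
  obtain ⟨hXlt, hYlt⟩ := (N.atNode_some hxy).mp hat
  have hxA : x ∈ A := by simpa using add_mem ((A.valuation_le_one_iff _).mp hXlt.le) N.hr
  have hyA : y₁ ∈ A := by simpa using add_mem ((A.valuation_le_one_iff _).mp hYlt.le) N.ht
  set X := x - N.r with hXdef
  have hX0 : X ≠ 0 := NearNode.X_ne_zero hc2
  have hvX0 : A.valuation X ≠ 0 := (Valuation.ne_zero_iff _).mpr hX0
  have hXH : ∀ h ∈ A.inertiaSubgroupIn ℚ, h • F.S = F.S → h X = X := by
    intro h hh e
    obtain ⟨h', eh⟩ := EC.Reduction.smul_some (σ := h) hxy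
    rw [hS, eh] at e
    rw [hXdef, map_sub, (hnode h hh).1, ((Point.some.injEq ..).mp e).1]
  have hpv : A.valuation (p : QBar) ≠ 0 :=
    (Valuation.ne_zero_iff _).mpr (Nat.cast_ne_zero.mpr hp.ne_zero)
  -- some element of the tame kernel moves `S`
  have hmove : ∃ τ ∈ tameKer A p, τ • F.S ≠ F.S := by
    by_contra hall
    simp only [not_exists, not_and, not_not] at hall
    have : NeZero (p : QBar) := ⟨Nat.cast_ne_zero.mpr hp.ne_zero⟩
    obtain ⟨ζ, hζ⟩ := HasEnoughRootsOfUnity.exists_primitiveRoot QBar p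
    obtain ⟨hP1, hP1p, -⟩ := zeta_sub_one hA hp hζ
    obtain ⟨hN', hg⟩ := fixed_prod_pow (fun h hh => conj_mem_tameKer hτ₀ hh) hpow
      (x := X) fun h hh => hXH h (mem_tameKer.mp hh).1 (hall h hh)
    set P := ∏ j ∈ Finset.range (p - 1), (τ₀ ^ j) X
    have hP0 : P ≠ 0 := Finset.prod_ne_zero_iff.mpr fun j _ => (map_ne_zero _).mpr hX0
    obtain ⟨m, hm⟩ := exists_zpow_of_inertiaFixed hA hp hP0 fun τ hτ => by
      obtain ⟨j, hj⟩ := hgen τ hτ
      have h1 : ∀ l : ℕ, (τ₀ ^ l) P = P := fun l => by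
        induction l with
        | zero => simp
        | succ l ih => rw [pow_succ, AlgEquiv.mul_apply, hg, ih]
      rw [show τ = τ₀ ^ j * ((τ₀ ^ j)⁻¹ * τ) by group, AlgEquiv.mul_apply, hN' _ hj, h1]
    rw [map_prod, Finset.prod_congr rfl fun j _ => valuation_inertia (pow_mem hτ₀ j) X,
      Finset.prod_const, Finset.card_range] at hm
    have hd : ((p : ℤ)) * m = ((k * (p - 1) : ℕ) : ℤ) := by
      refine zpow_right_injective₀ (zero_lt_iff.mpr hpv) (A.mem_nonunits_iff.mp hA).ne ?_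
      show A.valuation (p : QBar) ^ ((p : ℤ) * m) = A.valuation (p : QBar) ^ _
      rw [mul_comm (p : ℤ), zpow_mul, ← hm, zpow_natCast, zpow_natCast, ← pow_mul, mul_comm,
        pow_mul, hXp, ← pow_mul]
    have : (p : ℤ) ∣ ((k * (p - 1) : ℕ) : ℤ) := ⟨m, hd.symm⟩
    rcases hp.dvd_mul.mp (Int.natCast_dvd_natCast.mp this) with h | h
    · exact hpk h
    · have := Nat.le_of_dvd (by have := hp.two_le; omega) h
      omega
  obtain ⟨τ, hτ, hτS⟩ := hmove
  obtain ⟨b, hb⟩ := F.smul_S τ (mem_tameKer.mp hτ).1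
  have hb0 : (b : ZMod p) ≠ 0 := fun h => hτS (by
    rw [hb, zsmul_congr F.hR (b := 0) (by rw [h, Int.cast_zero]), zero_zsmul, add_zero])
  set σ := τ ^ ((b : ZMod p)⁻¹).val with hσdef
  have hσ : σ ∈ tameKer A p := pow_mem hτ _
  have hσS : σ • F.S = F.S + F.R := by
    rw [hσdef, F.pow_smul_S hτ hb, zsmul_congr F.hR (b := 1) (by
      push_cast; rw [ZMod.natCast_val, ZMod.cast_id, inv_mul_cancel₀ hb0]), one_zsmul]
  refine ⟨σ, hσ, fun h => F.R_ne ?_, fun ζ y hζ hy hyH hσy => ?_⟩
  · have e := (mem_wildKer.mp h).2 F.S F.hS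
    rw [hσS] at e
    exact add_left_cancel (e.trans (add_zero _).symm)
  have hσn : ∀ m : ℕ, σ ^ m • F.S = F.S + (m : ℤ) • F.R := fun m => by
    rw [F.pow_smul_S hσ (b := 1) (by rw [one_zsmul]; exact hσS), mul_one]
  let T : TowerData A p :=
    { Hk := wildKer A W p
      H₁ := tameKer A p
      σ := σ
      τ₀ := τ₀
      g := g
      ζ := ζ
      le := wildKer_le
      le_inertia := fun h hh => (mem_tameKer.mp hh).1
      σ_mem := hσ
      τ₀_mem := hτ₀
      normal := fun h hh => conj_mem_wildKer (mem_tameKer.mp hσ).1 hh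
      normal_τ₀ := fun h hh => conj_mem_wildKer hτ₀ hh
      normal₁ := fun h hh => conj_mem_tameKer hτ₀ hh
      gen₁ := fun h hh => by
        obtain ⟨c, hc⟩ := F.smul_S h (mem_tameKer.mp hh).1
        refine ⟨(c : ZMod p).val,
          F.mem_wildKer_of (mul_mem (inv_mem (pow_mem hσ _)) hh) ?_⟩
        rw [mul_smul, inv_smul_eq_iff, hσn, hc]
        exact congrArg (F.S + ·) (zsmul_congr F.hR (by
          push_cast; rw [ZMod.natCast_val, ZMod.cast_id]))
      pow_σ := F.mem_wildKer_of (pow_mem hσ _) (by rw [hσn, F.hR, add_zero])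
      gen := hgen
      pow_τ₀ := hpow
      primitive := fun j hj => hprim j (by rw [hgcast]; exact hj)
      g_ne := hgcast ▸ Units.ne_zero _
      conj := by
        have hconj : τ₀ * σ * τ₀⁻¹ ∈ tameKer A p := by
          simpa using conj_mem_tameKer (inv_mem hτ₀) hσ
        refine F.mem_wildKer_of (mul_mem (inv_mem (pow_mem hσ _)) hconj) ?_
        obtain ⟨c, hc⟩ := F.smul_S _ (inv_mem hτ₀)
        have e : σ • τ₀⁻¹ • F.S = τ₀⁻¹ • F.S + F.R := by
          rw [hc, smul_add_point, hσS, smul_zsmul_point, F.smul_R_of_mem hσ]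
          abel
        rw [mul_smul, inv_smul_eq_iff, hσn, mul_smul, mul_smul, e, smul_add_point, smul_inv_smul,
          F.smul_R τ₀ hτ₀, ← hgdef, natCast_zsmul]
      hζ := hζ
      ζ_fixed := fun h hh => by
        rw [apply_root_eq_pow_cyclotomicHom (p := p) h hζ.pow_eq_one, (mem_tameKer.mp hh).2,
          Units.val_one, ZMod.val_one, pow_one]
      τ₀_ζ := apply_root_eq_pow_cyclotomicHom τ₀ hζ.pow_eq_one }
  have hvR := valuation_sCoord_R hA hp2 T rfl F hgcast
  -- the unit gives lower jump one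
  obtain ⟨Wd, hC, -, hσW⟩ := TowerData.exists_wild hA hp T ((A.valuation_le_one_iff _).mp hy.le)
    hyH (by
      show A.valuation (σ y - y) = A.valuation (ζ - 1)
      rw [hσy, show ζ * y - y = (ζ - 1) * y by ring, map_mul, hy, mul_one])
  -- the action on the coordinate near the node
  have hσI := (mem_tameKer.mp hσ).1
  obtain ⟨hσr, hσt, hσa⟩ := hnode σ hσI
  have hσb : σ N.b = N.b := by
    have e := congrArg σ N.sum_ab
    rw [map_add, map_neg, N.map_a₁' σ, hσa, ← N.sum_ab] at e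
    exact add_left_cancel e
  have hσX : σ X = σ x - N.r := by rw [hXdef, map_sub, hσr]
  obtain ⟨h', eσ⟩ := EC.Reduction.smul_some (σ := σ) hxy
  have hdiff : A.valuation (σ x - x) < A.valuation X := by
    obtain ⟨hεA, -⟩ := res_ne_zero_of_valuation_eq_one (A := A) (x := σ X / X)
      (by rw [map_div₀, valuation_inertia hσI, div_self hvX0])
    set U := X ^ p / (p : QBar) ^ k with hUdef
    obtain ⟨hUA, hUres⟩ := res_ne_zero_of_valuation_eq_one (A := A) (x := U)
      (by rw [hUdef, map_div₀, map_pow, map_pow, hXp, div_self (pow_ne_zero _ hpv)])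
    have e1 : (σ X / X) ^ p * U = σ U := by
      rw [hUdef, map_div₀, map_pow, map_pow, map_natCast, div_pow, ← mul_div_assoc,
        div_mul_cancel₀ _ (pow_ne_zero _ hX0)]
    have e2 := congrArg (res A) e1
    rw [res_mul (pow_mem hεA p) hUA, res_pow hεA, (res_inertia_map hσI hUA).2] at e2
    have e3 : res A (σ X / X) = 1 := sub_eq_zero.mp (pow_eq_zero_iff (n := p) hp.ne_zero |>.mp (by
      rw [sub_pow_char, one_pow, mul_left_eq_self₀.mp e2 |>.resolve_right hUres, sub_self]))
    have e4 : A.valuation (σ X / X - 1) < 1 := by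
      rw [← A.mem_nonunits_iff, ← res_eq_zero_iff (sub_mem hεA (one_mem A)),
        res_sub hεA (one_mem A), e3, res_one, sub_self]
    rw [show σ x - x = (σ X / X - 1) * X by
      rw [sub_mul, div_mul_cancel₀ _ hX0, one_mul, hσX, hXdef]; ring, map_mul]
    exact mul_lt_of_lt_one_left (zero_lt_iff.mpr hvX0) e4
  have hR2 : ∀ P : PointQBar W, σ • F.S = P → P - F.S = F.R := fun P h => by rw [← h, hσS]; abel
  have hne : σ x ≠ x := by
    intro hx
    rcases Y_eq_of_X_eq h'.left hxy.left hx with hy' | hy'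
    · refine F.R_ne ((hR2 _ (show σ • F.S = F.S by
        rw [hS, eσ]; exact some_eq_some _ _ hx hy')).symm.trans (sub_self _))
    · refine F.S_not ?_
      have hneg : σ • F.S = -F.S := by
        rw [hS, eσ, Point.neg_some]; exact some_eq_some _ _ hx hy'
      have h2 : (2 : ℕ) • F.S ∈ N.red.E0 := by
        rw [show (2 : ℕ) • F.S = -F.R by rw [← hR2 _ hneg, two_nsmul]; abel]
        exact neg_mem (show F.R ∈ N.red.E0 from InE1.inE0 F.R_inE1)
      obtain ⟨j, hj⟩ := hp.odd_of_ne_two hp2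
      have e : F.S = (j + 1) • (2 : ℕ) • F.S := by
        rw [← mul_smul, show (j + 1) * 2 = p + 1 by omega, add_smul, one_smul,
          ← natCast_zsmul, F.hS, zero_add]
      show F.S ∈ N.red.E0
      rw [e]
      exact nsmul_mem h2 _
  obtain ⟨-, hs⟩ := sCoord_add_neg_of_branch N (h := hxy) (h' := h') hxA
    (res_inertia_map hσI hxA).1 (res_inertia_map hσI hyA).1 (by
      have key : ∀ a : QBar, σ a = a → A.valuation (y₁ - N.t - a * (x - N.r)) <
          A.valuation (x - N.r) → A.valuation (σ y₁ - N.t - a * (σ x - N.r)) <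
          A.valuation (x - N.r) := by
        intro a ha hu
        rwa [show σ y₁ - N.t - a * (σ x - N.r) = σ (y₁ - N.t - a * (x - N.r)) by
          rw [map_sub, map_mul, map_sub, map_sub, ha, hσr, hσt], valuation_inertia hσI]
      rcases hnear.either hc2 with h | h
      · exact Or.inl ⟨h, key _ hσa h⟩
      · exact Or.inr ⟨h, key _ hσb h⟩) hne hdiff
  have hjump : A.valuation (σ X / X - 1) = A.valuation (ζ - 1) := by
    rw [show A.valuation (ζ - 1) = A.valuation (sCoord F.R) from hvR.symm,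
      ← hR2 _ (show σ • F.S = _ by rw [hS, eσ]), hS,
      sub_eq_add_neg (Point.some (σ x) (σ y₁) h'), hs, div_sub_one hX0, hσX,
      show σ x - N.r - X = σ x - x by rw [hXdef]; ring, map_div₀]
  -- compare with the uniformiser of the field with jump one
  set π := Wd.C.π with hπdef
  have hπ0 : π ≠ 0 := Wd.C.π_ne_zero
  have hvπ : A.valuation π ≠ 0 := (Valuation.ne_zero_iff _).mpr hπ0
  have hπlt : A.valuation π < 1 := A.mem_nonunits_iff.mp Wd.C.π_nonunit
  have hπe : A.valuation (p : QBar) = A.valuation π ^ (p * (p - 1)) := by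
    rw [Wd.C.val_p, Wd.e_eq]
  have hXC : ∀ h ∈ Wd.C.H, h X = X := fun h hh =>
    hXH h (Wd.C.le_inertia hh) ((mem_wildKer.mp (hC ▸ hh)).2 F.S F.hS)
  obtain ⟨n', hn'⟩ := Wd.C.discrete X hX0 hXC
  set n := (p - 1) * k with hn
  have hpn : ¬ p ∣ n := fun h => by
    rcases hp.dvd_mul.mp h with h | h
    · have := Nat.le_of_dvd (by have := hp.two_le; omega) h
      omega
    · exact hpk h
  have hvXn : A.valuation X = A.valuation π ^ n := by
    refine (pow_left_inj₀ zero_le zero_le hp.ne_zero).mp ?_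
    rw [hXp, hπe, ← pow_mul, ← pow_mul]
    congr 1
    rw [hn]; ring
  obtain ⟨w, hwA, hw⟩ := Wd.σ_π
  rw [hσW, ← hπdef] at hw
  set επ := σ π / π with hεπ
  have hεπ1 : επ - 1 = π * ((Wd.u : QBar) + w * π) := by
    rw [hεπ, show T.σ = σ from rfl] at *
    rw [hw]; field_simp; ring
  obtain ⟨hu1A, hu1⟩ : (Wd.u : QBar) + w * π ∈ A ∧ res A ((Wd.u : QBar) + w * π) ≠ 0 := by
    have hwπ : w * π ∈ A.nonunits := nonunits_mul_left hwA Wd.C.π_nonunit
    refine ⟨add_mem Wd.u.2 (mem_of_mem_nonunits hwπ), ?_⟩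
    rw [res_add Wd.u.2 (mem_of_mem_nonunits hwπ), res_eq_zero hwπ, add_zero, res_of_mem Wd.u.2]
    exact Wd.u_ne
  have hvεπ : A.valuation (επ - 1) = A.valuation π := by
    rw [hεπ1, map_mul]
    refine (mul_right_eq_self₀.mpr (Or.inl ?_))
    refine le_antisymm ((A.valuation_le_one_iff _).mpr hu1A) (not_lt.mp fun h => hu1 ?_)
    exact (res_eq_zero_iff hu1A).mpr (A.mem_nonunits_iff.mpr h)
  set U := X / π ^ n with hU
  have hU1 : A.valuation U = 1 := by
    rw [hU, map_div₀, map_pow, hvXn, div_self (pow_ne_zero _ hvπ)]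
  obtain ⟨hUA, -⟩ := res_ne_zero_of_valuation_eq_one hU1
  obtain ⟨w', hw'A, hw'⟩ := Wd.scalar U hUA fun h hh => by
    rw [hU, map_div₀, map_pow, hXC h hh, Wd.C.π_fixed h hh]
  rw [hσW, show T.σ = σ from rfl, ← hπdef] at hw'
  have hU0 : U ≠ 0 := (Valuation.ne_zero_iff A.valuation).mp (by rw [hU1]; exact one_ne_zero)
  have hXdec : σ X / X - 1 = (επ ^ n - 1) + επ ^ n * (w' * π ^ 2 / U) := by
    have e1 : σ X = σ π ^ n * σ U := by
      rw [← map_pow, ← map_mul, hU, mul_div_cancel₀ _ (pow_ne_zero _ hπ0)]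
    have e2 : X = π ^ n * U := by rw [hU, mul_div_cancel₀ _ (pow_ne_zero _ hπ0)]
    have hp' : π ^ n ≠ 0 := pow_ne_zero _ hπ0
    rw [e1, e2, ← hw', hεπ, div_pow]
    field_simp
    ring
  have hlt : A.valuation (επ - 1) < 1 := hvεπ ▸ hπlt
  have hεv : A.valuation επ = 1 := by
    rw [hεπ, map_div₀, valuation_inertia hσI, div_self hvπ]
  have hsmall : A.valuation (επ ^ n * (w' * π ^ 2 / U)) < A.valuation π := by
    rw [map_mul, map_pow, hεv, one_pow, one_mul, map_div₀, hU1, div_one, map_mul, map_pow]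
    calc A.valuation w' * A.valuation π ^ 2 ≤ A.valuation π ^ 2 :=
          mul_le_of_le_one_left' ((A.valuation_le_one_iff _).mpr hw'A)
      _ < A.valuation π := by
          conv_rhs => rw [← pow_one (A.valuation π)]
          exact pow_lt_pow_right_of_lt_one₀ (zero_lt_iff.mpr hvπ) hπlt one_lt_two
  have hmain : A.valuation (σ X / X - 1) = A.valuation π := by
    rw [hXdec, A.valuation.map_add_eq_of_lt_left, valuation_pow_sub_one_of_lt hA hp hlt hpn, hvεπ]
    rwa [valuation_pow_sub_one_of_lt hA hp hlt hpn, hvεπ]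
  have hζπ : A.valuation (ζ - 1) = A.valuation π ^ p := by
    refine (pow_left_inj₀ zero_le zero_le (by have := hp.two_le; omega : p - 1 ≠ 0)).mp ?_
    rw [(zeta_sub_one hA hp hζ).2.1, hπe, ← pow_mul]
  rw [hjump, hζπ] at hmain
  exact absurd hmain (ne_of_lt ((pow_lt_pow_right_of_lt_one₀ (zero_lt_iff.mpr hvπ) hπlt
    hp.one_lt).trans_eq (pow_one _)))

end Fermat.Agent.RT.Lifting.AtP

end
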