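import Fermat.Agent.RT.Lifting.AtP.Valued
import Fermat.Agent.RT.Assembly.RepLemmas
import Fermat.Prelude.Def_GaloisRep_LocalConditions

/-!
# Upper triangular matrices on a decomposition group at `p`, and their upper entry

An ordinary representation is upper triangular at `p` in some basis, with the second diagonal
entry trivial on inertia.  The upper entry `c` is a cocycle for the determinant on inertia, and
`det s • c (s⁻¹ g s) = z(s) ² • c g` up to a coboundary: so its valuation component is fixed by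
`z(s) ²`.
-/

set_option autoImplicit false
set_option linter.style.haveILetI false
set_option linter.unusedSectionVars false

noncomputable section

namespace Fermat.Agent.RT.Lifting.AtP

open IsLocalRing Module Fermat.Agent.Deform Fermat.Agent.Arith
open scoped Pointwise

variable {A : ValuationSubring QBar} {B : Type} [CommRing B]

variable (A) in
/-- Upper triangular on the decomposition group, with second entry trivial on inertia. -/
structure IsUpperAt (r : Gal →* M2 B) : Prop where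
  low : ∀ σ : Gal, σ • A = A → r σ 1 0 = 0
  inertia : ∀ g ∈ A.inertiaSubgroupIn ℚ, r g 1 1 = 1

theorem smul_eq_of_inertia {g : Gal} (hg : g ∈ A.inertiaSubgroupIn ℚ) : g • A = A :=
  (mem_inertia_iff_forall_mem.mp hg).1

/-- The lower shear. -/
def shearU (γ : B) : (M2 B)ˣ where
  val := !![1, 0; γ, 1]
  inv := !![1, 0; -γ, 1]
  val_inv := by ext i j; fin_cases i <;> fin_cases j <;> simp [Matrix.mul_apply, Fin.sum_univ_two]
  inv_val := by ext i j; fin_cases i <;> fin_cases j <;> simp [Matrix.mul_apply, Fin.sum_univ_two]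

theorem conjM_shearU (γ : B) (r : Gal →* M2 B) (σ : Gal) :
    conjM (shearU γ) r σ =
      !![r σ 0 0 + γ * r σ 0 1, r σ 0 1;
        r σ 1 0 + γ * r σ 1 1 - γ * r σ 0 0 - γ * γ * r σ 0 1, r σ 1 1 - γ * r σ 0 1] := by
  show (!![1, 0; -γ, 1] : M2 B) * r σ * !![1, 0; γ, 1] = _
  ext i j
  fin_cases i <;> fin_cases j <;>
    simp [Matrix.mul_apply, Matrix.vecMul, dotProduct, Fin.sum_univ_two] <;> ring

theorem det_conjM (P : (M2 B)ˣ) (r : Gal →* M2 B) (σ : Gal) : (conjM P r σ).det = (r σ).det := by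
  rw [conjM_apply, Matrix.coe_units_inv, Matrix.det_conj' P.isUnit]

theorem trace_conjM (P : (M2 B)ˣ) (r : Gal →* M2 B) (σ : Gal) :
    (conjM P r σ).trace = (r σ).trace := by
  rw [conjM_apply, Matrix.trace_mul_comm, ← mul_assoc, Units.mul_inv, one_mul]

theorem mul_conjM (P : (M2 B)ˣ) (r : Gal →* M2 B) (σ : Gal) :
    (P : M2 B) * conjM P r σ = r σ * P := by
  rw [conjM_apply, mul_assoc, Units.mul_inv_cancel_left]

namespace IsUpperAt

variable {r : Gal →* M2 B}

theorem det_eq (h : IsUpperAt A r) {σ : Gal} (hσ : σ • A = A) :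
    (r σ).det = r σ 0 0 * r σ 1 1 := by
  rw [Matrix.det_fin_two, h.low σ hσ, mul_zero, sub_zero]

theorem det_eq_inertia (h : IsUpperAt A r) {g : Gal} (hg : g ∈ A.inertiaSubgroupIn ℚ) :
    (r g).det = r g 0 0 := by
  rw [h.det_eq (smul_eq_of_inertia hg), h.inertia g hg, mul_one]

theorem upper_mul (r : Gal →* M2 B) (g g' : Gal) :
    r (g * g') 0 1 = r g 0 0 * r g' 0 1 + r g 0 1 * r g' 1 1 := by
  rw [map_mul, Matrix.mul_apply, Fin.sum_univ_two]

/-- The upper entry on inertia is a cocycle for the determinant. -/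
theorem upper_mul_inertia (h : IsUpperAt A r) {g g' : Gal} (hg : g ∈ A.inertiaSubgroupIn ℚ)
    (hg' : g' ∈ A.inertiaSubgroupIn ℚ) :
    r (g * g') 0 1 = (r g).det * r g' 0 1 + r g 0 1 := by
  rw [upper_mul r g g', h.det_eq_inertia hg, h.inertia g' hg', mul_one]

/-- Conjugation by the decomposition group on the upper entry. -/
theorem det_mul_upper_conj (h : IsUpperAt A r) {s g : Gal} (hs : s • A = A)
    (hg : g ∈ A.inertiaSubgroupIn ℚ) :
    (r s).det * r (s⁻¹ * g * s) 0 1 =
      r s 1 1 ^ 2 * r g 0 1 + ((r g).det - 1) * (r s 1 1 * r s 0 1) := by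
  have hg' := inertia_conj hs hg
  have e1 := upper_mul r g s
  have e2 := upper_mul r s (s⁻¹ * g * s)
  rw [show s * (s⁻¹ * g * s) = g * s by group, e1, h.inertia _ hg'] at e2
  rw [h.det_eq hs, h.det_eq_inertia hg]
  linear_combination -(r s 1 1) * e2

/-- A change of basis preserving the shape at an element of inertia with determinant `d`, `d - 1` a
unit, is upper triangular. -/
theorem lowerLeft_eq_zero (h : IsUpperAt A r) {P : (M2 B)ˣ} (h' : IsUpperAt A (conjM P r))
    {τ : Gal} (hτ : τ ∈ A.inertiaSubgroupIn ℚ) (hu : IsUnit ((r τ).det - 1)) :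
    (P : M2 B) 1 0 = 0 := by
  have e := congr_fun (congr_fun (mul_conjM P r τ) 1) 0
  have hd := h'.det_eq_inertia hτ
  rw [det_conjM] at hd
  simp only [Matrix.mul_apply, Fin.sum_univ_two, h.low τ (smul_eq_of_inertia hτ), h.inertia τ hτ,
    h'.low τ (smul_eq_of_inertia hτ), ← hd] at e
  exact hu.mul_left_eq_zero.mp (by linear_combination e)

/-- The quotient character does not depend on the basis. -/
theorem quot_eq (h : IsUpperAt A r) {P : (M2 B)ˣ}
    (hP : (P : M2 B) 1 0 = 0) {σ : Gal} (hσ : σ • A = A) : conjM P r σ 1 1 = r σ 1 1 := by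
  have hdet : IsUnit (P : M2 B).det := (Matrix.isUnit_iff_isUnit_det _).mp P.isUnit
  rw [Matrix.det_fin_two, hP, mul_zero, sub_zero] at hdet
  have e := congr_fun (congr_fun (mul_conjM P r σ) 1) 1
  simp only [Matrix.mul_apply, Fin.sum_univ_two, hP, h.low σ hσ, zero_mul, zero_add] at e
  exact (isUnit_of_mul_isUnit_right hdet).mul_left_cancel (e.trans (mul_comm _ _))

theorem map {C : Type} [CommRing C] (h : IsUpperAt A r) (φ : B →+* C) :
    IsUpperAt A (mapM φ r) :=
  ⟨fun σ hσ => by rw [mapM_apply, h.low σ hσ, map_zero],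
    fun g hg => by rw [mapM_apply, h.inertia g hg, map_one]⟩

end IsUpperAt

/-- An ordinary representation is upper triangular in some basis. -/
theorem exists_upper_of_isOrdinaryAt [IsLocalRing B] {p : ℕ} {ρ : GaloisRepAdic B}
    (h : ρ.IsOrdinaryAt p) (hA : A.LiesOverPrime p) (b : Basis (Fin 2) B ρ.V) :
    ∃ P : (M2 B)ˣ, IsUpperAt A (conjM P (matOf ρ b)) := by
  obtain ⟨L, ⟨e, he⟩, hD, hI⟩ := h A hA
  let P : (M2 B)ˣ := ⟨b.toMatrix e, e.toMatrix b, b.toMatrix_mul_toMatrix_flip e,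
    e.toMatrix_mul_toMatrix_flip b⟩
  have hP : conjM P (matOf ρ b) = matOf ρ e := MonoidHom.ext fun σ =>
    P.isUnit.mul_left_cancel ((mul_conjM P _ σ).trans
      ((linearMap_toMatrix_mul_basis_toMatrix e b b (ρ.ρ σ)).trans
        (basis_toMatrix_mul_linearMap_toMatrix e b e (ρ.ρ σ)).symm))
  have hL : ∀ v ∈ L, e.repr v 1 = 0 := fun v hv => by
    rw [he] at hv
    obtain ⟨c, rfl⟩ := Submodule.mem_span_singleton.mp hv
    simp
  refine ⟨P, ⟨fun σ hσ => ?_, fun g hg => ?_⟩⟩ <;> rw [hP, matOf_apply]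
  · exact hL _ (hD σ hσ _ (he ▸ Submodule.mem_span_singleton_self _))
  · have := hL _ (hI g hg (e 1))
    rwa [map_sub, Finsupp.sub_apply, Basis.repr_self, Finsupp.single_eq_same, sub_eq_zero] at this

/-- A lift of an upper triangular representation which is upper triangular in some basis is so
after a shear reducing to the identity. -/
theorem exists_shear {C : Type} [CommRing C] (π : B →+* C) (hπ : IsLocalHom π) {r : Gal →* M2 B}
    (h0 : IsUpperAt A (mapM π r)) {P : (M2 B)ˣ} (h : IsUpperAt A (conjM P r)) {τ : Gal}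
    (hτ : τ ∈ A.inertiaSubgroupIn ℚ) (hu : IsUnit ((mapM π r τ).det - 1)) :
    ∃ γ : B, π γ = 0 ∧ IsUpperAt A (conjM (shearU γ) r) := by
  let Q : (M2 C)ˣ := Units.map π.mapMatrix.toMonoidHom P
  have hQ : conjM Q (mapM π r) = mapM π (conjM P r) := MonoidHom.ext fun σ => by
    show _ = π.mapMatrix ((↑P⁻¹ : M2 B) * r σ * (P : M2 B))
    rw [map_mul, map_mul, conjM_apply]
    rfl
  have hQ10 : π ((P : M2 B) 1 0) = 0 := h0.lowerLeft_eq_zero (hQ ▸ h.map π) hτ hu
  have hQdet : IsUnit (Q : M2 C).det := (Matrix.isUnit_iff_isUnit_det _).mp Q.isUnit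
  rw [Matrix.det_fin_two, show (Q : M2 C) 1 0 = π ((P : M2 B) 1 0) from rfl, hQ10, mul_zero,
    sub_zero] at hQdet
  have ha : IsUnit ((P : M2 B) 0 0) :=
    haveI := hπ; isUnit_of_map_unit π _ (isUnit_of_mul_isUnit_left hQdet)
  obtain ⟨a, ha⟩ := ha
  set γ := (P : M2 B) 1 0 * (↑a⁻¹ : B) with hγ
  have hP10 : (P : M2 B) 1 0 = γ * (P : M2 B) 0 0 := by
    rw [hγ, ← ha, mul_assoc, Units.inv_mul, mul_one]
  refine ⟨γ, by rw [hγ, map_mul, hQ10, zero_mul], ?_⟩
  have hx : ∀ σ : Gal, σ • A = A →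
      r σ 0 0 + γ * r σ 0 1 = conjM P r σ 0 0 ∧
        r σ 1 0 + γ * r σ 1 1 = γ * conjM P r σ 0 0 := fun σ hσ => by
    have e0 := congr_fun (congr_fun (mul_conjM P r σ) 0) 0
    have e1 := congr_fun (congr_fun (mul_conjM P r σ) 1) 0
    simp only [Matrix.mul_apply, Fin.sum_univ_two, h.low σ hσ, mul_zero, add_zero, hP10] at e0 e1
    rw [← ha] at e0 e1
    exact ⟨a.isUnit.mul_left_cancel (by linear_combination -e0),
      a.isUnit.mul_left_cancel (by linear_combination -e1)⟩
  refine ⟨fun σ hσ => ?_, fun g hg => ?_⟩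
  · obtain ⟨e0, e1⟩ := hx σ hσ
    rw [conjM_shearU]
    show r σ 1 0 + γ * r σ 1 1 - γ * r σ 0 0 - γ * γ * r σ 0 1 = 0
    linear_combination e1 - γ * e0
  · obtain ⟨e0, -⟩ := hx g (smul_eq_of_inertia hg)
    have ht := trace_conjM P r g
    rw [Matrix.trace_fin_two, Matrix.trace_fin_two, h.inertia g hg] at ht
    rw [conjM_shearU]
    show r g 1 1 - γ * r g 0 1 = 1
    linear_combination -ht - e0

section Twist

variable [IsLocalRing B] {p n : ℕ} {N : Type} [AddCommGroup N]

/-- The determinant is the cyclotomic character. -/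
def IsCycDet (p : ℕ) (r : Gal →* M2 B) : Prop :=
  ∀ (n : ℕ) (σ : Gal) (a : ℕ), IsExp p n σ a → (r σ).det - (a : B) ∈ Ideal.span {((p ^ n : ℕ) : B)}

theorem isCycDet_iff {r : Gal →* M2 B} {hr : IsCont r} :
    (toRep r hr).DetIsCyclotomic p ↔ (p : B) ∈ maximalIdeal B ∧ IsCycDet p r := by
  simp only [GaloisRepAdic.DetIsCyclotomic, IsCycDet, IsExp, Assembly.det_toRep]

theorem IsCycDet.conj {r : Gal →* M2 B} (h : IsCycDet p r) (P : (M2 B)ˣ) :
    IsCycDet p (conjM P r) := fun n σ a ha => by rw [det_conjM]; exact h n σ a ha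

theorem IsCycDet.map {C : Type} [CommRing C] [IsLocalRing C] {r : Gal →* M2 B}
    (h : IsCycDet p r) (φ : B →+* C) : IsCycDet p (mapM φ r) := fun n σ a ha => by
  obtain ⟨t, ht⟩ := Ideal.mem_span_singleton'.mp (h n σ a ha)
  refine Ideal.mem_span_singleton'.mpr ⟨φ t, ?_⟩
  have := congrArg φ ht
  rw [map_mul, map_natCast, map_sub, map_natCast, RingHom.map_det] at this
  exact this

/-- The determinant acts on a module killed by `p ^ n` as the exponent does. -/
theorem IsCycDet.apply_mul {r : Gal →* M2 B} (h : IsCycDet p r) (φ : B →+ N)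
    (hN : ∀ x : N, (p ^ n) • x = 0) {σ : Gal} {a : ℕ} (ha : IsExp p n σ a) (v : B) :
    φ ((r σ).det * v) = a • φ v := by
  obtain ⟨t, ht⟩ := Ideal.mem_span_singleton'.mp (h n σ a ha)
  rw [show (r σ).det = (a : B) + t * ((p ^ n : ℕ) : B) by rw [ht]; ring, add_mul, mul_right_comm,
    mul_comm _ ((p ^ n : ℕ) : B), ← nsmul_eq_mul, ← nsmul_eq_mul, map_add, map_nsmul, map_nsmul,
    hN, add_zero]

variable {r : Gal →* M2 B} (hu : IsUpperAt A r) (hdet : IsCycDet p r)
include hu hdet

/-- The upper entry gives twisted cocycles. -/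
theorem isTwist_upper (hc : IsCont r) (φ : B →+ N) {k : ℕ}
    (hφ : ∀ v ∈ maximalIdeal B ^ k, φ v = 0) (hN : ∀ x : N, (p ^ n) • x = 0) :
    IsTwist A p n fun g => φ (r g 0 1) where
  mul g hg h hh a ha := by
    show φ (r (g * h) 0 1) = _
    rw [hu.upper_mul_inertia hg hh, map_add, hdet.apply_mul φ hN ha]
  level := by
    obtain ⟨L, hL, h⟩ := hc k
    exact ⟨L, hL, fun σ _ hσ => hφ _ (by simpa using h σ hσ 0 1)⟩

/-- The valuation component of the upper entry is the one of its multiple by `z(s) ²`. -/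
theorem hasVal_quot_sq [Fact p.Prime] (φ : B →+ N) (hN : ∀ x : N, (p ^ n) • x = 0) {V : N}
    (h : HasVal A p n (fun g => φ (r g 0 1)) V) {s : Gal} (hs : s • A = A) :
    HasVal A p n (fun g => φ (r s 1 1 ^ 2 * r g 0 1)) V := by
  obtain ⟨b, hb⟩ := exists_isExp p n s
  refine h.conj hN hs hb (φ (r s 1 1 * r s 0 1)) fun g hg a ha => ?_
  rw [← hdet.apply_mul φ hN hb, hu.det_mul_upper_conj hs hg, map_add, sub_mul, one_mul, map_sub,
    hdet.apply_mul φ hN ha]

end Twist

end Fermat.Agent.RT.Lifting.AtP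

end
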