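import Fermat.Agent.RT.Lifting.Setup
import Fermat.Agent.RT.Lifting.AtP.Upper
import Fermat.Agent.RT.Lifting.AtP.TresCurve
import Fermat.Agent.RT.MazurP.Endgame.Local
import Fermat.Agent.EC.Rep.Local.Line

/-!
# A multiplicative `p` with `p ∤ v_p (Δ)` is très ramifiée

The upper entry of an ordinary deformation to the dual numbers has a residual valuation component
which is not zero, as no unit is a Kummer generator of the field of `E[p]`; conjugation by the
decomposition group then forces the square of the quotient character to be one.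
-/

set_option autoImplicit false
set_option linter.style.haveILetI false
set_option synthInstance.maxHeartbeats 400000

noncomputable section

namespace Fermat.Agent.RT.Lifting.AtP

open IsLocalRing Module Fermat.Agent.Deform Fermat.Agent.Arith TrivSqZeroExt
open scoped Pointwise TensorProduct

section Dual

variable {k : Type} [Field k]

theorem residue_dual_eq_zero {x : DualNumber k} : residue (DualNumber k) x = 0 ↔ x.fst = 0 := by
  rw [residue_eq_zero_iff, mem_maximalIdeal, mem_nonunits_iff, isUnit_iff_isUnit_fst,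
    isUnit_iff_ne_zero, not_not]

theorem eq_zero_of_mem_maximalIdeal_sq {x : DualNumber k}
    (hx : x ∈ maximalIdeal (DualNumber k) ^ 2) : x = 0 := by
  have hm : ∀ y ∈ maximalIdeal (DualNumber k), y.fst = 0 := fun y hy =>
    residue_dual_eq_zero.mp ((residue_eq_zero_iff y).mpr hy)
  rw [pow_two] at hx
  refine Submodule.mul_induction_on hx (fun y hy z hz => ?_) fun y z hy hz => by
    rw [hy, hz, add_zero]
  refine TrivSqZeroExt.ext ?_ ?_
  · rw [fst_mul, hm y hy, zero_mul, fst_zero]
  · rw [snd_mul, hm y hy, hm z hz, zero_smul, MulOpposite.op_zero, zero_smul, add_zero, snd_zero]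

theorem natCast_dual_eq_zero (p : ℕ) [CharP k p] : (p : DualNumber k) = 0 :=
  TrivSqZeroExt.ext (by rw [fst_natCast, CharP.cast_eq_zero, fst_zero]) (by rw [snd_natCast, snd_zero])

end Dual

/-- A multiplicative prime `p` with `p ∤ v_p (Δ)` is très ramifiée. -/
theorem tresOfMultiplicative : TresOfMultiplicative := by
  intro p _ hp35 E hΔ hss _ hpΔ hv O _ _ _ _ _ _ _ W ρbar bb hW hE ρ heq hdet hord
  classical
  have hp : p.Prime := Fact.out
  have hp2 : p ≠ 2 := by omega
  set k := ResidueField O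
  have hpk : ∀ x : k, (p ^ 1) • x = 0 := fun x => by
    rw [pow_one, nsmul_eq_mul, CharP.cast_eq_zero, zero_mul]
  obtain ⟨bE, hbE⟩ := hE
  refine EC.Rep.isStrictOrdinaryAt_of_lines ρ hdet fun A hA => ?_
  obtain ⟨L, ⟨e, he⟩, hD, hI⟩ := hord A hA
  have hL : ∀ v ∈ L, e.repr v 1 = 0 := fun v hv => by
    rw [he] at hv
    obtain ⟨c, rfl⟩ := Submodule.mem_span_singleton.mp hv
    simp
  set M := matOf ρ e with hM
  have hu : IsUpperAt A M := by
    refine ⟨fun σ hσ => ?_, fun g hg => ?_⟩ <;> rw [hM, matOf_apply]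
    · exact hL _ (hD σ hσ _ (he ▸ Submodule.mem_span_singleton_self _))
    · have := hL _ (hI g hg (e 1))
      rwa [map_sub, Finsupp.sub_apply, Basis.repr_self, Finsupp.single_eq_same, sub_eq_zero] at this
  have hc : IsCont M := isCont_matOf ρ e
  have hcyc : IsCycDet p M := fun n σ a ha => by
    have := hdet.2 n σ a ha
    rwa [← LinearMap.det_toMatrix e] at this
  -- the kernel of the residual representation
  have hres : ∀ σ, mapM (residue (DualNumber k)) M σ = 1 ↔
      (EC.Rep.residualRep E p hΔ).ρ σ = 1 := by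
    intro σ
    set g := (residue (DualNumber k)).comp (algebraMap k (DualNumber k))
    letI := g.toAlgebra
    obtain ⟨E'⟩ := heq
    set ρ' := ρbar.baseChangeAlong g
    let b₀ : Basis (Fin 2) (ResidueField (DualNumber k)) ρ.residual.V :=
      e.baseChange (ResidueField (DualNumber k))
    let b' : Basis (Fin 2) (ResidueField (DualNumber k)) ρ'.V := b₀.map E'.toLinearEquiv
    rw [show mapM (residue (DualNumber k)) M = matRes ρ' b' from
      ((matRes_eq_of_equiv E' b₀).trans (matRes_residual ρ e)).symm]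
    have h1 : matRes ρ' b' σ = 1 ↔ ρ'.ρ σ = 1 :=
      (LinearMap.toMatrixAlgEquiv b').injective.eq_iff' (map_one _)
    have h2 : matRes ρ' (bb.baseChange _) σ = 1 ↔ ρ'.ρ σ = 1 :=
      (LinearMap.toMatrixAlgEquiv _).injective.eq_iff' (map_one _)
    rw [h1, ← h2, matRes_baseChangeAlong g ρbar bb, ← hW]
    show (W.rb σ).map g = 1 ↔ _
    rw [(Matrix.map_injective g.injective).eq_iff' (Matrix.map_one g (map_zero g) (map_one g))]
    have h3 : W.rb σ = (ZMod.castHom dvd_rfl k).mapMatrix (matRes _ bE σ) :=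
      Matrix.ext fun i j => hbE σ i j
    rw [h3]
    show (matRes _ bE σ).map (ZMod.castHom dvd_rfl k) = 1 ↔ _
    rw [(Matrix.map_injective (ZMod.castHom dvd_rfl k).injective).eq_iff'
      (Matrix.map_one _ (map_zero _) (map_one _))]
    exact (LinearMap.toMatrixAlgEquiv bE).injective.eq_iff' (map_one _)
  -- the two components of the upper entry
  let φ₀ : DualNumber k →+ k := AddMonoidHom.mk' TrivSqZeroExt.fst fun x y => fst_add x y
  let φ₁ : DualNumber k →+ k := AddMonoidHom.mk' TrivSqZeroExt.snd fun x y => snd_add x y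
  obtain ⟨V₀, hV₀⟩ := (isTwist_upper hu hcyc hc φ₀ (k := 2)
    (fun v hv => by rw [eq_zero_of_mem_maximalIdeal_sq hv, map_zero]) hpk).exists_hasVal hA hpk
  obtain ⟨V₁, hV₁⟩ := (isTwist_upper hu hcyc hc φ₁ (k := 2)
    (fun v hv => by rw [eq_zero_of_mem_maximalIdeal_sq hv, map_zero]) hpk).exists_hasVal hA hpk
  have hV0 : V₀ ≠ 0 := by
    intro h0
    subst h0
    obtain ⟨σ, hσ, hσw, hno⟩ := exists_tameKer_forall_unit_ne (W := E) hA hp2 hΔ hpΔ
      (hss p hp hpΔ) fun h => hv (Int.natCast_dvd_natCast.mpr h)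
    obtain ⟨hσI, hσχ⟩ := MazurP.mem_tameKer.mp hσ
    have hexp : IsExp p 1 σ 1 := fun μ hμ => by
      rw [MazurP.apply_root_eq_pow_cyclotomicHom (p := p) σ (by simpa using hμ), hσχ, Units.val_one,
        ZMod.val_one]
    have hdet1 : (M σ).det = 1 := by
      have h := hcyc 1 σ 1 hexp
      rw [pow_one, natCast_dual_eq_zero, Ideal.span_singleton_zero, Ideal.mem_bot,
        sub_eq_zero, Nat.cast_one] at h
      exact h
    have hσA := smul_eq_of_inertia hσI
    have h00 : M σ 0 0 = 1 := by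
      have := hu.det_eq hσA
      rwa [hdet1, hu.inertia σ hσI, mul_one, eq_comm] at this
    have hc0 : φ₀ (M σ 0 1) ≠ 0 := by
      intro hb
      refine hσw (MazurP.mem_wildKer.mpr ⟨⟨hσI, hσχ⟩, fun x hx => ?_⟩)
      have h1 : (EC.Rep.residualRep E p hΔ).ρ σ = 1 := by
        refine (hres σ).mp (Matrix.ext fun i j => ?_)
        rw [mapM_apply]
        fin_cases i <;> fin_cases j
        · simp [h00]
        · exact (residue_dual_eq_zero.mpr hb).trans (by simp)
        · simp [hu.low σ hσA]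
        · simp [hu.inertia σ hσI]
      exact congrArg Subtype.val (LinearMap.congr_fun h1
        ⟨x, (Submodule.mem_torsionBy_iff _ _).mpr hx⟩)
    haveI : NeZero ((Monoid.exponent (Multiplicative k) : ℕ) : QBar) :=
      ⟨Nat.cast_ne_zero.mpr Monoid.exponent_ne_zero_of_finite⟩
    obtain ⟨l, hl⟩ := CommGroup.exists_apply_ne_one_of_hasEnoughRootsOfUnity (Multiplicative k) QBar
      (a := Multiplicative.ofAdd (φ₀ (M σ 0 1))) (by simpa using hc0)
    set ζ := chv l (φ₀ (M σ 0 1))
    have hζ1 : ζ ≠ 1 := fun h => hl (Units.ext h)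
    have hζ : IsPrimitiveRoot ζ p := by
      have hpow : ζ ^ p = 1 := chv_pow_eq_one l (by simp)
      have := (orderOf_eq_prime hpow hζ1)
      exact this ▸ IsPrimitiveRoot.orderOf ζ
    obtain ⟨y, ⟨-, hy⟩, hy1⟩ := hV₀.isPeu l
    refine hno ζ y hζ hy1 (fun h hh => ?_) (hy σ hσI)
    obtain ⟨⟨hhI, -⟩, hfix⟩ := MazurP.mem_wildKer.mp hh
    have h1 := (hres h).mpr (MazurP.residualRep_eq_one_of_forall hΔ hfix)
    have h01 : residue (DualNumber k) (M h 0 1) = 0 := by
      rw [← mapM_apply, h1]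
      rfl
    have h0 : φ₀ (M h 0 1) = 0 := residue_dual_eq_zero.mp h01
    rw [hy h hhI]
    simp only [h0, chv_zero, one_mul]
  -- the square of the quotient character
  have hline : ∀ σ : Gal, σ • A = A → ∀ v : ρ.V,
      ρ.ρ σ v - M σ 1 1 • v ∈ DualNumber k ∙ e 0 := by
    intro σ hσ v
    refine Submodule.mem_span_singleton.mpr
      ⟨e.repr (ρ.ρ σ v - M σ 1 1 • v) 0, ?_⟩
    have h1 : e.repr (ρ.ρ σ v - M σ 1 1 • v) 1 = 0 := by
      have hlin : (e.coord 1 ∘ₗ ρ.ρ σ) = M σ 1 1 • e.coord 1 := e.ext fun j => by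
        fin_cases j
        · simpa [hM, matOf_apply] using hu.low σ hσ
        · simp [hM, matOf_apply]
      have := LinearMap.congr_fun hlin v
      simp only [LinearMap.comp_apply, LinearMap.smul_apply, Basis.coord_apply] at this
      rw [map_sub, map_smul, Finsupp.sub_apply, this, Finsupp.smul_apply, sub_self]
    conv_rhs => rw [← e.sum_repr (ρ.ρ σ v - M σ 1 1 • v), Fin.sum_univ_two, h1, zero_smul,
      add_zero]
  refine ⟨e, fun σ hσ v => by simpa [hu.inertia σ hσ] using hline σ (smul_eq_of_inertia hσ) v,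
    fun σ hσ => ⟨he ▸ hD σ hσ _ (he ▸ Submodule.mem_span_singleton_self _), M σ 1 1, ?_,
      hline σ hσ⟩⟩
  set w := M σ 1 1 ^ 2 with hw
  have e0 : V₀ = w.fst * V₀ :=
    (hasVal_quot_sq hu hcyc φ₀ hpk hV₀ hσ).unique hA
      ((hV₀.map (AddMonoidHom.mulLeft w.fst)).congr fun g _ => (fst_mul _ _).symm)
  have hw0 : w.fst = 1 := mul_right_cancel₀ hV0 (by rw [one_mul]; exact e0.symm)
  have e1 : V₁ = w.fst * V₁ + w.snd * V₀ :=
    (hasVal_quot_sq hu hcyc φ₁ hpk hV₁ hσ).unique hA
      (((hV₁.map (AddMonoidHom.mulLeft w.fst)).add (hV₀.map (AddMonoidHom.mulLeft w.snd)) hA).congr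
        fun g _ => by
          show w.fst * (M g 0 1).snd + w.snd * (M g 0 1).fst = (w * M g 0 1).snd
          rw [snd_mul]
          rfl)
  rw [hw0, one_mul, left_eq_add] at e1
  have hw1 : w.snd = 0 := (mul_eq_zero.mp e1).resolve_right hV0
  rw [← pow_two, ← hw]
  exact TrivSqZeroExt.ext (by rw [hw0, fst_one]) (by rw [hw1, snd_one])

end Fermat.Agent.RT.Lifting.AtP

end
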