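import Fermat.Agent.RT.Lifting.Interface
import Fermat.Agent.RT.Glue.FlatDescent
import Fermat.Agent.OrdinaryAtP.Transfer

/-!
# The conditions at `p` on products and on subalgebras

Flatness and, for a distinguished residual representation, ordinarity at `p` hold for a
representation as soon as they hold for its images in two finite algebras which jointly embed its
coefficients.
-/

set_option autoImplicit false
set_option linter.style.haveILetI false

noncomputable section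

open IsLocalRing Module
open scoped TensorProduct

namespace Fermat.Agent.RT.Lifting

open Fermat.Agent.Deform Fermat.Agent.Arith Fermat.Agent.RT.Assembly
open FiniteFlat (GalOrder)

/-! ### Flatness -/

section Flat

variable {R R₁ R₂ : Type} [CommRing R] [IsLocalRing R] [IsNoetherianRing R]
  [CommRing R₁] [IsLocalRing R₁] [CommRing R₂] [IsLocalRing R₂] {p : ℕ}

omit [IsLocalRing R] [IsNoetherianRing R] [IsLocalRing R₁] in
/-- A finite algebra modulo the extension of an ideal of finite index is finite. -/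
theorem finite_quotient_map (φ : R →+* R₁) (hφ : φ.Finite) (I : Ideal R) [Finite (R ⧸ I)] :
    Finite (R₁ ⧸ I.map φ) := by
  letI := φ.toAlgebra
  haveI : Module.Finite R R₁ := hφ
  obtain ⟨r, t, ht⟩ := Submodule.fg_iff_exists_fin_generating_family.mp
    (Module.Finite.fg_top (R := R) (M := R₁))
  refine Finite.of_surjective
    (fun x : Fin r → R ⧸ I => Ideal.Quotient.mk (I.map φ) (∑ i, φ (Quotient.out (x i)) * t i))
    fun y => ?_
  obtain ⟨y, rfl⟩ := Ideal.Quotient.mk_surjective y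
  have hy : y ∈ Submodule.span R (Set.range t) := by rw [ht]; trivial
  obtain ⟨a, ha⟩ := Submodule.mem_span_range_iff_exists_fun R |>.1 hy
  refine ⟨fun i => Ideal.Quotient.mk _ (a i), ?_⟩
  rw [Ideal.Quotient.eq, ← ha, ← Finset.sum_sub_distrib]
  refine Ideal.sum_mem _ fun i _ => ?_
  rw [Algebra.smul_def, ← sub_mul]
  refine Ideal.mul_mem_right _ _ ?_
  show φ _ - φ _ ∈ I.map φ
  rw [← map_sub]
  exact Ideal.mem_map_of_mem φ (Ideal.Quotient.eq.1 (Quotient.out_eq _))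

omit [IsNoetherianRing R] in
/-- The map of a representation to a level of a base change of it, with its kernel. -/
theorem exists_toLevel (φ : R →+* R₁) (hφ : IsLocalHom φ) (ρ : GaloisRepAdic R) (J : Ideal R₁) :
    ∃ f : ρ.V →+ (ρ.baseChangeAlong φ hφ).V ⧸ (J • (⊤ : Submodule R₁ (ρ.baseChangeAlong φ hφ).V)),
      (∀ v, f v = 0 ↔ v ∈ J.comap φ • (⊤ : Submodule R ρ.V)) ∧
      ∀ σ v, f (ρ.ρ σ v) = (ρ.baseChangeAlong φ hφ).levelAction J σ (f v) := by
  letI := φ.toAlgebra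
  let b := Module.finBasisOfFinrankEq R ρ.V ρ.finrank_eq
  let b' : Basis (Fin 2) R₁ (R₁ ⊗[R] ρ.V) := b.baseChange R₁
  refine ⟨(J • (⊤ : Submodule R₁ (R₁ ⊗[R] ρ.V))).mkQ.toAddMonoidHom.comp
    (TensorProduct.mk R R₁ ρ.V 1).toAddMonoidHom, fun v => ?_, fun σ v => ?_⟩
  · refine (Submodule.Quotient.mk_eq_zero _).trans ?_
    rw [CFT.Tangent.mem_ideal_smul_top_iff_repr b', CFT.Tangent.mem_ideal_smul_top_iff_repr b]
    refine forall_congr' fun i => ?_
    show b'.repr ((1 : R₁) ⊗ₜ[R] v) i ∈ J ↔ _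
    rw [Basis.baseChange_repr_tmul, Ideal.mem_comap, Algebra.smul_def, mul_one]
    rfl
  · show Submodule.Quotient.mk ((1 : R₁) ⊗ₜ[R] ρ.ρ σ v) =
      Submodule.Quotient.mk ((ρ.ρ σ).baseChange R₁ ((1 : R₁) ⊗ₜ[R] v))
    rw [LinearMap.baseChange_tmul]

/-- Flatness descends along two finite local homomorphisms which are jointly injective. -/
theorem isFlatAt_of_pair (φ₁ : R →+* R₁) (h₁ : IsLocalHom φ₁) (f₁ : φ₁.Finite)
    (φ₂ : R →+* R₂) (h₂ : IsLocalHom φ₂) (f₂ : φ₂.Finite)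
    (hinj : ∀ a, φ₁ a = 0 → φ₂ a = 0 → a = 0) (ρ : GaloisRepAdic R)
    (H₁ : (ρ.baseChangeAlong φ₁ h₁).IsFlatAt p) (H₂ : (ρ.baseChangeAlong φ₂ h₂).IsFlatAt p) :
    ρ.IsFlatAt p := by
  classical
  have hres : Finite (ResidueField R) :=
    haveI := H₁.1
    haveI := h₁
    Finite.of_injective _ (ResidueField.map φ₁).injective
  refine EC.Rep.isFlatAt_of_galOrder ρ p hres fun I hI => ?_
  obtain ⟨k, hk⟩ := IsLocalRing.exists_maximalIdeal_pow_le_of_isArtinianRing_quotient I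
  letI := φ₁.toAlgebra
  letI := φ₂.toAlgebra
  haveI : Module.Finite R R₁ := f₁
  haveI : Module.Finite R R₂ := f₂
  let Δ : R →ₗ[R] R₁ × R₂ := (Algebra.linearMap R R₁).prod (Algebra.linearMap R R₂)
  obtain ⟨c, hc⟩ := Ideal.exists_pow_inf_eq_pow_smul (maximalIdeal R) (LinearMap.range Δ)
  set n := k + c
  set J₁ : Ideal R₁ := (maximalIdeal R ^ n).map φ₁
  set J₂ : Ideal R₂ := (maximalIdeal R ^ n).map φ₂
  have hJ : J₁.comap φ₁ ⊓ J₂.comap φ₂ ≤ I := by
    rintro a ⟨ha₁, ha₂⟩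
    refine hk ?_
    have m₁ : φ₁ a ∈ maximalIdeal R ^ n • (⊤ : Submodule R R₁) := by
      rw [Ideal.smul_top_eq_map]; exact ha₁
    have m₂ : φ₂ a ∈ maximalIdeal R ^ n • (⊤ : Submodule R R₂) := by
      rw [Ideal.smul_top_eq_map]; exact ha₂
    have e : ((φ₁ a, φ₂ a) : R₁ × R₂) =
        LinearMap.inl R R₁ R₂ (φ₁ a) + LinearMap.inr R R₁ R₂ (φ₂ a) := by simp
    have h1 : Δ a ∈ maximalIdeal R ^ n • (⊤ : Submodule R (R₁ × R₂)) ⊓ LinearMap.range Δ := by
      refine ⟨?_, ⟨a, rfl⟩⟩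
      show ((φ₁ a, φ₂ a) : R₁ × R₂) ∈ _
      rw [e]
      refine add_mem ?_ ?_
      · have := Submodule.mem_map_of_mem (f := LinearMap.inl R R₁ R₂) m₁
        rw [Submodule.map_smul''] at this
        exact Submodule.smul_mono le_rfl le_top this
      · have := Submodule.mem_map_of_mem (f := LinearMap.inr R R₁ R₂) m₂
        rw [Submodule.map_smul''] at this
        exact Submodule.smul_mono le_rfl le_top this
    rw [hc n (Nat.le_add_left c k), show n - c = k from Nat.add_sub_cancel k c] at h1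
    have h2 := Submodule.smul_mono le_rfl inf_le_right h1
    rw [LinearMap.range_eq_map, ← Submodule.map_smul''] at h2
    obtain ⟨b, hb, hba⟩ := h2
    rw [smul_eq_mul, Ideal.mul_top] at hb
    have hab : a = b := sub_eq_zero.mp (hinj _
      (by rw [map_sub, sub_eq_zero]; exact (congrArg Prod.fst hba).symm)
      (by rw [map_sub, sub_eq_zero]; exact (congrArg Prod.snd hba).symm))
    exact hab ▸ hb
  have hR : Finite (R ⧸ maximalIdeal R ^ n) := by
    have : Finite (R ⧸ maximalIdeal R) := hres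
    exact Ideal.finite_quotient_pow (IsNoetherian.noetherian (maximalIdeal R)) _
  haveI := finite_quotient_map φ₁ f₁ (maximalIdeal R ^ n)
  haveI := finite_quotient_map φ₂ f₂ (maximalIdeal R ^ n)
  obtain ⟨H, _, _, _, _, _, e, he, heσ⟩ := H₁.2 J₁ inferInstance
  obtain ⟨H', _, _, _, _, _, e', he', heσ'⟩ := H₂.2 J₂ inferInstance
  let ρ₁ := ρ.baseChangeAlong φ₁ h₁
  let ρ₂ := ρ.baseChangeAlong φ₂ h₂
  letI : DistribMulAction GQ (ρ₁.V ⧸ (J₁ • (⊤ : Submodule R₁ ρ₁.V))) :=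
    EC.Rep.levelDistribMulAction ρ₁ J₁
  letI : DistribMulAction GQ (ρ₂.V ⧸ (J₂ • (⊤ : Submodule R₂ ρ₂.V))) :=
    EC.Rep.levelDistribMulAction ρ₂ J₂
  obtain ⟨O₁⟩ := Glue.nonempty_galOrder_of_hopf e he heσ
  obtain ⟨O₂⟩ := Glue.nonempty_galOrder_of_hopf e' he' heσ'
  set K := J₁.comap φ₁ ⊓ J₂.comap φ₂
  letI : DistribMulAction GQ (ρ.V ⧸ (K • (⊤ : Submodule R ρ.V))) :=
    EC.Rep.levelDistribMulAction ρ K
  obtain ⟨g₁, hg₁, hgσ₁⟩ := exists_toLevel φ₁ h₁ ρ J₁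
  obtain ⟨g₂, hg₂, hgσ₂⟩ := exists_toLevel φ₂ h₂ ρ J₂
  let b := Module.finBasisOfFinrankEq R ρ.V ρ.finrank_eq
  have hker : ∀ v, g₁.prod g₂ v = 0 ↔ v ∈ K • (⊤ : Submodule R ρ.V) := fun v => by
    rw [AddMonoidHom.prod_apply, Prod.mk_eq_zero, hg₁, hg₂,
      CFT.Tangent.mem_ideal_smul_top_iff_repr b, CFT.Tangent.mem_ideal_smul_top_iff_repr b,
      CFT.Tangent.mem_ideal_smul_top_iff_repr b, ← forall_and]
    rfl
  let g : ρ.V ⧸ (K • (⊤ : Submodule R ρ.V)) →+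
      (ρ₁.V ⧸ (J₁ • (⊤ : Submodule R₁ ρ₁.V))) × (ρ₂.V ⧸ (J₂ • (⊤ : Submodule R₂ ρ₂.V))) :=
    QuotientAddGroup.lift (K • (⊤ : Submodule R ρ.V)).toAddSubgroup (g₁.prod g₂)
      fun v hv => (hker v).mpr hv
  have hginj : Function.Injective g := by
    refine (injective_iff_map_eq_zero g).mpr fun y hy => ?_
    obtain ⟨v, rfl⟩ := Submodule.Quotient.mk_surjective _ y
    exact (Submodule.Quotient.mk_eq_zero _).mpr ((hker v).1 hy)
  have hgσ : ∀ (σ : GQ) y, g (σ • y) = σ • g y := fun σ y => by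
    obtain ⟨v, rfl⟩ := Submodule.Quotient.mk_surjective _ y
    exact Prod.ext (hgσ₁ σ v) (hgσ₂ σ v)
  haveI : Finite (ρ₁.V ⧸ (J₁ • (⊤ : Submodule R₁ ρ₁.V))) := Module.finite_of_finite (R₁ ⧸ J₁)
  haveI : Finite (ρ₂.V ⧸ (J₂ • (⊤ : Submodule R₂ ρ₂.V))) := Module.finite_of_finite (R₂ ⧸ J₂)
  have hle : K • (⊤ : Submodule R ρ.V) ≤ I • (⊤ : Submodule R ρ.V) :=
    Submodule.smul_mono_left hJ
  refine ⟨ρ.V ⧸ (K • (⊤ : Submodule R ρ.V)), inferInstance, inferInstance,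
    Finite.of_injective g hginj, (O₁.prod O₂).restrict g hginj hgσ,
    (Submodule.factor hle).toAddMonoidHom, Submodule.factor_surjective hle, fun σ y => ?_⟩
  obtain ⟨v, rfl⟩ := Submodule.Quotient.mk_surjective _ y
  rfl

end Flat

/-! ### Ordinarity -/

section Ordinary

variable {A B : Type} [CommRing A] [IsLocalRing A] [CommRing B] [IsLocalRing B] {p : ℕ}

/-- Ordinarity is carried along equivalences. -/
theorem isOrdinaryAt_of_isEquiv {ρ ρ' : GaloisRepAdic A} (h : ρ.IsEquiv ρ')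
    (ho : ρ.IsOrdinaryAt p) : ρ'.IsOrdinaryAt p := by
  obtain ⟨f⟩ := h
  intro P hP
  obtain ⟨L, ⟨b, rfl⟩, hD, hI⟩ := ho P hP
  refine ⟨(A ∙ b 0).map (f.toLinearEquiv : ρ.V →ₗ[A] ρ'.V), ⟨b.map f.toLinearEquiv, ?_⟩,
    fun σ hσ v hv => ?_, fun σ hσ v => ?_⟩
  · rw [Submodule.map_span, Set.image_singleton, Basis.map_apply]
    rfl
  · obtain ⟨w, hw, rfl⟩ := hv
    exact ⟨_, hD σ hσ w hw, f.map_apply σ w⟩
  · obtain ⟨w, rfl⟩ := f.toLinearEquiv.surjective v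
    exact ⟨_, hI σ hσ w, by simp [map_sub, f.map_apply σ w]⟩

/-- Ordinarity is stable under base change along any local homomorphism. -/
theorem isOrdinaryAt_baseChange (φ : A →+* B) (hφ : IsLocalHom φ) {ρ : GaloisRepAdic A}
    (h : ρ.IsOrdinaryAt p) : (ρ.baseChangeAlong φ hφ).IsOrdinaryAt p := by
  letI := φ.toAlgebra
  intro P hP
  obtain ⟨L, ⟨b, hb⟩, hD, hI⟩ := h P hP
  let b' : Basis (Fin 2) B (B ⊗[A] ρ.V) := b.baseChange B
  let L' : Submodule B (B ⊗[A] ρ.V) := B ∙ b' 0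
  have hb'0 : b' 0 = (1 : B) ⊗ₜ[A] b 0 := Basis.baseChange_apply _ _ _
  have hmem : ∀ (c : B) (w : ρ.V), w ∈ L → c ⊗ₜ[A] w ∈ L' := fun c w hw => by
    rw [hb] at hw
    obtain ⟨a, rfl⟩ := Submodule.mem_span_singleton.mp hw
    refine Submodule.mem_span_singleton.mpr ⟨a • c, ?_⟩
    rw [hb'0, TensorProduct.smul_tmul', smul_eq_mul, mul_one, TensorProduct.smul_tmul]
  have hb0 : b 0 ∈ L := hb ▸ Submodule.mem_span_singleton_self _
  have hD' : ∀ σ ∈ P.decompositionSubgroup ℚ, ∀ v ∈ L', (ρ.ρ σ).baseChange B v ∈ L' := by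
    intro σ hσ v hv
    obtain ⟨c, rfl⟩ := Submodule.mem_span_singleton.mp hv
    rw [map_smul, hb'0, LinearMap.baseChange_tmul]
    exact L'.smul_mem c (hmem 1 _ (hD σ hσ _ hb0))
  have hI' : ∀ σ ∈ P.inertiaSubgroupIn ℚ, ∀ v, (ρ.ρ σ).baseChange B v - v ∈ L' := by
    intro σ hσ v
    induction v using TensorProduct.induction_on with
    | zero => rw [map_zero, sub_zero]; exact zero_mem _
    | tmul c w =>
      rw [LinearMap.baseChange_tmul, ← TensorProduct.tmul_sub]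
      exact hmem c _ (hI σ hσ w)
    | add x y hx hy => rw [map_add, add_sub_add_comm]; exact add_mem hx hy
  exact ⟨L', ⟨b', rfl⟩, hD', hI'⟩

/-- The image of `ρ σ - 1`, `σ` inertial, is fixed up to `det (ρ τ)` by `τ`. -/
def InertiaRel (ρ : GaloisRepAdic A) (P : ValuationSubring QBar) (τ : GQ) : Prop :=
  ∀ t ∈ P.inertiaSubgroupIn ℚ, ∀ v,
    ρ.ρ τ (ρ.ρ t v - v) = LinearMap.det (ρ.ρ τ) • (ρ.ρ t v - v)

theorem inertiaRel_of_isOrdinaryAt {ρ : GaloisRepAdic A} (h : ρ.IsOrdinaryAt p)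
    {P : ValuationSubring QBar} (hP : P.LiesOverPrime p) {τ : GQ}
    (hτ : τ ∈ P.inertiaSubgroupIn ℚ) : InertiaRel ρ P τ := by
  obtain ⟨L, ⟨b, rfl⟩, -, hI⟩ := h P hP
  obtain ⟨x, hx⟩ := Submodule.mem_span_singleton.mp (hI τ hτ (b 0))
  obtain ⟨y, hy⟩ := Submodule.mem_span_singleton.mp (hI τ hτ (b 1))
  have e0 : ρ.ρ τ (b 0) = (1 + x) • b 0 := by rw [add_smul, one_smul, hx]; abel
  have e1 : ρ.ρ τ (b 1) = b 1 + y • b 0 := by rw [hy]; abel
  have hd : LinearMap.det (ρ.ρ τ) = 1 + x := by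
    rw [← LinearMap.det_toMatrix b, Matrix.det_fin_two]
    simp [LinearMap.toMatrix_apply, e0, e1]
  intro t ht v
  obtain ⟨c, hc⟩ := Submodule.mem_span_singleton.mp (hI t ht v)
  rw [← hc, map_smul, e0, hd, smul_comm]

/-- A line fixed up to the determinant by an inertia element of determinant distinguished from
`1` is the ordinary line. -/
theorem exists_line_of_inertiaRel {ρ : GaloisRepAdic A} {P : ValuationSubring QBar} {τ : GQ}
    (hτ : τ ∈ P.inertiaSubgroupIn ℚ) (hd1 : IsUnit (LinearMap.det (ρ.ρ τ) - 1))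
    (hrel : InertiaRel ρ P τ) :
    ∃ L : Submodule A ρ.V, (∃ b : Basis (Fin 2) A ρ.V, L = A ∙ b 0) ∧
      (∀ σ ∈ P.decompositionSubgroup ℚ, ∀ v ∈ L, ρ.ρ σ v ∈ L) ∧
      ∀ σ ∈ P.inertiaSubgroupIn ℚ, ∀ v : ρ.V, ρ.ρ σ v - v ∈ L := by
  set d := LinearMap.det (ρ.ρ τ)
  set u : A := ↑hd1.unit⁻¹
  have hu : u * (d - 1) = 1 := hd1.val_inv_mul
  set e : Module.End A ρ.V := u • (ρ.ρ τ - 1) with he
  have heL : ∀ w, ρ.ρ τ w = d • w → e w = w := fun w hw => by
    rw [he, LinearMap.smul_apply, LinearMap.sub_apply, Module.End.one_apply, hw]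
    nth_rewrite 2 [← one_smul A w]
    rw [← sub_smul, smul_smul, hu, one_smul]
  have hrange : ∀ v, ρ.ρ τ (e v) = d • e v := fun v => by
    rw [he, LinearMap.smul_apply, LinearMap.sub_apply, Module.End.one_apply, map_smul,
      hrel τ hτ v, smul_comm]
  have hidem : IsIdempotentElem e := LinearMap.ext fun v => heL _ (hrange v)
  have he0 : e ≠ 0 := fun h => by
    have h1 : ρ.ρ τ = 1 := by
      refine LinearMap.ext fun v => sub_eq_zero.mp ?_
      have := LinearMap.congr_fun h v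
      rw [he, LinearMap.smul_apply, LinearMap.sub_apply, LinearMap.zero_apply] at this
      exact (hd1.unit⁻¹).isUnit.smul_eq_zero.mp this
    apply hd1.ne_zero
    show LinearMap.det (ρ.ρ τ) - 1 = 0
    rw [h1, map_one, sub_self]
  have he1 : e ≠ 1 := fun h => by
    have h1 : ρ.ρ τ = d • 1 := LinearMap.ext fun v => by
      have := hrange v
      rw [h] at this
      simpa using this
    have h2 : d = d * d := by
      conv_lhs => rw [show d = LinearMap.det (ρ.ρ τ) from rfl, h1]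
      rw [LinearMap.det_smul, ρ.finrank_eq, map_one, mul_one, sq]
    have hu0 : IsUnit d := (LinearMap.det.comp ρ.ρ).toHomUnits τ |>.isUnit
    have h3 : d = 1 := hu0.mul_left_cancel (by rw [mul_one]; exact h2.symm)
    exact hd1.ne_zero (by rw [h3, sub_self])
  obtain ⟨b, hb⟩ := OrdinaryAtP.exists_basis_range_eq ρ.finrank_eq hidem he0 he1
  have hI : ∀ t ∈ P.inertiaSubgroupIn ℚ, ∀ v, ρ.ρ t v - v ∈ LinearMap.range e :=
    fun t ht v => ⟨_, heL _ (hrel t ht v)⟩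
  refine ⟨LinearMap.range e, ⟨b, hb⟩, fun σ hσ w hw => ?_, hI⟩
  obtain ⟨v, rfl⟩ := hw
  have hconj : σ * τ * σ⁻¹ ∈ P.inertiaSubgroupIn ℚ := by
    have := (Arith.mem_inertia_smul_iff (g := σ) (A := P)).mpr hτ
    rwa [(Arith.mem_decomposition_iff (A := P)).mp hσ] at this
  rw [he, LinearMap.smul_apply, map_smul]
  refine Submodule.smul_mem _ _ ?_
  have e2 : ρ.ρ σ ((ρ.ρ τ - 1) v) = ρ.ρ (σ * τ * σ⁻¹) (ρ.ρ σ v) - ρ.ρ σ v := by
    rw [LinearMap.sub_apply, Module.End.one_apply, map_sub, ← Module.End.mul_apply, ← map_mul,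
      ← Module.End.mul_apply (ρ.ρ (σ * τ * σ⁻¹)), ← map_mul, inv_mul_cancel_right]
  rw [e2]
  exact hI _ hconj _

omit [IsLocalRing A] in
theorem eq_zero_of_tmul_eq_zero {B₁ B₂ : Type} [CommRing B₁] [CommRing B₂] (φ₁ : A →+* B₁)
    (φ₂ : A →+* B₂) (hinj : ∀ a, φ₁ a = 0 → φ₂ a = 0 → a = 0) {V : Type} [AddCommGroup V]
    [Module A V] (b : Basis (Fin 2) A V) (x : V)
    (h₁ : letI := φ₁.toAlgebra; (1 : B₁) ⊗ₜ[A] x = 0)
    (h₂ : letI := φ₂.toAlgebra; (1 : B₂) ⊗ₜ[A] x = 0) : x = 0 := by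
  letI := φ₁.toAlgebra
  letI := φ₂.toAlgebra
  refine b.repr.injective (Finsupp.ext fun i => ?_)
  rw [map_zero, Finsupp.zero_apply]
  refine hinj _ ?_ ?_
  · have := congrArg (fun z => (b.baseChange B₁).repr z i) h₁
    simpa [Basis.baseChange_repr_tmul, Algebra.smul_def, RingHom.algebraMap_toAlgebra] using this
  · have := congrArg (fun z => (b.baseChange B₂).repr z i) h₂
    simpa [Basis.baseChange_repr_tmul, Algebra.smul_def, RingHom.algebraMap_toAlgebra] using this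

theorem tmul_inertiaRel_eq_zero (φ : A →+* B) (hφ : IsLocalHom φ) {ρ : GaloisRepAdic A}
    {P : ValuationSubring QBar} {τ : GQ} (h : InertiaRel (ρ.baseChangeAlong φ hφ) P τ)
    {t : GQ} (ht : t ∈ P.inertiaSubgroupIn ℚ) (v : ρ.V) :
    letI := φ.toAlgebra
    (1 : B) ⊗ₜ[A] (ρ.ρ τ (ρ.ρ t v - v) - LinearMap.det (ρ.ρ τ) • (ρ.ρ t v - v)) = 0 := by
  letI := φ.toAlgebra
  have h1 := h t ht ((1 : B) ⊗ₜ[A] v)
  rw [CFT.Tangent.det_baseChangeAlong φ hφ] at h1
  change (ρ.ρ τ).baseChange B ((ρ.ρ t).baseChange B ((1 : B) ⊗ₜ[A] v) - (1 : B) ⊗ₜ[A] v) =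
    φ (LinearMap.det (ρ.ρ τ)) •
      ((ρ.ρ t).baseChange B ((1 : B) ⊗ₜ[A] v) - (1 : B) ⊗ₜ[A] v) at h1
  rw [LinearMap.baseChange_tmul, ← TensorProduct.tmul_sub, LinearMap.baseChange_tmul] at h1
  rw [TensorProduct.tmul_sub, h1, sub_eq_zero, TensorProduct.tmul_smul]
  exact algebraMap_smul B _ _

end Ordinary

section Pair

variable {O : Type} [CommRing O] [IsDomain O] [IsDiscreteValuationRing O]
  [IsAdicComplete (maximalIdeal O) O] (ρbar : ResidualGaloisRep (ResidueField O)) (p : ℕ)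

omit [IsDomain O] [IsDiscreteValuationRing O] [IsAdicComplete (maximalIdeal O) O] in
theorem finite_of_algHom {A B : Type} [CommRing A] [Algebra O A] [CommRing B] [Algebra O B]
    [Module.Finite O B] (φ : A →ₐ[O] B) : (φ : A →+* B).Finite :=
  RingHom.Finite.of_comp_finite (f := algebraMap O A) (by
    rw [φ.comp_algebraMap]; exact RingHom.finite_algebraMap.mpr inferInstance)

/-- Flatness at `p` is a pair condition. -/
theorem isPairCond_flat : IsPairCond ρbar (flatCond (O := O) p) where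
  toIsLocalCond := isLocalCond_flat ρbar p
  pair := by
    intro A B₁ B₂ _ _ _ _ _ _ _ _ _ _ _ _ _ φ₁ φ₂ h₁ h₂ ρ hinj _ H₁ H₂
    haveI : IsNoetherianRing A := IsNoetherianRing.of_finite O A
    exact isFlatAt_of_pair (φ₁ : A →+* B₁) h₁ (finite_of_algHom φ₁) (φ₂ : A →+* B₂) h₂
      (finite_of_algHom φ₂) hinj ρ H₁ H₂

theorem isUnit_det_sub_one {A : Type} [CommRing A] [IsLocalRing A] {k : Type} [Field k]
    (f : k →+* ResidueField A) {ρ : GaloisRepAdic A} {ρ₀ : ResidualGaloisRep k}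
    (h : ρ.residual.IsEquiv (ρ₀.baseChangeAlong f)) {τ : GQ}
    (hτ : LinearMap.det (ρ₀.ρ τ) ≠ 1) : IsUnit (LinearMap.det (ρ.ρ τ) - 1) := by
  obtain ⟨e⟩ := h
  letI := f.toAlgebra
  have e1 : LinearMap.det ((ρ₀.baseChangeAlong f).ρ τ) = f (LinearMap.det (ρ₀.ρ τ)) :=
    LinearMap.det_baseChange (A := ResidueField A) (ρ₀.ρ τ)
  have e2 : LinearMap.det (ρ.residual.ρ τ) = residue A (LinearMap.det (ρ.ρ τ)) :=
    LinearMap.det_baseChange (A := ResidueField A) (ρ.ρ τ)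
  have e3 : (ρ₀.baseChangeAlong f).ρ τ = (e.toLinearEquiv : ρ.residual.V →ₗ[ResidueField A]
      (ρ₀.baseChangeAlong f).V) ∘ₗ ρ.residual.ρ τ ∘ₗ
      (e.toLinearEquiv.symm : (ρ₀.baseChangeAlong f).V →ₗ[ResidueField A] ρ.residual.V) := by
    ext x
    simp [e.map_apply τ]
  rw [e3, LinearMap.det_conj, e2] at e1
  refine (residue_ne_zero_iff_isUnit _).mp fun h0 => hτ ?_
  rw [map_sub, map_one, e1, sub_eq_zero] at h0
  exact f.injective (h0.trans (map_one f).symm)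

variable {p ρbar}

omit [IsAdicComplete (maximalIdeal O) O] in
/-- Ordinarity at `p` descends along a jointly injective pair when `ρbar` is distinguished. -/
theorem isOrdinaryAt_of_pair
    (hdist : ∀ P : ValuationSubring QBar, P.LiesOverPrime p →
      ∃ τ ∈ P.inertiaSubgroupIn ℚ, LinearMap.det (ρbar.ρ τ) ≠ 1)
    {A B₁ B₂ : Type} [CommRing A] [IsLocalRing A] [CommRing B₁] [IsLocalRing B₁] [CommRing B₂]
    [IsLocalRing B₂] (φ₁ : A →+* B₁) (h₁ : IsLocalHom φ₁) (φ₂ : A →+* B₂) (h₂ : IsLocalHom φ₂)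
    (hinj : ∀ a, φ₁ a = 0 → φ₂ a = 0 → a = 0) (f : ResidueField O →+* ResidueField A)
    {ρ : GaloisRepAdic A} (hres : ρ.residual.IsEquiv (ρbar.baseChangeAlong f))
    (H₁ : (ρ.baseChangeAlong φ₁ h₁).IsOrdinaryAt p)
    (H₂ : (ρ.baseChangeAlong φ₂ h₂).IsOrdinaryAt p) : ρ.IsOrdinaryAt p := by
  intro P hP
  obtain ⟨τ, hτ, hdet⟩ := hdist P hP
  refine exists_line_of_inertiaRel hτ (isUnit_det_sub_one f hres hdet) fun t ht v => ?_
  exact sub_eq_zero.mp (eq_zero_of_tmul_eq_zero φ₁ φ₂ hinj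
    (Module.finBasisOfFinrankEq A ρ.V ρ.finrank_eq) _
    (tmul_inertiaRel_eq_zero φ₁ h₁ (inertiaRel_of_isOrdinaryAt H₁ hP hτ) ht v)
    (tmul_inertiaRel_eq_zero φ₂ h₂ (inertiaRel_of_isOrdinaryAt H₂ hP hτ) ht v))

omit [IsAdicComplete (maximalIdeal O) O] in
/-- Ordinarity at `p` is a pair condition when `ρbar` is distinguished. -/
theorem isPairCond_ord
    (hdist : ∀ P : ValuationSubring QBar, P.LiesOverPrime p →
      ∃ τ ∈ P.inertiaSubgroupIn ℚ, LinearMap.det (ρbar.ρ τ) ≠ 1) :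
    IsPairCond ρbar (ordCond (O := O) p) where
  of_isEquiv := by
    intro A _ _ _ ρ ρ' h ho
    exact isOrdinaryAt_of_isEquiv h ho
  baseChange := by
    intro A B _ _ _ _ _ _ φ hφ ρ _ h
    exact isOrdinaryAt_baseChange (φ : A →+* B) hφ h
  descend := by
    intro A B _ _ _ _ _ _ _ _ _ φ hφ ρ hinj hres h
    exact isOrdinaryAt_of_pair hdist (φ : A →+* B) hφ (φ : A →+* B) hφ
      (fun a h0 _ => hinj (h0.trans (map_zero φ).symm)) _ hres h h
  pair := by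
    intro A B₁ B₂ _ _ _ _ _ _ _ _ _ _ _ _ _ φ₁ φ₂ h₁ h₂ ρ hinj hres H₁ H₂
    exact isOrdinaryAt_of_pair hdist (φ₁ : A →+* B₁) h₁ (φ₂ : A →+* B₂) h₂ hinj _ hres H₁ H₂

end Pair

end Fermat.Agent.RT.Lifting

end
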