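import Fermat.Agent.RT.Lifting.Interface
import Fermat.Agent.RT.Lifting.AtP.Upper

/-!
# Differences of lifts to a square zero extension

For lifts `r, r'` of `r₀` to `R ⊕ J`, the difference `r' - r + r₀` is again one; this is compatible
with base changes from `R` and with lower shears.
-/

set_option autoImplicit false
set_option linter.style.haveILetI false
set_option linter.unusedSectionVars false
set_option linter.unusedSimpArgs false

noncomputable section

namespace Fermat.Agent.RT.Lifting.AtP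

open IsLocalRing Fermat.Agent.Deform Fermat.Agent.Arith TrivSqZeroExt

variable {R J : Type} [CommRing R] [AddCommGroup J] [Module R J] [Module Rᵐᵒᵖ J]
  [IsCentralScalar R J]

/-- The projection to `R`. -/
abbrev fstR : TrivSqZeroExt R J →+* R :=
  ((fstHom R R J : TrivSqZeroExt R J →ₐ[R] R) : TrivSqZeroExt R J →+* R)

theorem snd_mul' (x y : TrivSqZeroExt R J) :
    (x * y).snd = x.fst • y.snd + y.fst • x.snd := by
  rw [TrivSqZeroExt.snd_mul, op_smul_eq_smul]

theorem isLocalHom_fstR : IsLocalHom (fstR : TrivSqZeroExt R J →+* R) :=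
  ⟨fun _ hx => TrivSqZeroExt.isUnit_iff_isUnit_fst.mpr hx⟩

theorem fst_eq_of_map {r₀ : Gal →* M2 R} {r : Gal →* M2 (TrivSqZeroExt R J)}
    (h : mapM fstR r = r₀) (σ : Gal) (i j : Fin 2) : (r σ i j).fst = r₀ σ i j :=
  congr_fun (congr_fun (DFunLike.congr_fun h σ) i) j

/-- The difference of two lifts. -/
def diffRep (r₀ : Gal →* M2 R) (r r' : Gal →* M2 (TrivSqZeroExt R J))
    (h : mapM fstR r = r₀) (h' : mapM fstR r' = r₀) : Gal →* M2 (TrivSqZeroExt R J) where
  toFun σ := Matrix.of fun i j =>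
    inl (r₀ σ i j) + inr ((r' σ i j).snd - (r σ i j).snd)
  map_one' := by
    ext i j <;> fin_cases i <;> fin_cases j <;> simp
  map_mul' σ τ := by
    ext i j
    · simp [Matrix.mul_apply, Fin.sum_univ_two]
    · simp [Matrix.mul_apply, Fin.sum_univ_two, snd_mul', fst_eq_of_map h, fst_eq_of_map h']
      module

variable {r₀ : Gal →* M2 R} {r r' : Gal →* M2 (TrivSqZeroExt R J)} (h : mapM fstR r = r₀)
  (h' : mapM fstR r' = r₀)

@[simp]
theorem fst_diffRep (σ : Gal) (i j : Fin 2) : (diffRep r₀ r r' h h' σ i j).fst = r₀ σ i j := by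
  simp [diffRep]

@[simp]
theorem snd_diffRep (σ : Gal) (i j : Fin 2) :
    (diffRep r₀ r r' h h' σ i j).snd = (r' σ i j).snd - (r σ i j).snd := by
  simp [diffRep]

theorem map_diffRep : mapM fstR (diffRep r₀ r r' h h') = r₀ :=
  MonoidHom.ext fun σ => Matrix.ext fun i j => fst_diffRep h h' σ i j

theorem diffRep_apply (σ : Gal) (i j : Fin 2) :
    diffRep r₀ r r' h h' σ i j =
      r' σ i j - r σ i j + algebraMap R (TrivSqZeroExt R J) (r₀ σ i j) := by
  ext <;> simp [TrivSqZeroExt.algebraMap_eq_inl, fst_eq_of_map h, fst_eq_of_map h']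

theorem trace_diffRep (σ : Gal) :
    (diffRep r₀ r r' h h' σ).trace =
      (r' σ).trace - (r σ).trace + algebraMap R (TrivSqZeroExt R J) (r₀ σ).trace := by
  simp only [Matrix.trace_fin_two, diffRep_apply, map_add]
  ring

theorem det_diffRep {σ : Gal} (hd : (r σ).det.snd = 0) (hd' : (r' σ).det.snd = 0) :
    (diffRep r₀ r r' h h' σ).det = algebraMap R (TrivSqZeroExt R J) (r₀ σ).det := by
  simp only [Matrix.det_fin_two, TrivSqZeroExt.snd_sub, snd_mul', fst_eq_of_map h] at hd
  simp only [Matrix.det_fin_two, TrivSqZeroExt.snd_sub, snd_mul', fst_eq_of_map h'] at hd'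
  refine TrivSqZeroExt.ext (by simp [Matrix.det_fin_two, TrivSqZeroExt.algebraMap_eq_inl]) ?_
  simp [Matrix.det_fin_two, snd_mul', TrivSqZeroExt.algebraMap_eq_inl]
  linear_combination (norm := module) hd' - hd

theorem eq_of_diffRep_eq {s : Gal →* M2 (TrivSqZeroExt R J)} (hs : mapM fstR s = r₀)
    (he : diffRep r₀ r r' h h' = diffRep r₀ r s h hs) : r' = s := by
  refine MonoidHom.ext fun σ => Matrix.ext fun i j => TrivSqZeroExt.ext ?_ ?_
  · rw [fst_eq_of_map h', fst_eq_of_map hs]
  · have := congrArg (fun t : Gal →* M2 (TrivSqZeroExt R J) => (t σ i j).snd) he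
    simpa using this

/-- The image of an invertible matrix. -/
def mapU {B C : Type} [CommRing B] [CommRing C] (φ : B →+* C) (P : (M2 B)ˣ) : (M2 C)ˣ where
  val := (P : M2 B).map φ
  inv := (↑P⁻¹ : M2 B).map φ
  val_inv := by
    rw [← Matrix.map_mul, Units.mul_inv, Matrix.map_one φ (map_zero φ) (map_one φ)]
  inv_val := by
    rw [← Matrix.map_mul, Units.inv_mul, Matrix.map_one φ (map_zero φ) (map_one φ)]

/-- An invertible matrix over `R`, over `R ⊕ J`. -/
abbrev constU (P : (M2 R)ˣ) (J : Type) [AddCommGroup J] [Module R J] [Module Rᵐᵒᵖ J]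
    [IsCentralScalar R J] : (M2 (TrivSqZeroExt R J))ˣ :=
  mapU (algebraMap R (TrivSqZeroExt R J)) P

theorem coe_constU (P : (M2 R)ˣ) (i j : Fin 2) :
    (constU P J).val i j = inl ((P : M2 R) i j) := rfl

theorem coe_inv_constU (P : (M2 R)ˣ) (i j : Fin 2) :
    ((constU P J)⁻¹).val i j = inl ((↑P⁻¹ : M2 R) i j) := rfl

theorem fst_conjM_constU (P : (M2 R)ˣ) (s : Gal →* M2 (TrivSqZeroExt R J)) (σ : Gal)
    (i j : Fin 2) :
    (conjM (constU P J) s σ i j).fst =
      ∑ l, (∑ k, (↑P⁻¹ : M2 R) i k * (s σ k l).fst) * (P : M2 R) l j := by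
  rw [conjM_apply, Matrix.mul_apply, TrivSqZeroExt.fst_sum]
  refine Finset.sum_congr rfl fun l _ => ?_
  rw [Matrix.mul_apply, TrivSqZeroExt.fst_mul, TrivSqZeroExt.fst_sum, coe_constU,
    TrivSqZeroExt.fst_inl]
  exact congrArg (· * _) (Finset.sum_congr rfl fun k _ => by
    rw [TrivSqZeroExt.fst_mul, coe_inv_constU, TrivSqZeroExt.fst_inl])

theorem snd_conjM_constU (P : (M2 R)ˣ) (s : Gal →* M2 (TrivSqZeroExt R J)) (σ : Gal)
    (i j : Fin 2) :
    (conjM (constU P J) s σ i j).snd =
      ∑ l, (P : M2 R) l j • ∑ k, (↑P⁻¹ : M2 R) i k • (s σ k l).snd := by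
  rw [conjM_apply, Matrix.mul_apply, TrivSqZeroExt.snd_sum]
  refine Finset.sum_congr rfl fun l _ => ?_
  rw [Matrix.mul_apply, snd_mul', TrivSqZeroExt.snd_sum, coe_constU, TrivSqZeroExt.snd_inl,
    smul_zero, zero_add, TrivSqZeroExt.fst_inl]
  exact congrArg (_ • ·) (Finset.sum_congr rfl fun k _ => by
    rw [snd_mul', coe_inv_constU, TrivSqZeroExt.fst_inl, TrivSqZeroExt.snd_inl, smul_zero,
      add_zero])

theorem map_conjM_constU {r₁ : Gal →* M2 R} {r₂ : Gal →* M2 (TrivSqZeroExt R J)} (P : (M2 R)ˣ)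
    (h₂ : mapM (fstR (R := R) (J := J)) r₂ = r₁) :
    mapM (fstR (R := R) (J := J)) (conjM (constU P J) r₂) = conjM P r₁ := by
  refine MonoidHom.ext fun σ => Matrix.ext fun i j => ?_
  show (conjM (constU P J) r₂ σ i j).fst = _
  rw [fst_conjM_constU, conjM_apply, Matrix.mul_apply]
  refine Finset.sum_congr rfl fun l _ => ?_
  rw [Matrix.mul_apply]
  exact congrArg (· * _) (Finset.sum_congr rfl fun k _ => by rw [fst_eq_of_map h₂])

/-- Differences commute with conjugation by constant matrices. -/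
theorem conjM_diffRep (P : (M2 R)ˣ) :
    conjM (constU P J) (diffRep r₀ r r' h h') =
      diffRep (conjM P r₀) (conjM (constU P J) r) (conjM (constU P J) r')
        (map_conjM_constU P h) (map_conjM_constU P h') := by
  refine MonoidHom.ext fun σ => Matrix.ext fun i j => TrivSqZeroExt.ext ?_ ?_
  · exact (fst_eq_of_map (map_conjM_constU P (map_diffRep h h')) σ i j).trans
      (fst_diffRep _ _ σ i j).symm
  · simp only [snd_diffRep, snd_conjM_constU, smul_sub, Finset.sum_sub_distrib]

/-- Differences of lifts upper triangular after shears are upper triangular after a shear. -/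
theorem isUpperAt_shear_diffRep {A : ValuationSubring QBar} {γ γ' : TrivSqZeroExt R J}
    (hγ : γ.fst = 0) (hγ' : γ'.fst = 0) (hu : IsUpperAt A (conjM (shearU γ) r))
    (hu' : IsUpperAt A (conjM (shearU γ') r')) (h0 : IsUpperAt A r₀) :
    IsUpperAt A (conjM (shearU (inr (γ'.snd - γ.snd))) (diffRep r₀ r r' h h')) := by
  refine ⟨fun σ hσ => ?_, fun g hg => ?_⟩
  · have e := congrArg TrivSqZeroExt.snd (hu.low σ hσ)
    have e' := congrArg TrivSqZeroExt.snd (hu'.low σ hσ)
    simp [conjM_shearU, snd_mul', hγ, hγ', fst_eq_of_map h, fst_eq_of_map h'] at e e'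
    refine TrivSqZeroExt.ext (by simp [conjM_shearU, h0.low σ hσ]) ?_
    simp [conjM_shearU, snd_mul', h0.low σ hσ]
    linear_combination (norm := module) e' - e
  · have e := congrArg TrivSqZeroExt.snd (hu.inertia g hg)
    have e' := congrArg TrivSqZeroExt.snd (hu'.inertia g hg)
    simp [conjM_shearU, snd_mul', hγ, hγ', fst_eq_of_map h, fst_eq_of_map h'] at e e'
    refine TrivSqZeroExt.ext (by simp [conjM_shearU, h0.inertia g hg]) ?_
    simp [conjM_shearU, snd_mul', h0.inertia g hg]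
    linear_combination (norm := module) e' - e

end Fermat.Agent.RT.Lifting.AtP

end
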