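import Fermat.Agent.RT.Lifting.AtP.Pushforward
import Fermat.Agent.GaloisReps.Rep
import Fermat.Agent.CFT.Flat.Coset
import Fermat.Agent.FiniteFlat.TorsionOrder

/-!
# The unramified quotient of an eigen-lattice at a prime of good reduction

On an eigen-lattice of `J₀(N)` at `p ∤ N` with an inertia element acting as `diag(u, w)`, `u - 1` a
unit, and inertia residually fixing the quotient by the first vector, the vectors reducing to zero
at every level span the first line: it is stable under decomposition, inertia is trivial on the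
quotient and Frobenius acts there by a root of `X² - θ(T_p) X + p`.
-/

set_option autoImplicit false
set_option linter.style.haveILetI false
set_option synthInstance.maxHeartbeats 400000

noncomputable section

open IsLocalRing CongruenceSubgroup ModularCurve ModularCurve.Period
open scoped Pointwise

namespace Fermat.Agent.RT.Lifting.AtP

open Fermat.Agent.GaloisReps Fermat.Agent.FiniteFlat Fermat.Agent.CFT Fermat.Agent.Arith

variable {p : ℕ} [Fact p.Prime] {N : ℕ} [NeZero N] (E : TorsionIso N p)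
  {O : Type} [CommRing O] [IsDomain O] [IsDiscreteValuationRing O]
  [Finite (ResidueField O)] [CharZero O] [Algebra ℤ_[p] O]

local notation "d" => 2 * Gamma0.genus N

/-- `σ` as an endomorphism of the coordinate space. -/
def actO (σ : AbsGal) : (Fin d → O) →ₗ[O] (Fin d → O) :=
  ((E.gal σ).map (algebraMap ℤ_[p] O)).mulVecLin

omit [Finite (ResidueField O)] in
/-- A multiple in the reduction kernel not divisible by `p ^ n` gives one which becomes divisible
when multiplied by any non-unit. -/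
theorem exists_critical_multiple {A : ValuationSubring (AlgebraicClosure ℚ)} {n : ℕ}
    {v : Fin d → O} {c : O} (hc : c • v ∈ redKer E A n) (hndvd : ¬ (p : O) ^ n ∣ c) :
    ∃ c₀ : O, c₀ • v ∈ redKer E A n ∧ (∀ x ∈ maximalIdeal O, (p : O) ^ n ∣ c₀ * x) ∧
      ¬ (p : O) ^ n ∣ c₀ := by
  obtain ⟨π, hπ⟩ := IsDiscreteValuationRing.exists_irreducible O
  obtain ⟨K, U, hK⟩ := IsDiscreteValuationRing.eq_unit_mul_pow_irreducible
    (show (p : O) ^ n ≠ 0 from pow_ne_zero _ (Nat.cast_ne_zero.mpr (Fact.out : p.Prime).ne_zero)) hπ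
  have hc0 : c ≠ 0 := fun h => hndvd (h ▸ dvd_zero _)
  obtain ⟨k, V, rfl⟩ := IsDiscreteValuationRing.eq_unit_mul_pow_irreducible hc0 hπ
  have hkK : k < K := by
    by_contra hle
    refine hndvd ?_
    rw [hK, Units.mul_left_dvd]
    exact dvd_mul_of_dvd_right (pow_dvd_pow π (not_lt.mp hle)) _
  refine ⟨π ^ (K - 1), ?_, fun x hx => ?_, fun h => ?_⟩
  · have h := Submodule.smul_mem _ (π ^ (K - 1 - k) * ↑V⁻¹) hc
    rw [smul_smul] at h
    convert h using 2
    calc π ^ (K - 1) = π ^ (K - 1 - k) * π ^ k := by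
          rw [← pow_add, Nat.sub_add_cancel (by omega)]
      _ = π ^ (K - 1 - k) * ↑V⁻¹ * (↑V * π ^ k) := by
        rw [mul_assoc, ← mul_assoc (↑V⁻¹ : O), V.inv_mul, one_mul]
  · rw [hπ.maximalIdeal_eq, Ideal.mem_span_singleton] at hx
    obtain ⟨y, rfl⟩ := hx
    rw [hK, Units.mul_left_dvd, ← mul_assoc, ← pow_succ, Nat.sub_add_cancel (by omega)]
    exact dvd_mul_right _ _
  · rw [hK, Units.mul_left_dvd, pow_dvd_pow_iff hπ.ne_zero hπ.not_isUnit] at h
    omega

set_option maxHeartbeats 800000 in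
/-- A multiple of the second vector reducing to zero at level `n` is divisible by `p ^ n`. -/
theorem pow_dvd_of_smul_mem_redKer (hp2 : p ≠ 2) (hpN : ¬ p ∣ N) (hpO : (p : O) ∈ maximalIdeal O)
    {τ : AbsGal} (hτ : τ ∈ (padicPlace p).inertiaSubgroupIn ℚ) {u w : O} (hu : IsUnit (u - 1))
    (hw : w - 1 ∈ maximalIdeal O) {v₁ v₂ : Fin d → O}
    (hτ₁ : actO E τ v₁ = u • v₁) (hτ₂ : actO E τ v₂ = w • v₂)
    (hstab : ∀ σ ∈ (padicPlace p).inertiaSubgroupIn ℚ,
      (∃ a c : O, c ∈ maximalIdeal O ∧ actO E σ v₁ = a • v₁ + c • v₂) ∧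
      ∃ b e : O, e ∈ maximalIdeal O ∧ actO E σ v₂ - v₂ = b • v₁ + e • v₂)
    {n : ℕ} (hsat : ∀ c : O, (∀ i, (p : O) ^ n ∣ c * v₂ i) → (p : O) ^ n ∣ c)
    {c : O} (hc : c • v₂ ∈ redKer E (padicPlace p) n) : (p : O) ^ n ∣ c := by
  classical
  by_contra hndvd
  obtain ⟨c₀, hc₀mem, hmax, hc₀ndvd⟩ := exists_critical_multiple E hc hndvd
  -- the point
  obtain ⟨i, hi⟩ : ∃ i, ¬ (p : O) ^ n ∣ c₀ * v₂ i :=
    not_forall.mp fun h => hc₀ndvd (hsat _ h)
  obtain ⟨l, hl⟩ : ∃ l : O →ₗ[ℤ_[p]] ℤ_[p], PadicInt.toZModPow n (l (c₀ * v₂ i)) ≠ 0 :=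
    not_forall.mp fun h => hi (pow_dvd_of_forall_functional O hpO h)
  have hkill : ∀ (μ : O →ₗ[ℤ_[p]] ℤ_[p]) (v : Fin d → O),
      (torPt E n μ (c₀ • v) : JZero N) ∈ Submodule.torsionBy ℤ (JZero N) (p : ℤ) := by
    intro μ v
    rw [Submodule.mem_torsionBy_iff, natCast_zsmul, ← AddSubmonoidClass.coe_nsmul, ← map_nsmul,
      torPt_eq_zero E n μ fun j => ?_, ZeroMemClass.coe_zero]
    rw [Pi.smul_apply, Pi.smul_apply, smul_eq_mul, nsmul_eq_mul, mul_left_comm]
    exact dvd_trans (hmax _ hpO) ⟨v j, by ring⟩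
  let M := JTorsBy N (p : ℤ)
  have hp0 : (p : ℤ) ≠ 0 := Nat.cast_ne_zero.mpr (Fact.out : p.Prime).ne_zero
  haveI : Finite M := finite_jTorsBy N hp0
  haveI := Fintype.ofFinite M
  let pt : (O →ₗ[ℤ_[p]] ℤ_[p]) → (Fin d → O) → M := fun μ v => ⟨_, hkill μ v⟩
  have hpt : ∀ μ v, (pt μ v : JZero N) = (torPt E n μ (c₀ • v) : JZero N) := fun _ _ => rfl
  have hadd : ∀ μ v v', pt μ (v + v') = pt μ v + pt μ v' := fun μ v v' => Subtype.ext (by
    rw [Submodule.coe_add, hpt, hpt, hpt, smul_add, map_add, AddMemClass.coe_add])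
  have hsub : ∀ μ v v', pt μ (v - v') = pt μ v - pt μ v' := fun μ v v' => Subtype.ext (by
    rw [Submodule.coe_sub, hpt, hpt, hpt, smul_sub, map_sub, AddSubgroupClass.coe_sub])
  have hsmul : ∀ μ (a : O) v, pt μ (a • v) = pt (μ.comp (LinearMap.mulLeft ℤ_[p] a)) v :=
    fun μ a v => Subtype.ext (by rw [hpt, hpt, smul_comm, torPt_smul])
  have hgal : ∀ (σ : AbsGal) μ v, σ • pt μ v = pt μ (actO E σ v) := fun σ μ v => Subtype.ext (by
    rw [coe_smul_jTorsBy, hpt, hpt, ← torPt_gal, Matrix.mulVec_smul]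
    rfl)
  have hvan : ∀ μ {e : O} v, e ∈ maximalIdeal O → pt μ (e • v) = 0 := fun μ e v he =>
    Subtype.ext (by
      rw [hpt, Submodule.coe_zero, torPt_eq_zero E n μ fun j => ?_, ZeroMemClass.coe_zero]
      rw [smul_smul, Pi.smul_apply, smul_eq_mul]
      exact dvd_mul_of_dvd_left (hmax e he) _)
  let L : AddSubgroup M :=
    { carrier := {y | ∃ μ, y = pt μ v₁}
      zero_mem' := ⟨0, by
        refine Subtype.ext ?_
        rw [hpt, Submodule.coe_zero, (torPt_eq_iff E (x := 0)).mpr fun j => by simp,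
          ZeroMemClass.coe_zero]⟩
      add_mem' := by
        rintro _ _ ⟨μ, rfl⟩ ⟨μ', rfl⟩
        refine ⟨μ + μ', Subtype.ext ?_⟩
        rw [Submodule.coe_add, hpt, hpt, hpt, ← AddMemClass.coe_add]
        exact congrArg Subtype.val ((torPt_eq_iff E).mpr fun j => by
          simp [psi_torPt]).symm
      neg_mem' := by
        rintro _ ⟨μ, rfl⟩
        refine ⟨-μ, Subtype.ext ?_⟩
        rw [Submodule.coe_neg, hpt, hpt, ← NegMemClass.coe_neg]
        exact congrArg Subtype.val ((torPt_eq_iff E).mpr fun j => by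
          simp [psi_torPt]).symm }
  have hL : ∀ σ ∈ Flat.inG p, ∀ y ∈ L, σ • y ∈ L := by
    rintro σ hσ _ ⟨μ, rfl⟩
    obtain ⟨a, e, he, hae⟩ := (hstab σ hσ).1
    refine ⟨μ.comp (LinearMap.mulLeft ℤ_[p] a), ?_⟩
    rw [hgal, hae, hadd, hvan μ v₂ he, add_zero, hsmul]
  set x := pt l v₂ with hx
  -- its coset is fixed, so it lies in the line
  obtain ⟨OH, hOH⟩ := exists_galOrder_jTorsBy (N := N) Fact.out hpN (padicPlace p)
    (Local.padicPlace_liesOverPrime p) hp0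
  have hxconn : x ∈ Flat.conn OH := fun f hf =>
    (Flat.mem_nonunits_iff p).mp (hOH f hf x (hc₀mem l))
  have hxfix : ∀ σ ∈ Flat.inG p, σ • x - x ∈ L := by
    intro σ hσ
    obtain ⟨b, e, he, hbe⟩ := (hstab σ hσ).2
    refine ⟨l.comp (LinearMap.mulLeft ℤ_[p] b), ?_⟩
    rw [hx, hgal, ← hsub, hbe, hadd, hvan l v₂ he, add_zero, hsmul]
  obtain ⟨μ, hμ⟩ := Flat.mem_of_fixed_coset OH hp2
    (fun y => Subtype.ext (by
      rw [Submodule.coe_smul_of_tower, Submodule.coe_zero, ← natCast_zsmul]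
      exact (Submodule.mem_torsionBy_iff _ _).mp y.2))
    L hL hxconn hxfix
  -- `τ - 1` is onto the line, hence injective on it
  let F : L → L := fun y => ⟨τ • (y : M) - y, L.sub_mem (hL τ hτ _ y.2) y.2⟩
  have hF : Function.Surjective F := by
    rintro ⟨_, ν, rfl⟩
    obtain ⟨U', hU'⟩ := hu
    refine ⟨⟨_, ν.comp (LinearMap.mulLeft ℤ_[p] (↑U'⁻¹ : O)), rfl⟩, Subtype.ext ?_⟩
    show τ • pt _ v₁ - pt _ v₁ = pt ν v₁
    rw [hgal, ← hsub, hτ₁, ← hsmul,
      show (↑U'⁻¹ : O) • (u • v₁ - v₁) = v₁ by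
        rw [← one_smul O v₁, smul_smul, mul_one, ← sub_smul, ← hU', smul_smul, U'.inv_mul]]
  have hFx : F ⟨x, μ, hμ⟩ = F 0 := Subtype.ext (by
    show τ • x - x = τ • (0 : M) - 0
    rw [hx, hgal, ← hsub, hτ₂, smul_zero, sub_zero,
      show w • v₂ - v₂ = (w - 1) • v₂ by rw [sub_smul, one_smul]]
    exact hvan l v₂ hw)
  have hx0 : x = 0 := congrArg Subtype.val (Finite.injective_iff_surjective.mpr hF hFx)
  refine hl ?_
  have h := psi_torPt E n l (c₀ • v₂) i
  rw [show torPt E n l (c₀ • v₂) = 0 from Subtype.ext (congrArg Subtype.val hx0 :), map_zero,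
    Pi.zero_apply] at h
  rw [← smul_eq_mul, ← Pi.smul_apply]
  exact h.symm

omit [IsDiscreteValuationRing O] [Finite (ResidueField O)] [Algebra ℤ_[p] O] in
/-- A multiple of an eigenbasis vector is divisible by `p ^ n` only when the multiplier is. -/
theorem pow_dvd_of_forall_dvd_smul (θ : FullHecke N →+* O)
    (bv : Module.Basis (Fin 2) O (eigenspace (latticeMat N) θ)) (j : Fin 2) {n : ℕ} {c : O}
    (h : ∀ i, (p : O) ^ n ∣ c * (bv j : Fin d → O) i) : (p : O) ^ n ∣ c := by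
  choose w hw using h
  have hp : (p : O) ^ n ≠ 0 := pow_ne_zero _ (Nat.cast_ne_zero.mpr (Fact.out : p.Prime).ne_zero)
  have hcw : c • (bv j : Fin d → O) = (p : O) ^ n • w := funext fun i => hw i
  have hmem : w ∈ eigenspace (latticeMat N) θ := by
    rw [mem_eigenspace]
    intro a
    refine smul_right_injective _ hp ?_
    show (p : O) ^ n • _ = (p : O) ^ n • _
    rw [← Matrix.mulVec_smul, smul_comm _ (θ a), ← hcw, Matrix.mulVec_smul,
      (mem_eigenspace _ _ _).mp (bv j).2 a, smul_comm]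
  refine ⟨bv.repr ⟨w, hmem⟩ j, ?_⟩
  have e : c • bv j = (p : O) ^ n • (⟨w, hmem⟩ : eigenspace (latticeMat N) θ) := Subtype.ext hcw
  have := congrArg (fun x => bv.repr x j) e
  simp only [map_smul, bv.repr_self, Finsupp.smul_apply, Finsupp.single_eq_same, smul_eq_mul,
    mul_one] at this
  exact this

/-- The line of an inertia element is stable, inertia is trivial on the quotient, and Frobenius
acts there by a root of the Hecke polynomial. -/
theorem line_of_eigenBasis (G : TorsionGalois N p) (hp2 : p ≠ 2) (hpN : ¬ p ∣ N)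
    (hpO : (p : O) ∈ maximalIdeal O) (θ : FullHecke N →+* O)
    (bv : Module.Basis (Fin 2) O (eigenspace (latticeMat N) θ))
    (R : AbsGal →* Matrix (Fin 2) (Fin 2) O)
    (hR : ∀ σ j, ((E.gal σ).map (algebraMap ℤ_[p] O)).mulVec (bv j : Fin d → O) =
      R σ 0 j • (bv 0 : Fin d → O) + R σ 1 j • (bv 1 : Fin d → O))
    {τ : AbsGal} (hτ : τ ∈ (padicPlace p).inertiaSubgroupIn ℚ) {u w : O}
    (hRτ : R τ = Matrix.diagonal ![u, w]) (hu : IsUnit (u - 1))
    (hres : ∀ σ ∈ (padicPlace p).inertiaSubgroupIn ℚ,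
      R σ 1 0 ∈ maximalIdeal O ∧ R σ 1 1 - 1 ∈ maximalIdeal O) :
    (∀ σ ∈ (padicPlace p).decompositionSubgroup ℚ, R σ 1 0 = 0) ∧
    (∀ σ ∈ (padicPlace p).inertiaSubgroupIn ℚ, R σ 1 1 = 1) ∧
    ∀ σ, (padicPlace p).IsFrobeniusAt σ p →
      R σ 1 1 ^ 2 - θ (HeckeDuality.heckeOp N 2 p Fact.out) * R σ 1 1 + (p : O) = 0 := by
  set A := padicPlace p
  have hA : A.LiesOverPrime p := Local.padicPlace_liesOverPrime p
  haveI := Arith.residueField_isAlgClosed A
  have hNA : (N : EichlerShimura.Kappa A) ≠ 0 := EichlerShimura.natCast_ne_zero Fact.out hpN hA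
  set v₁ : Fin d → O := (bv 0 : Fin d → O) with hv₁
  set v₂ : Fin d → O := (bv 1 : Fin d → O) with hv₂
  have hact : ∀ σ j, actO E σ (bv j : Fin d → O) = R σ 0 j • v₁ + R σ 1 j • v₂ := hR
  have hτ₁ : actO E τ v₁ = u • v₁ := by
    rw [hv₁, hact, hRτ]; simp [hv₁, hv₂]
  have hτ₂ : actO E τ v₂ = w • v₂ := by
    rw [hv₂, hact, hRτ]; simp [hv₁, hv₂]
  have hw : w - 1 ∈ maximalIdeal O := by simpa [hRτ] using (hres τ hτ).2
  have hkey : ∀ (n : ℕ) (c : O), c • v₂ ∈ redKer E A n → (p : O) ^ n ∣ c := fun n c =>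
    pow_dvd_of_smul_mem_redKer E hp2 hpN hpO hτ hu hw hτ₁ hτ₂
      (fun σ hσ => ⟨⟨R σ 0 0, R σ 1 0, (hres σ hσ).1, hact σ 0⟩,
        ⟨R σ 0 1, R σ 1 1 - 1, (hres σ hσ).2, by
          rw [hv₂, hact, ← hv₂, sub_smul, one_smul]; abel⟩⟩)
      fun c h => pow_dvd_of_forall_dvd_smul θ bv 1 h
  have hline : ∀ n, v₁ ∈ redKer E A n := fun n => by
    obtain ⟨U, hU⟩ := hu
    have h := Submodule.smul_mem _ (↑U⁻¹ : O) (smul_sub_mem_redKer E (A := A) hNA hτ n v₁)
    rwa [show ((E.gal τ).map (algebraMap ℤ_[p] O)).mulVec v₁ = u • v₁ from hτ₁,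
      show (↑U⁻¹ : O) • (u • v₁ - v₁) = v₁ by
        rw [← one_smul O v₁, smul_smul, mul_one, ← sub_smul, ← hU, smul_smul, U.inv_mul]] at h
  have hcoord : ∀ (a c : O), (∀ n, a • v₁ + c • v₂ ∈ redKer E A n) → c = 0 := fun a c h =>
    HeckeGaloisModel.eq_zero_of_forall_pow_dvd hpO fun n => hkey n c
      (by simpa using Submodule.sub_mem _ (h n) (Submodule.smul_mem _ a (hline n)))
  have hinert : ∀ σ ∈ A.inertiaSubgroupIn ℚ, R σ 1 0 = 0 ∧ R σ 1 1 = 1 := by
    intro σ hσ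
    refine ⟨hcoord (R σ 0 0 - 1) _ fun n => ?_, sub_eq_zero.mp (hcoord (R σ 0 1) _ fun n => ?_)⟩
    · have h := smul_sub_mem_redKer E (A := A) hNA hσ n v₁
      rw [show ((E.gal σ).map (algebraMap ℤ_[p] O)).mulVec v₁ = _ from hact σ 0] at h
      convert h using 1
      rw [sub_smul, one_smul]; abel
    · have h := smul_sub_mem_redKer E (A := A) hNA hσ n v₂
      rw [show ((E.gal σ).map (algebraMap ℤ_[p] O)).mulVec v₂ = _ from hact σ 1] at h
      convert h using 1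
      rw [sub_smul, one_smul]; abel
  have hdec : ∀ σ ∈ A.decompositionSubgroup ℚ, R σ 1 0 = 0 := by
    intro σ hσ
    have hσA : σ • A = A := MulAction.mem_stabilizer_iff.mp hσ
    have hc : σ * τ * σ⁻¹ ∈ A.inertiaSubgroupIn ℚ := by
      have := (mem_inertia_smul_iff (g := σ) (σ := τ) (A := A)).mpr hτ
      rwa [hσA] at this
    obtain ⟨h10, h11⟩ := hinert _ hc
    have h := congrArg (fun X : Matrix (Fin 2) (Fin 2) O => X 1 0)
      (show R (σ * τ * σ⁻¹) * R σ = R σ * R τ by rw [← map_mul, inv_mul_cancel_right, map_mul])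
    generalize R (σ * τ * σ⁻¹) = Y at h h10 h11
    simp [Matrix.mul_apply, Fin.sum_univ_two, hRτ, h10, h11] at h
    have h0 : R σ 1 0 * (u - 1) = 0 := by linear_combination -h
    exact (mul_eq_zero.mp h0).resolve_right hu.ne_zero
  refine ⟨hdec, fun σ hσ => (hinert σ hσ).2, fun σ hσ => ?_⟩
  have hs0 : R σ 1 0 = 0 := hdec σ hσ.choose
  refine hcoord (R σ 0 1 * R σ 0 0 + R σ 1 1 * R σ 0 1 -
    θ (HeckeDuality.heckeOp N 2 p Fact.out) * R σ 0 1) _ fun n => ?_
  have h := quadratic_mem_redKer E (A := A) hpN hA hσ n v₂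
  have e : ((E.gal σ).map (algebraMap ℤ_[p] O)).mulVec v₂ =
      (⟨_, (E.toModel G).galIn_mem (algebraMap ℤ_[p] O) θ σ v₂ (bv 1).2⟩ :
        eigenspace (latticeMat N) θ).1 := rfl
  have hT : (matIn (latticeMat N) O (HeckeDuality.heckeOp N 2 p Fact.out)).mulVec
      (((E.gal σ).map (algebraMap ℤ_[p] O)).mulVec v₂) =
      θ (HeckeDuality.heckeOp N 2 p Fact.out) •
        ((E.gal σ).map (algebraMap ℤ_[p] O)).mulVec v₂ := by
    rw [e]
    exact (mem_eigenspace _ _ _).mp (Subtype.mem _) _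
  rw [hT, show ((E.gal σ).map (algebraMap ℤ_[p] O)).mulVec v₂ = _ from hact σ 1,
    Matrix.mulVec_add, Matrix.mulVec_smul, Matrix.mulVec_smul,
    show ((E.gal σ).map (algebraMap ℤ_[p] O)).mulVec v₁ = _ from hact σ 0,
    show ((E.gal σ).map (algebraMap ℤ_[p] O)).mulVec v₂ = _ from hact σ 1,
    ← Nat.cast_smul_eq_nsmul O] at h
  convert h using 1
  rw [hs0]
  module

end Fermat.Agent.RT.Lifting.AtP

end
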