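import Fermat.Agent.RT.Lifting.AtP.PeuOrder
import Fermat.Agent.RT.Lifting.AtP.Upper
import Fermat.Agent.EC.Rep.Local.Flat

/-!
# Peu ramifié upper triangular representations are flat

An upper triangular representation at `p` with cyclotomic determinant, all of whose upper entries
modulo ideals of finite index are peu ramifié, is flat at `p`.
-/

set_option autoImplicit false
set_option linter.style.haveILetI false

noncomputable section

namespace Fermat.Agent.RT.Lifting.AtP

open IsLocalRing Module Fermat.Agent.Deform Fermat.Agent.Arith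
open scoped Pointwise

variable {B : Type} [CommRing B]

/-- The two coordinates modulo an ideal. -/
def coordMod (I : Ideal B) : (Fin 2 → B) →ₗ[B] (B ⧸ I) × (B ⧸ I) :=
  (I.mkQ.comp (LinearMap.proj 0)).prod (I.mkQ.comp (LinearMap.proj 1))

theorem coordMod_apply (I : Ideal B) (v : Fin 2 → B) :
    coordMod I v = (Ideal.Quotient.mk I (v 0), Ideal.Quotient.mk I (v 1)) := rfl

theorem coordMod_surjective (I : Ideal B) : Function.Surjective (coordMod I) := fun q => by
  obtain ⟨a, ha⟩ := Ideal.Quotient.mk_surjective q.1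
  obtain ⟨b, hb⟩ := Ideal.Quotient.mk_surjective q.2
  exact ⟨![a, b], Prod.ext ha hb⟩

theorem ker_coordMod (I : Ideal B) :
    I • (⊤ : Submodule B (Fin 2 → B)) = LinearMap.ker (coordMod I) := by
  refine le_antisymm (Submodule.smul_le.mpr fun r hr v _ => ?_) fun v hv => ?_
  · rw [LinearMap.mem_ker, coordMod_apply, Prod.mk_eq_zero, Ideal.Quotient.eq_zero_iff_mem,
      Ideal.Quotient.eq_zero_iff_mem]
    exact ⟨I.mul_mem_right _ hr, I.mul_mem_right _ hr⟩
  · rw [LinearMap.mem_ker, coordMod_apply, Prod.mk_eq_zero, Ideal.Quotient.eq_zero_iff_mem,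
      Ideal.Quotient.eq_zero_iff_mem] at hv
    rw [pi_eq_sum_univ' v]
    refine Submodule.sum_mem _ fun i _ => Submodule.smul_mem_smul ?_ Submodule.mem_top
    fin_cases i
    · exact hv.1
    · exact hv.2

/-- The level of a matrix representation, in coordinates. -/
def levelCoord (I : Ideal B) :
    ((Fin 2 → B) ⧸ (I • (⊤ : Submodule B (Fin 2 → B)))) ≃ₗ[B] (B ⧸ I) × (B ⧸ I) :=
  (Submodule.quotEquivOfEq _ _ (ker_coordMod I)).trans
    ((coordMod I).quotKerEquivOfSurjective (coordMod_surjective I))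

theorem levelCoord_mk (I : Ideal B) (v : Fin 2 → B) :
    levelCoord I (Submodule.Quotient.mk v) = coordMod I v := rfl

variable [IsLocalRing B] {A : ValuationSubring QBar} {p : ℕ} [Fact p.Prime]

/-- **Flatness from peu ramifié upper entries.** -/
theorem isFlatAt_of_upper_peu (hA : A.LiesOverPrime p) (hres : Finite (ResidueField B))
    {r : Gal →* M2 B} (hr : IsCont r) (hu : IsUpperAt A r) (hp : (p : B) ∈ maximalIdeal B)
    (hdet : IsCycDet p r)
    (hpeu : ∀ I : Ideal B, Finite (B ⧸ I) → IsPeu A fun g => Ideal.Quotient.mk I (r g 0 1)) :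
    (toRep r hr).IsFlatAt p := by
  refine EC.Rep.isFlatAt_of_galOrder (toRep r hr) p hres fun I hI => ?_
  obtain ⟨k, hk⟩ := IsLocalRing.exists_maximalIdeal_pow_le_of_isArtinianRing_quotient I
  have hN : ∀ x : B ⧸ I, (p ^ k) • x = 0 := fun x => by
    obtain ⟨x, rfl⟩ := Ideal.Quotient.mk_surjective x
    rw [← map_nsmul, nsmul_eq_mul, Nat.cast_pow, Ideal.Quotient.eq_zero_iff_mem]
    exact I.mul_mem_right _ (hk (Ideal.pow_mem_pow hp k))
  let M : Type := (Fin 2 → B) ⧸ (I • (⊤ : Submodule B (Fin 2 → B)))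
  letI : DistribMulAction GQ M := EC.Rep.levelDistribMulAction (toRep r hr) I
  let e : M ≃+ (B ⧸ I) × (B ⧸ I) := (levelCoord I).toAddEquiv
  haveI : Finite M := Finite.of_injective e e.injective
  have hact : ∀ (σ : GQ) (v : Fin 2 → B), e (σ • (Submodule.Quotient.mk v : M)) =
      (Ideal.Quotient.mk I (r σ 0 0 * v 0 + r σ 0 1 * v 1),
        Ideal.Quotient.mk I (r σ 1 0 * v 0 + r σ 1 1 * v 1)) := fun σ v => by
    show levelCoord I (Submodule.Quotient.mk (Matrix.toLinAlgEquiv' (r σ) v)) = _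
    rw [levelCoord_mk, coordMod_apply, Matrix.toLinAlgEquiv'_apply]
    simp [Matrix.mulVec, dotProduct, Fin.sum_univ_two]
  have hrep : ∀ m : M, ∃ v, (Submodule.Quotient.mk v : M) = m ∧
      e m = (Ideal.Quotient.mk I (v 0), Ideal.Quotient.mk I (v 1)) := fun m => by
    obtain ⟨v, rfl⟩ := Submodule.Quotient.mk_surjective _ m
    exact ⟨v, rfl, rfl⟩
  obtain ⟨O⟩ := exists_galOrder_of_peu (A := A) (n := k) hA hN e (by
    obtain ⟨L, hL, h1⟩ := hr k
    refine ⟨L, hL, fun h hh m => ?_⟩
    obtain ⟨v, rfl, hv⟩ := hrep m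
    refine e.injective ?_
    rw [hact, hv]
    have h' : ∀ i j, Ideal.Quotient.mk I (r h i j) = Ideal.Quotient.mk I ((1 : M2 B) i j) :=
      fun i j => Ideal.Quotient.eq.mpr (hk (h1 h hh i j))
    simp [map_add, map_mul, h'])
    (fun d hd m hm => by
      obtain ⟨v, rfl, hv⟩ := hrep m
      rw [hv] at hm
      rw [hact, hu.low d hd]
      show Ideal.Quotient.mk I (0 * v 0 + r d 1 1 * v 1) = 0
      rw [zero_mul, zero_add, map_mul, show Ideal.Quotient.mk I (v 1) = 0 from hm, mul_zero])
    (fun g b => Ideal.Quotient.mk I (r g 0 1) * b)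
    (fun g hg a ha m => by
      obtain ⟨v, rfl, hv⟩ := hrep m
      rw [hact, hv, hu.low g (smul_eq_of_inertia hg), hu.inertia g hg, zero_mul, zero_add, one_mul,
        ← hu.det_eq_inertia hg, map_add, map_mul]
      refine Prod.ext ?_ rfl
      show _ = a • Ideal.Quotient.mk I (v 0) + _
      have := hdet.apply_mul (Ideal.Quotient.mk I).toAddMonoidHom hN ha (v 0)
      rw [RingHom.toAddMonoidHom_eq_coe, AddMonoidHom.coe_coe, map_mul] at this
      rw [this, map_mul])
    fun b => (hpeu I hI).map (AddMonoidHom.mulRight b)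
  exact ⟨M, inferInstance, inferInstance, inferInstance, O, AddMonoidHom.id M,
    fun w => ⟨w, rfl⟩, fun σ m => rfl⟩

end Fermat.Agent.RT.Lifting.AtP

end
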