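import Fermat.Agent.RT.Lifting.AtP.DiffLift
import Fermat.Agent.RT.Lifting.AtP.UpperFlat
import Fermat.Agent.RT.MazurP.LocalE
import Mathlib.LinearAlgebra.Quotient.Card

/-!
# The bound on ordinary lifts from the bound on flat lifts

An ordinary lift over a flat one has a valuation component killed by `α ² - 1`; two lifts with the
same component differ by a flat one.
-/

set_option autoImplicit false
set_option linter.style.haveILetI false
set_option linter.unusedSectionVars false
set_option synthInstance.maxHeartbeats 400000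

noncomputable section

namespace Fermat.Agent.RT.Lifting.AtP

open IsLocalRing Module Fermat.Agent.Deform Fermat.Agent.Arith TrivSqZeroExt
open scoped Pointwise

variable {O : Type} [CommRing O] [IsDomain O] [IsDiscreteValuationRing O]

/-- The cardinality of the quotient by a product. -/
theorem card_quot_mul {η D : O} (hη : η ≠ 0) :
    Nat.card (O ⧸ Ideal.span {η * D}) = Nat.card (O ⧸ Ideal.span {η}) * Nat.card (O ⧸ Ideal.span {D}) := by
  set J := Ideal.span {η * D}
  have hle : J ≤ Ideal.span {η} :=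
    Ideal.span_singleton_le_span_singleton.mpr (dvd_mul_right η D)
  let μ : O →ₗ[O] O ⧸ J := J.mkQ.comp (LinearMap.mulLeft O η)
  have hker : LinearMap.ker μ = Ideal.span {D} := by
    ext x
    rw [LinearMap.mem_ker, LinearMap.comp_apply, Submodule.mkQ_apply, Submodule.Quotient.mk_eq_zero,
      LinearMap.mulLeft_apply, Ideal.mem_span_singleton, Ideal.mem_span_singleton,
      mul_dvd_mul_iff_left hη]
  have hrange : LinearMap.range μ = Submodule.map J.mkQ (Ideal.span {η}) := by
    rw [LinearMap.range_comp]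
    congr 1
    ext x
    rw [LinearMap.mem_range, Ideal.mem_span_singleton]
    exact ⟨fun ⟨y, hy⟩ => ⟨y, hy.symm⟩, fun ⟨y, hy⟩ => ⟨y, hy.symm⟩⟩
  rw [Submodule.card_eq_card_quotient_mul_card (LinearMap.range μ),
    ← Nat.card_congr μ.quotKerEquivRange.toEquiv, hker, hrange,
    Nat.card_congr (Submodule.quotientQuotientEquivQuotient J _ hle).toEquiv, mul_comm]

theorem finite_quot_pow [Finite (ResidueField O)] (k : ℕ) :
    Finite (O ⧸ maximalIdeal O ^ k) :=
  haveI : Finite (O ⧸ maximalIdeal O) := ‹Finite (ResidueField O)›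
  Ideal.finite_quotient_pow (IsNoetherian.noetherian _) k

theorem span_singleton_eq_pow {D : O} (hD : D ≠ 0) :
    ∃ e : ℕ, Ideal.span {D} = maximalIdeal O ^ e := by
  obtain ⟨ϖ, hϖ⟩ := IsDiscreteValuationRing.exists_irreducible O
  obtain ⟨e, u, rfl⟩ := IsDiscreteValuationRing.eq_unit_mul_pow_irreducible hD hϖ
  exact ⟨e, by rw [Ideal.span_singleton_mul_left_unit u.isUnit, hϖ.maximalIdeal_eq,
    Ideal.span_singleton_pow]⟩

/-- The elements killed by `D` of a quotient are at most as many as `O / D`. -/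
theorem card_killed_le [Finite (ResidueField O)] {D : O} (hD : D ≠ 0) (k : ℕ) :
    Nat.card {x : O ⧸ maximalIdeal O ^ k // D • x = 0} ≤ Nat.card (O ⧸ Ideal.span {D}) := by
  have := finite_quot_pow (O := O) k
  obtain ⟨e, he⟩ := span_singleton_eq_pow hD
  have := finite_quot_pow (O := O) e
  set I := maximalIdeal O ^ k
  let f : (O ⧸ I) →ₗ[O] O ⧸ I := D • LinearMap.id
  have hrk : Nat.card (LinearMap.range f) * Nat.card (LinearMap.ker f) = Nat.card (O ⧸ I) := by
    rw [Submodule.card_eq_card_quotient_mul_card (LinearMap.ker f),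
      Nat.card_congr f.quotKerEquivRange.toEquiv, mul_comm]
  have hq := Submodule.card_eq_card_quotient_mul_card (LinearMap.range f)
  rw [← hrk] at hq
  have h1 : Nat.card (LinearMap.ker f) = Nat.card ((O ⧸ I) ⧸ LinearMap.range f) :=
    Nat.eq_of_mul_eq_mul_left Nat.card_pos hq
  show Nat.card (LinearMap.ker f) ≤ _
  rw [h1]
  have : Finite (O ⧸ Ideal.span {D}) := he ▸ ‹Finite (O ⧸ maximalIdeal O ^ e)›
  refine Nat.card_le_card_of_surjective
    (Submodule.liftQ (Ideal.span {D} : Submodule O O) ((LinearMap.range f).mkQ.comp I.mkQ) fun x hx => ?_) ?_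
  · obtain ⟨y, rfl⟩ := Ideal.mem_span_singleton'.mp hx
    rw [LinearMap.mem_ker, LinearMap.comp_apply, Submodule.mkQ_apply, Submodule.mkQ_apply,
      Submodule.Quotient.mk_eq_zero]
    exact ⟨(Submodule.Quotient.mk y : O ⧸ I), by
      show D • (Submodule.Quotient.mk y : O ⧸ I) = _
      rw [← Submodule.Quotient.mk_smul, smul_eq_mul, mul_comm]⟩
  · intro z
    obtain ⟨z, rfl⟩ := Submodule.mkQ_surjective _ z
    obtain ⟨z, rfl⟩ := Submodule.mkQ_surjective _ z
    exact ⟨Submodule.Quotient.mk z, rfl⟩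

variable {A : ValuationSubring QBar} {p : ℕ} [Fact p.Prime]

/-- When `z(s) ² - 1` is not zero the upper entry of an upper triangular representation over `O`
is peu ramifié modulo every power of the maximal ideal. -/
theorem isPeu_upper_of_sq_ne_one [Finite (ResidueField O)] (hA : A.LiesOverPrime p)
    (hp : (p : O) ∈ maximalIdeal O) {r : Gal →* M2 O} (hc : IsCont r) (hu : IsUpperAt A r)
    (hdet : IsCycDet p r) {s : Gal} (hs : s • A = A) (hz : r s 1 1 ^ 2 ≠ 1) (t : ℕ) :
    IsPeu A fun g => Ideal.Quotient.mk (maximalIdeal O ^ t) (r g 0 1) := by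
  obtain ⟨e, he⟩ := span_singleton_eq_pow (sub_ne_zero.mpr hz)
  have := finite_quot_pow (O := O) (t + e)
  let mk : O →+ O ⧸ maximalIdeal O ^ (t + e) := (Ideal.Quotient.mk _).toAddMonoidHom
  have hN : ∀ x : O ⧸ maximalIdeal O ^ (t + e), (p ^ (t + e)) • x = 0 := fun x => by
    obtain ⟨x, rfl⟩ := Ideal.Quotient.mk_surjective x
    rw [← map_nsmul, nsmul_eq_mul, Nat.cast_pow, Ideal.Quotient.eq_zero_iff_mem]
    exact Ideal.mul_mem_right _ _ (Ideal.pow_mem_pow hp _)
  obtain ⟨V, hV⟩ := (isTwist_upper hu hdet hc mk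
    (fun v hv => Ideal.Quotient.eq_zero_iff_mem.mpr hv) hN).exists_hasVal hA hN
  have h1 := hasVal_quot_sq hu hdet mk hN hV hs
  have h2 := (hV.map (AddMonoidHom.mulLeft (Ideal.Quotient.mk _ (r s 1 1 ^ 2)))).congr
    (c' := fun g => mk (r s 1 1 ^ 2 * r g 0 1)) fun g _ => (map_mul _ _ _).symm
  have hVeq : V = Ideal.Quotient.mk _ (r s 1 1 ^ 2) * V := h1.unique hA h2
  obtain ⟨v, rfl⟩ := Ideal.Quotient.mk_surjective V
  rw [← map_mul, Ideal.Quotient.eq, ← neg_mem_iff,
    show -(v - r s 1 1 ^ 2 * v) = (r s 1 1 ^ 2 - 1) * v by ring, pow_add, mul_comm _ (_ ^ e), ← he,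
    Ideal.mem_span_singleton_mul] at hVeq
  obtain ⟨z, hz', hzv⟩ := hVeq
  have hv : v ∈ maximalIdeal O ^ t := (mul_left_cancel₀ (sub_ne_zero.mpr hz) hzv).symm ▸ hz'
  have h3 := hV.map (Ideal.Quotient.factor (Ideal.pow_le_pow_right (Nat.le_add_right t e) :
    maximalIdeal O ^ (t + e) ≤ maximalIdeal O ^ t)).toAddMonoidHom
  simp only [RingHom.toAddMonoidHom_eq_coe, AddMonoidHom.coe_coe, mk, Ideal.Quotient.factor_mk,
    Ideal.Quotient.eq_zero_iff_mem.mpr hv] at h3
  exact h3.isPeu

variable [IsAdicComplete (maximalIdeal O) O] [Finite (ResidueField O)]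

section Fixed

variable (m : ℕ) [IsLocalRing (TrivSqZeroExt O (O ⧸ maximalIdeal O ^ m))]

local notation "JJ" => O ⧸ maximalIdeal O ^ m
local notation "TT" => TrivSqZeroExt O (O ⧸ maximalIdeal O ^ m)

theorem natCast_pow_smul_quot (hp : (p : O) ∈ maximalIdeal O) {n : ℕ} (hn : m ≤ n) (x : JJ) :
    (p ^ n) • x = 0 := by
  obtain ⟨x, rfl⟩ := Ideal.Quotient.mk_surjective x
  rw [← map_nsmul, nsmul_eq_mul, Nat.cast_pow, Ideal.Quotient.eq_zero_iff_mem]
  exact Ideal.mul_mem_right _ _ (Ideal.pow_le_pow_right hn (Ideal.pow_mem_pow hp _))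

theorem smul_quot_eq_zero {a : O} (ha : a ∈ maximalIdeal O ^ m) (x : JJ) : a • x = 0 := by
  obtain ⟨x, rfl⟩ := Submodule.Quotient.mk_surjective _ x
  rw [← Submodule.Quotient.mk_smul, Submodule.Quotient.mk_eq_zero, smul_eq_mul]
  exact Ideal.mul_mem_right _ _ ha

theorem pow_maximalIdeal_trivSq (k : ℕ) :
    ∀ v ∈ maximalIdeal TT ^ k, v.fst ∈ maximalIdeal O ^ k := by
  intro v hv
  have hle : (maximalIdeal TT).map (fstR : TT →+* O) ≤ maximalIdeal O :=
    Ideal.map_le_iff_le_comap.mpr fun x hx => Ideal.mem_comap.mpr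
      (haveI := isLocalHom_fstR (R := O) (J := JJ); map_nonunit (fstR : TT →+* O) x hx)
  have := Ideal.mem_map_of_mem (fstR : TT →+* O) hv
  rw [Ideal.map_pow] at this
  exact Ideal.pow_right_mono hle k this

theorem snd_eq_zero_of_mem_pow (k : ℕ) :
    ∀ v ∈ maximalIdeal TT ^ (k + 1), ∀ a ∈ maximalIdeal O ^ (m - k), a • v.snd = 0 := by
  induction k with
  | zero =>
    intro v _ a ha
    exact smul_quot_eq_zero m (by simpa using ha) _
  | succ k ih =>
    intro v hv a ha
    rw [pow_succ] at hv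
    refine Submodule.mul_induction_on hv (fun x hx y hy => ?_) (fun x y hx hy => ?_)
    · rw [snd_mul', smul_add, smul_smul, smul_smul]
      have hx' := pow_maximalIdeal_trivSq m _ x hx
      have hy' := pow_maximalIdeal_trivSq m 1 y (by rwa [pow_one])
      rw [pow_one] at hy'
      have h1 : a * x.fst ∈ maximalIdeal O ^ m := by
        refine Ideal.pow_le_pow_right ?_ (pow_add (maximalIdeal O) (m - (k + 1)) (k + 1) ▸
          Ideal.mul_mem_mul ha hx')
        omega
      have h2 : a * y.fst ∈ maximalIdeal O ^ (m - k) := by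
        refine Ideal.pow_le_pow_right ?_ (pow_succ (maximalIdeal O) (m - (k + 1)) ▸
          Ideal.mul_mem_mul ha hy')
        omega
      rw [smul_quot_eq_zero m h1, ih x hx _ h2, add_zero]
    · rw [snd_add, smul_add, hx, hy, add_zero]

theorem snd_det_eq_zero (hp : (p : O) ∈ maximalIdeal O) {r : Gal →* M2 TT} (h : IsCycDet p r)
    (σ : Gal) : (r σ).det.snd = 0 := by
  obtain ⟨a, ha⟩ := exists_isExp p m σ
  obtain ⟨t, ht⟩ := Ideal.mem_span_singleton'.mp (h m σ a ha)
  have e := congrArg TrivSqZeroExt.snd ht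
  rw [mul_comm, ← nsmul_eq_mul, snd_smul, natCast_pow_smul_quot m hp le_rfl, snd_sub, snd_natCast,
    sub_zero] at e
  exact e.symm

end Fixed

/-- The square zero ideal. -/
abbrev JJ (O : Type) [CommRing O] [IsLocalRing O] (m : ℕ) : Type := O ⧸ maximalIdeal O ^ m

/-- The square zero extension. -/
abbrev TT (O : Type) [CommRing O] [IsLocalRing O] (m : ℕ) : Type := TrivSqZeroExt O (JJ O m)

set_option maxHeartbeats 1600000 in
/-- **`PBoundProperty`.** -/
theorem pBoundProperty (hp2 : p ≠ 2) (W : Rigid O) (ρbar : ResidualGaloisRep (ResidueField O)) :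
    PBoundProperty p W ρbar := by
  intro _ _ _ T U r₀ hO α η hr₀ hroot hα hη hLB m _ hA s hs
  classical
  have hpp : p.Prime := Fact.out
  set A := padicPlace p
  have hAp : A.LiesOverPrime p := CFT.Local.padicPlace_liesOverPrime p
  obtain ⟨hp, hdet₀⟩ := isCycDet_iff.mp hr₀.det
  haveI := finite_quot_pow (O := O) m
  haveI : Module.Finite O (TT O m) :=
    Module.Finite.of_surjective ((LinearMap.id : (O × (JJ O m)) →ₗ[O] O × (JJ O m)) : (O × (JJ O m)) →ₗ[O] (TT O m))
      fun x => ⟨x, rfl⟩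
  have hresT : Finite (ResidueField (TT O m)) :=
    haveI := hA.isLocalHom
    Finite.of_surjective _ hA.map_bijective.surjective
  -- inertia with nontrivial determinant
  obtain ⟨u, hu1⟩ : ∃ u : (ZMod p)ˣ, u ≠ 1 := ⟨-1, fun h => hp2 (by
    have h1 : ((2 : ℕ) : ZMod p) = 0 := by
      have := congrArg Units.val h
      rw [Units.val_neg, Units.val_one] at this
      push_cast
      linear_combination -this
    exact (Nat.prime_dvd_prime_iff_eq hpp Nat.prime_two).mp
      ((ZMod.natCast_eq_zero_iff _ _).mp h1))⟩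
  obtain ⟨τ, hτ, hτu⟩ := EC.Rep.exists_mem_inertia_cyclotomicHom_eq hAp u
  -- the base
  obtain ⟨P₀, hP₀⟩ := hroot A hAp
  obtain ⟨F, hF⟩ := exists_isFrobeniusAt hAp hpp
  have hFA : F • A = A := (isFrobeniusAt_iff_forall_mem.mp hF).1
  set r₁ := conjM P₀ r₀ with hr₁
  have hu₁ : IsUpperAt A r₁ :=
    ⟨fun σ hσ => (hP₀ σ hσ).1, fun g hg => (hP₀ g (smul_eq_of_inertia hg)).2.1 hg⟩
  have hzF : r₁ F 1 1 = α := (hP₀ F hFA).2.2 hF
  have hdet₁ : IsCycDet p r₁ := hdet₀.conj P₀
  have hcont₁ : IsCont r₁ := hr₀.cont.conj P₀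
  have hpeu₀ := isPeu_upper_of_sq_ne_one hAp hp hcont₁ hu₁ hdet₁ hFA (by rw [hzF]; exact hα)
  have hτdet : IsUnit ((r₁ τ).det - 1) := by
    have hexp : IsExp p 1 τ (u : ZMod p).val := fun μ hμ => by
      rw [← hτu]; exact MazurP.apply_root_eq_pow_cyclotomicHom τ (by simpa using hμ)
    have h1 := hdet₁ 1 τ _ hexp
    rw [pow_one, Ideal.mem_span_singleton] at h1
    by_contra hun
    have hsub : (((u : ZMod p).val : ℕ) : O) - 1 ∈ maximalIdeal O := by
      obtain ⟨t, ht⟩ := h1
      rw [show (((u : ZMod p).val : ℕ) : O) - 1 = ((r₁ τ).det - 1) - p * t by rw [← ht]; ring]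
      exact sub_mem ((mem_maximalIdeal _).mpr hun) (Ideal.mul_mem_right _ _ hp)
    have hcop : IsCoprime (p : ℤ) (((u : ZMod p).val : ℤ) - 1) := by
      refine (Nat.prime_iff_prime_int.mp hpp).coprime_iff_not_dvd.mpr fun hd => hu1 ?_
      refine Units.ext (sub_eq_zero.mp ?_)
      have := (ZMod.intCast_zmod_eq_zero_iff_dvd _ p).mpr hd
      simpa using this
    obtain ⟨x, y, hxy⟩ := hcop
    have := congrArg (fun z : ℤ => (z : O)) hxy
    push_cast at this
    refine (maximalIdeal.isMaximal O).ne_top ((Ideal.eq_top_iff_one _).mpr ?_)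
    rw [← this]
    exact add_mem (Ideal.mul_mem_left _ _ hp) (Ideal.mul_mem_left _ _ hsub)
  -- the invariant of a lift
  let P : (M2 (TT O m))ˣ := constU P₀ (JJ O m)
  have hmap : ∀ r, mapM (fstR : (TT O m) →+* O) r = r₀ →
      mapM (fstR : (TT O m) →+* O) (conjM P r) = r₁ := fun r hr => map_conjM_constU P₀ hr
  let c : (Gal →* M2 (TT O m)) → Gal → (JJ O m) := fun r g => (conjM P r g 0 1).snd
  have hshape : ∀ r ∈ s, ∃ γ : (TT O m), γ.fst = 0 ∧ IsUpperAt A (conjM (shearU γ) (conjM P r)) := by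
    intro r hr
    obtain ⟨h1, h2⟩ := hs r hr
    obtain ⟨B, _, _, _, _, φ, rB, hcB, -, hφr, hBord⟩ := h1.cond
    obtain ⟨PB, hPB⟩ := exists_upper_of_isOrdinaryAt (A := A) hBord hAp (Pi.basisFun B (Fin 2))
    rw [matOf_toRep] at hPB
    have hQ : IsUpperAt A (conjM (P⁻¹ * mapU (φ : B →+* (TT O m)) PB) (conjM P r)) := by
      refine (congrArg (IsUpperAt A) (MonoidHom.ext fun σ => ?_)).mp (hPB.map (φ : B →+* (TT O m)))
      subst hφr
      show (φ : B →+* (TT O m)).mapMatrix ((↑PB⁻¹ : M2 B) * rB σ * (PB : M2 B)) = _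
      simp only [conjM_apply, mul_inv_rev, inv_inv, Units.val_mul, mul_assoc,
        Units.mul_inv_cancel_left, map_mul]
      rfl
    obtain ⟨γ, hγ, hγu⟩ := exists_shear (fstR : (TT O m) →+* O) isLocalHom_fstR
      (by rw [hmap r h2]; exact hu₁) hQ hτ (by rw [hmap r h2]; exact hτdet)
    exact ⟨γ, hγ, hγu⟩
  choose! γ hγ hγu using hshape
  have hcont : ∀ r ∈ s, IsCont (conjM (shearU (γ r)) (conjM P r)) := fun r hr =>
    ((hs r hr).1.cont.conj P).conj _
  have hdetA : ∀ r ∈ s, IsCycDet p r := fun r hr => (isCycDet_iff.mp (hs r hr).1.det).2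
  have hcyc : ∀ r ∈ s, IsCycDet p (conjM (shearU (γ r)) (conjM P r)) := fun r hr =>
    ((hdetA r hr).conj P).conj _
  have hupper : ∀ r, ∀ g, conjM (shearU (γ r)) (conjM P r) g 0 1 = conjM P r g 0 1 := fun r g => by
    rw [conjM_shearU]; rfl
  let snd' : (TT O m) →+ (JJ O m) := AddMonoidHom.mk' TrivSqZeroExt.snd fun x y => snd_add x y
  have hkill : ∀ v ∈ maximalIdeal (TT O m) ^ (m + 1), snd' v = 0 := fun v hv => by
    have := snd_eq_zero_of_mem_pow m m v hv 1 (by simp)
    rwa [one_smul] at this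
  have hNJ : ∀ x : (JJ O m), (p ^ m) • x = 0 := natCast_pow_smul_quot m hp le_rfl
  have hval : ∀ r ∈ s, ∃ V : (JJ O m), HasVal A p m (c r) V ∧ (α ^ 2 - 1) • V = 0 := by
    intro r hr
    obtain ⟨V, hV⟩ := (isTwist_upper (hγu r hr) (hcyc r hr) (hcont r hr) snd' hkill
      hNJ).exists_hasVal hAp hNJ
    refine ⟨V, hV.congr fun g _ => congrArg TrivSqZeroExt.snd (hupper r g), ?_⟩
    set z := conjM (shearU (γ r)) (conjM P r) F 1 1 ^ 2 with hzdef
    have hzfst : z.fst = α ^ 2 := by
      rw [hzdef, fst_pow, conjM_shearU]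
      show (conjM P r F 1 1 - γ r * conjM P r F 0 1).fst ^ 2 = _
      rw [fst_sub, fst_mul, hγ r hr, zero_mul, sub_zero,
        fst_eq_of_map (hmap r (hs r hr).2), hzF]
    -- the cross term comes from the base
    let q : (JJ O m) →+ (JJ O m) :=
      ((maximalIdeal O ^ m).liftQ (LinearMap.toSpanSingleton O (JJ O m) z.snd)
        fun a ha => smul_quot_eq_zero m ha _).toAddMonoidHom
    have h1 := hasVal_quot_sq (hγu r hr) (hcyc r hr) snd' hNJ hV hFA
    have h2 := (hV.map (DistribSMul.toAddMonoidHom (JJ O m) (α ^ 2))).add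
      (((hpeu₀ m).map q).hasVal (p := p) (n := m)) hAp
    have h3 := h1.unique hAp (h2.congr fun g _ => by
      show α ^ 2 • (conjM (shearU (γ r)) (conjM P r) g 0 1).snd + r₁ g 0 1 • z.snd =
        (z * conjM (shearU (γ r)) (conjM P r) g 0 1).snd
      rw [snd_mul', hupper, hzfst, fst_eq_of_map (hmap r (hs r hr).2)])
    rw [sub_smul, one_smul, sub_eq_zero]
    simpa using h3.symm
  choose! V hV hVkill using hval
  -- the fibres inject into flat lifts
  have hfib : ∀ v ∈ s.image V, (s.filter fun r => V r = v).card ≤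
      Nat.card (O ⧸ Ideal.span {η}) := by
    intro v hv
    obtain ⟨rb, hrb, rfl⟩ := Finset.mem_image.mp hv
    obtain ⟨hb1, hb2⟩ := hs rb hrb
    let d : {r // r ∈ s.filter fun r => V r = V rb} → (Gal →* M2 (TT O m)) := fun r =>
      diffRep r₀ rb r.1 hb2 (hs r.1 (Finset.mem_filter.mp r.2).1).2
    have hd : Function.Injective d := fun r r' h =>
      Subtype.ext (eq_of_diffRep_eq hb2 _ _ h)
    rw [← Finset.card_attach, ← Finset.card_image_of_injective _ hd]
    refine hLB m hA _ fun r'' hr'' => ?_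
    obtain ⟨⟨r, hr⟩, -, rfl⟩ := Finset.mem_image.mp hr''
    obtain ⟨hrs, hrV⟩ := Finset.mem_filter.mp hr
    obtain ⟨h1, h2⟩ := hs r hrs
    refine ⟨?_, map_diffRep hb2 h2⟩
    show IsTypeLift p W (flatCond p) T U hA (diffRep r₀ rb r hb2 h2)
    have hcontd : IsCont (diffRep r₀ rb r hb2 h2) := by
      intro k
      obtain ⟨L, hL, hLr⟩ := h1.cont k
      obtain ⟨L', hL', hLb⟩ := hb1.cont k
      obtain ⟨L'', hL'', hL0⟩ := hr₀.cont k
      refine ⟨L ⊔ L' ⊔ L'', inferInstance, fun σ hσ i j => ?_⟩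
      have e : diffRep r₀ rb r hb2 h2 σ i j - (1 : M2 (TT O m)) i j =
          (r σ i j - (1 : M2 (TT O m)) i j) - (rb σ i j - (1 : M2 (TT O m)) i j) +
            algebraMap O (TT O m) (r₀ σ i j - (1 : M2 O) i j) := by
        rw [diffRep_apply, map_sub]
        by_cases hij : i = j
        · subst hij; simp; ring
        · simp [hij]
      rw [e]
      refine add_mem (sub_mem
        (hLr σ (fun x hx => hσ x ((le_sup_left.trans le_sup_left : L ≤ L ⊔ L' ⊔ L'') hx)) i j)
        (hLb σ (fun x hx => hσ x ((le_sup_right.trans le_sup_left : L' ≤ L ⊔ L' ⊔ L'') hx)) i j)) ?_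
      have hle : (maximalIdeal O ^ k).map (algebraMap O (TT O m)) ≤ maximalIdeal (TT O m) ^ k := by
        rw [Ideal.map_pow]
        exact Ideal.pow_right_mono (Ideal.map_le_iff_le_comap.mpr fun a ha =>
          Ideal.mem_comap.mpr (haveI := hA.isLocalHom; map_nonunit (algebraMap O (TT O m)) a ha)) k
      exact hle (Ideal.mem_map_of_mem _
        (hL0 σ (fun x hx => hσ x ((le_sup_right : L'' ≤ L ⊔ L' ⊔ L'') hx)) i j))
    have hdetd : ∀ σ, (diffRep r₀ rb r hb2 h2 σ).det = algebraMap O (TT O m) (r₀ σ).det := fun σ =>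
      det_diffRep hb2 h2 (snd_det_eq_zero m hp (hdetA rb hrb) σ)
        (snd_det_eq_zero m hp (hdetA r hrs) σ)
    have hpT : (p : (TT O m)) ∈ maximalIdeal (TT O m) := (isCycDet_iff.mp h1.det).1
    have hdd : IsCycDet p (diffRep r₀ rb r hb2 h2) := fun n σ a ha => by
      have := hdet₀.map (algebraMap O (TT O m)) n σ a ha
      rw [show mapM (algebraMap O (TT O m)) r₀ σ = (algebraMap O (TT O m)).mapMatrix (r₀ σ) from rfl,
        ← RingHom.map_det, ← hdetd σ] at this
      exact this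
    refine ⟨hcontd, fun σ i j => ?_, ?_, isCycDet_iff.mpr ⟨hpT, hdd⟩, ?_, ?_, ?_⟩
    · have hl : IsLocalHom ((fstHom O O (JJ O m) : (TT O m) →ₐ[O] O) : (TT O m) →+* O) := isLocalHom_fstR
      rw [← augment_comp hA hO (fstHom O O (JJ O m)) hl]
      show augment hO (diffRep r₀ rb r hb2 h2 σ i j).fst = _
      rw [fst_diffRep]
      exact hr₀.lifts σ i j
    · have key : ∀ (cc : Gal →₀ O) i j, evalC cc (diffRep r₀ rb r hb2 h2) i j =
          evalC cc r i j - evalC cc rb i j + algebraMap O (TT O m) (evalC cc r₀ i j) := fun cc i j => by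
        simp only [evalC_apply, Finsupp.sum, map_sum, ← Finset.sum_sub_distrib,
          ← Finset.sum_add_distrib]
        refine Finset.sum_congr rfl fun x _ => ?_
        rw [diffRep_apply, smul_add, smul_sub, Algebra.smul_def (cc x) (algebraMap O (TT O m) (r₀ x i j)),
          smul_eq_mul, map_mul]
      obtain ⟨n1, n2, n3⟩ := h1.normal
      obtain ⟨b1, b2, b3⟩ := hb1.normal
      obtain ⟨o1, o2, o3⟩ := hr₀.normal
      refine ⟨?_, ?_, ?_⟩ <;> simp [key, n1, n2, n3, b1, b2, b3, o1, o2, o3]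
    · -- flat at `p`
      refine ⟨(TT O m), inferInstance, inferInstance, inferInstance, inferInstance, AlgHom.id O (TT O m),
        _, hcontd, Function.injective_id, MonoidHom.ext fun σ => Matrix.ext fun i j => rfl, ?_⟩
      show (toRep _ hcontd).IsFlatAt p
      set γ'' : (TT O m) := inr ((γ r).snd - (γ rb).snd)
      have hu'' : IsUpperAt A
          (conjM (shearU γ'') (conjM P (diffRep r₀ rb r hb2 h2))) := by
        rw [show conjM P (diffRep r₀ rb r hb2 h2) = _ from conjM_diffRep hb2 h2 P₀]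
        exact isUpperAt_shear_diffRep _ _ (hγ rb hrb) (hγ r hrs) (hγu rb hrb) (hγu r hrs) hu₁
      refine Assembly.isFlatAt_of_isEquiv (isEquiv_symm (isEquiv_trans
        (isEquiv_conj hcontd P) (isEquiv_conj (hcontd.conj P) (shearU γ'')))) ?_
      refine isFlatAt_of_upper_peu hAp hresT _ hu'' hpT ((hdd.conj P).conj _) fun I hI => ?_
      obtain ⟨k, hk⟩ := IsLocalRing.exists_maximalIdeal_pow_le_of_isArtinianRing_quotient I
      have hle : maximalIdeal O ^ k ≤ I.comap (algebraMap O (TT O m)) := by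
        refine fun a ha => hk ?_
        refine Ideal.pow_right_mono (Ideal.map_le_iff_le_comap.mpr fun a ha => Ideal.mem_comap.mpr
          (haveI := hA.isLocalHom; map_nonunit (algebraMap O (TT O m)) a ha)) k ?_
        rw [← Ideal.map_pow]
        exact Ideal.mem_map_of_mem _ ha
      let f₁ : (O ⧸ maximalIdeal O ^ k) →+ (TT O m) ⧸ I :=
        (Ideal.quotientMap I (algebraMap O (TT O m)) hle).toAddMonoidHom
      let f₂ : (JJ O m) →+ (TT O m) ⧸ I := (Ideal.Quotient.mk I).toAddMonoidHom.comp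
        (AddMonoidHom.mk' inr (inr_add O))
      have hVd : HasVal A p m (fun g => c r g - c rb g) 0 := by
        have := (hV r hrs).add ((hV rb hrb).map (-AddMonoidHom.id (JJ O m))) hAp
        rw [hrV, AddMonoidHom.neg_apply, AddMonoidHom.id_apply, add_neg_cancel] at this
        refine this.congr fun g _ => ?_
        simp [sub_eq_add_neg]
      refine (((hpeu₀ k).map f₁).add (hVd.isPeu.map f₂)).congr fun g _ => ?_
      show Ideal.Quotient.mk I (algebraMap O (TT O m) (r₁ g 0 1)) +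
          Ideal.Quotient.mk I (inr (c r g - c rb g)) =
        Ideal.Quotient.mk I (conjM (shearU γ'') (conjM P (diffRep r₀ rb r hb2 h2)) g 0 1)
      rw [← map_add, conjM_shearU]
      refine congrArg _ ?_
      show _ = conjM P (diffRep r₀ rb r hb2 h2) g 0 1
      rw [show conjM P (diffRep r₀ rb r hb2 h2) = _ from conjM_diffRep hb2 h2 P₀]
      rfl
    · intro ℓ hℓ hℓp hℓT A' hA' σ hσ
      refine Matrix.ext fun i j => ?_
      rw [diffRep_apply, h1.unramified ℓ hℓ hℓp hℓT A' hA' σ hσ,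
        hb1.unramified ℓ hℓ hℓp hℓT A' hA' σ hσ, hr₀.unramified ℓ hℓ hℓp hℓT A' hA' σ hσ]
      fin_cases i <;> fin_cases j <;> simp
    · intro q hq hqp A' hA' σ hσ
      rw [trace_diffRep, h1.unipotent q hq hqp A' hA' σ hσ, hb1.unipotent q hq hqp A' hA' σ hσ,
        hr₀.unipotent q hq hqp A' hA' σ hσ, map_ofNat]
      ring
  have hD : α ^ 2 - 1 ≠ 0 := sub_ne_zero.mpr hα
  have himage : (s.image V).card ≤ Nat.card (O ⧸ Ideal.span {α ^ 2 - 1}) := by
    refine le_trans ?_ (card_killed_le hD m)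
    haveI : Fintype {x : (JJ O m) // (α ^ 2 - 1) • x = 0} := Fintype.ofFinite _
    rw [Nat.card_eq_fintype_card, ← Finset.card_univ]
    refine Finset.card_le_card_of_injOn
      (fun v => if h : (α ^ 2 - 1) • v = 0 then (⟨v, h⟩ : {x : JJ O m // (α ^ 2 - 1) • x = 0})
        else ⟨0, smul_zero _⟩)
      (fun v _ => Finset.mem_univ _) fun v hv v' hv' h => ?_
    obtain ⟨r, hr, rfl⟩ := Finset.mem_image.mp hv
    obtain ⟨r', hr', rfl⟩ := Finset.mem_image.mp hv'
    simpa [hVkill r hr, hVkill r' hr'] using h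
  rw [card_quot_mul hη]
  exact (Finset.card_le_mul_card_image s _ hfib).trans
    (Nat.mul_le_mul le_rfl himage)

end Fermat.Agent.RT.Lifting.AtP

end
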