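import Fermat.Agent.RT.Lifting.AtP.Valued
import Fermat.Agent.FiniteFlat.OfLattice

/-!
# A Galois order on an extension with unit Kummer classes

A finite Galois module with a line stable under the decomposition group, on which inertia acts by
the cyclotomic character, with trivial quotient and peu ramifié classes, carries a Galois order:
the functions whose restrictions to the translates of the line lie in the span of its characters.
-/

set_option autoImplicit false
set_option linter.style.haveILetI false
set_option linter.unusedSectionVars false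

noncomputable section

namespace Fermat.Agent.RT.Lifting.AtP

open Fermat.Agent.Arith Fermat.Agent.FiniteFlat
open scoped Pointwise

variable {A : ValuationSubring QBar} {p n : ℕ} {N M : Type} [AddCommGroup N] [AddCommGroup M]

/-- The characters as functions. -/
def charFun (N : Type) [AddCommGroup N] : (Multiplicative N →* QBarˣ) →* (N → QBar) where
  toFun l := chv l
  map_one' := funext fun _ => by simp [chv]
  map_mul' l l' := funext fun x => chv_mul l l' x

variable (A N) in
/-- The algebra spanned by the characters. -/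
def charAlg : Subalgebra A (N → QBar) := Algebra.adjoin A (Set.range (charFun N))

theorem toSubmodule_charAlg :
    Subalgebra.toSubmodule (charAlg A N) = Submodule.span A (Set.range (charFun N)) := by
  rw [charAlg, Algebra.adjoin_eq_span, ← MonoidHom.coe_mrange, Submonoid.closure_eq]

/-- `g ↦ σ (g (α a + γ))` preserves the algebra of characters. -/
theorem charAlg_twist {σ : GQ} (hσ : σ • A = A) (α : N →+ N) {γ : N}
    (hint : ∀ (l : Multiplicative N →* QBarˣ) (x : N), chv l x ∈ A) {g : N → QBar}
    (hg : g ∈ charAlg A N) : (fun a => σ (g (α a + γ))) ∈ charAlg A N := by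
  induction hg using Algebra.adjoin_induction with
  | mem g hg =>
    obtain ⟨l, rfl⟩ := hg
    let l' : Multiplicative N →* QBarˣ :=
      (Units.map (σ : QBar →+* QBar).toMonoidHom).comp (l.comp (AddMonoidHom.toMultiplicative α))
    have e : (fun a => σ (charFun N l (α a + γ))) =
        (⟨_, map_mem_of_mem_decomposition hσ (hint l γ)⟩ : A) • charFun N l' := by
      funext a
      rw [Pi.smul_apply, valuationSubring_smul_def]
      show σ (chv l (α a + γ)) = σ (chv l γ) * chv l' a
      rw [chv_add, map_mul, mul_comm]
      rfl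
    rw [e]
    exact Subalgebra.smul_mem _ (Algebra.subset_adjoin (Set.mem_range_self l')) _
  | algebraMap c =>
    exact (charAlg A N).algebraMap_mem ⟨_, map_mem_of_mem_decomposition hσ c.2⟩
  | add f g _ _ hf hg =>
    convert add_mem hf hg using 1
    exact funext fun a => map_add σ _ _
  | mul f g _ _ hf hg =>
    convert mul_mem hf hg using 1
    exact funext fun a => map_mul σ _ _

section Lattice

variable (e : M ≃+ N × N)

variable (A) in
/-- Restriction to a translate of the line. -/
def slice (b : N) : (M → QBar) →ₐ[A] (N → QBar) :=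
  AlgHom.pi fun a => Pi.evalAlgHom A (fun _ : M => QBar) (e.symm (a, b))

theorem slice_apply (b : N) (f : M → QBar) (a : N) : slice A e b f a = f (e.symm (a, b)) := rfl

variable (A) in
/-- The lattice. -/
def peuLattice : Subalgebra A (M → QBar) := ⨅ b, (charAlg A N).comap (slice A e b)

theorem mem_peuLattice {f : M → QBar} :
    f ∈ peuLattice A e ↔ ∀ b, slice A e b f ∈ charAlg A N := by
  simp [peuLattice, Algebra.mem_iInf, Subalgebra.mem_comap]

open Classical in
variable (A) in
/-- Extension by zero from a translate of the line. -/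
def extend (b : N) : (N → QBar) →ₗ[A] (M → QBar) where
  toFun g m := if (e m).2 = b then g (e m).1 else 0
  map_add' g g' := funext fun m => by simp only [Pi.add_apply]; split <;> simp
  map_smul' c g := funext fun m => by simp only [Pi.smul_apply, RingHom.id_apply]; split <;> simp

open Classical in
theorem extend_apply (b : N) (g : N → QBar) (m : M) :
    extend A e b g m = if (e m).2 = b then g (e m).1 else 0 := rfl

theorem extend_char_mem (b : N) (l : Multiplicative N →* QBarˣ) :
    extend A e b (charFun N l) ∈ peuLattice A e := by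
  classical
  rw [mem_peuLattice]
  intro b'
  rcases eq_or_ne b' b with rfl | h
  · rw [show slice A e b' (extend A e b' (charFun N l)) = charFun N l from funext fun a => by
      simp [slice_apply, extend_apply]]
    exact Algebra.subset_adjoin (Set.mem_range_self l)
  · rw [show slice A e b' (extend A e b (charFun N l)) = 0 from funext fun a => by
      simp [slice_apply, extend_apply, h]]
    exact zero_mem _

theorem toSubmodule_peuLattice_le [Finite N] :
    Subalgebra.toSubmodule (peuLattice A e) ≤ Submodule.span A
      (Set.range fun q : N × (Multiplicative N →* QBarˣ) => extend A e q.1 (charFun N q.2)) := by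
  classical
  haveI := Fintype.ofFinite N
  intro f hf
  rw [Subalgebra.mem_toSubmodule, mem_peuLattice] at hf
  have he : f = ∑ b, extend A e b (slice A e b f) := funext fun m => by
    simp [Finset.sum_apply, extend_apply, slice_apply]
  rw [he]
  refine Submodule.sum_mem _ fun b _ => ?_
  have h2 : slice A e b f ∈ Submodule.span A (Set.range (charFun N)) := by
    rw [← toSubmodule_charAlg]; exact hf b
  have h3 := Submodule.mem_map_of_mem (f := extend A e b) h2
  rw [Submodule.map_span] at h3
  refine Submodule.span_mono ?_ h3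
  rintro _ ⟨_, ⟨l, rfl⟩, rfl⟩
  exact ⟨(b, l), rfl⟩

theorem exists_comul [Finite N] {f : M → QBar} (hf : f ∈ peuLattice A e) :
    ∃ (k : ℕ) (a b : Fin k → (M → QBar)), (∀ i, a i ∈ peuLattice A e) ∧
      (∀ i, b i ∈ peuLattice A e) ∧ ∀ x y, f (x + y) = ∑ i, a i x * b i y := by
  classical
  haveI := Fintype.ofFinite N
  have hspan := toSubmodule_peuLattice_le e hf
  clear hf
  induction hspan using Submodule.span_induction with
  | mem f hf =>
    obtain ⟨⟨b, l⟩, rfl⟩ := hf
    let ι := (Fintype.equivFin N).symm
    refine ⟨_, fun i => extend A e (ι i) (charFun N l),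
      fun i => extend A e (b - ι i) (charFun N l), fun i => extend_char_mem e _ _,
      fun i => extend_char_mem e _ _, fun x y => ?_⟩
    refine Eq.trans ?_
      (ι.sum_comp fun b' => extend A e b' (charFun N l) x * extend A e (b - b') (charFun N l) y).symm
    simp only [extend_apply, map_add, Prod.fst_add, Prod.snd_add]
    rw [Finset.sum_eq_single (e x).2 (fun c _ hc => by rw [if_neg (Ne.symm hc), zero_mul])
      (fun h => absurd (Finset.mem_univ _) h), if_pos rfl]
    by_cases h : (e x).2 + (e y).2 = b
    · rw [if_pos h, if_pos (by rw [← h, add_sub_cancel_left])]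
      exact chv_add l _ _
    · rw [if_neg h, if_neg (fun h' => h (by rw [h', add_sub_cancel])), mul_zero]
  | zero => exact ⟨0, Fin.elim0, Fin.elim0, fun i => i.elim0, fun i => i.elim0, fun x y => by simp⟩
  | add f g _ _ hf hg =>
    obtain ⟨k, a, b, ha, hb, hab⟩ := hf
    obtain ⟨k', a', b', ha', hb', hab'⟩ := hg
    refine ⟨k + k', Fin.append a a', Fin.append b b', fun i => ?_, fun i => ?_, fun x y => ?_⟩
    · refine Fin.addCases (fun i => ?_) (fun i => ?_) i <;> simp [ha, ha']
    · refine Fin.addCases (fun i => ?_) (fun i => ?_) i <;> simp [hb, hb']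
    · simp [Fin.sum_univ_add, hab, hab']
  | smul c f _ hf =>
    obtain ⟨k, a, b, ha, hb, hab⟩ := hf
    refine ⟨k, fun i => c • a i, b, fun i => Subalgebra.smul_mem _ (ha i) c, hb, fun x y => ?_⟩
    simp [hab, valuationSubring_smul_def, Finset.mul_sum, mul_assoc]

end Lattice

variable [Fact p.Prime] [DistribMulAction GQ M] [Finite M] [Finite N]

/-- **The Galois order of a peu ramifié extension.** -/
theorem exists_galOrder_of_peu (hA : A.LiesOverPrime p) (hN : ∀ x : N, (p ^ n) • x = 0)
    (e : M ≃+ N × N)
    (hlevel : ∃ L : IntermediateField ℚ QBar, FiniteDimensional ℚ L ∧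
      ∀ h : GQ, (∀ x ∈ L, h x = x) → ∀ m : M, h • m = m)
    (hline : ∀ d : GQ, d • A = A → ∀ m : M, (e m).2 = 0 → (e (d • m)).2 = 0)
    (c : GQ → N → N)
    (hI : ∀ g ∈ A.inertiaSubgroupIn ℚ, ∀ a : ℕ, IsExp p n g a →
      ∀ m : M, e (g • m) = (a • (e m).1 + c g (e m).2, (e m).2))
    (hc : ∀ b, IsPeu A fun g => c g b) :
    Nonempty (GalOrder p M) := by
  classical
  haveI := Fintype.ofFinite N
  have hp : p.Prime := Fact.out
  haveI : NeZero ((Monoid.exponent (Multiplicative N) : ℕ) : QBar) :=
    ⟨Nat.cast_ne_zero.mpr Monoid.exponent_ne_zero_of_finite⟩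
  haveI : Finite (Multiplicative N →* QBarˣ) := Finite.of_equiv _
    (CommGroup.monoidHom_mulEquiv_of_hasEnoughRootsOfUnity (Multiplicative N) QBar).some.symm.toEquiv
  haveI := Fintype.ofFinite (Multiplicative N →* QBarˣ)
  have hint : ∀ (l : Multiplicative N →* QBarˣ) (x : N), chv l x ∈ A := fun l x =>
    (A.valuation_le_one_iff _).mp (valuation_chv l A (pow_ne_zero n hp.ne_zero) (hN x)).le
  set S := peuLattice A e
  have hΛint : ∀ g ∈ charAlg A N, ∀ a, g a ∈ A := by
    intro g hg
    induction hg using Algebra.adjoin_induction with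
    | mem g hg => obtain ⟨l, rfl⟩ := hg; exact hint l
    | algebraMap c => exact fun a => c.2
    | add f g _ _ hf hg => exact fun a => add_mem (hf a) (hg a)
    | mul f g _ _ hf hg => exact fun a => mul_mem (hf a) (hg a)
  have hSint : ∀ f ∈ S, ∀ m, f m ∈ A := fun f hf m => by
    have := hΛint _ ((mem_peuLattice e).mp hf (e m).2) (e m).1
    rwa [slice_apply, Prod.mk.eta, AddEquiv.symm_apply_apply] at this
  -- unit Kummer generators give functions fixed by inertia
  choose y hy hyv using fun q : N × (Multiplicative N →* QBarˣ) => hc q.1 q.2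
  let φ : N × (Multiplicative N →* QBarˣ) → (M → QBar) :=
    fun q m => y q * extend A e q.1 (charFun N q.2) m
  have hyA : ∀ q, y q ∈ A := fun q => (A.valuation_le_one_iff _).mp (hyv q).le
  have hyA' : ∀ q, (y q)⁻¹ ∈ A := fun q =>
    (A.valuation_le_one_iff _).mp (by rw [map_inv₀, hyv q, inv_one])
  have hφS : ∀ q, φ q ∈ S := fun q => by
    rw [show φ q = (⟨y q, hyA q⟩ : A) • extend A e q.1 (charFun N q.2) from rfl]
    exact Subalgebra.smul_mem _ (extend_char_mem e _ _) _
  have hφI : ∀ q, ∀ g ∈ A.inertiaSubgroupIn ℚ, galAct g (φ q) = φ q := by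
    intro q g hg
    obtain ⟨a, ha⟩ := exists_isExp p n g
    have key : ∀ m, φ q (g • m) = g (φ q m) := fun m => by
      simp only [φ, extend_apply, hI g hg a ha m, map_mul]
      by_cases h : (e m).2 = q.1
      · rw [if_pos h, if_pos h, (hy q).2 g hg, h]
        show y q * chv q.2 (a • (e m).1 + c g q.1) = _ * g (chv q.2 (e m).1)
        rw [map_chv q.2 hN ha, chv_add]
        ring
      · rw [if_neg h, if_neg h, mul_zero, map_zero, mul_zero]
    funext m
    show g (φ q (g⁻¹ • m)) = φ q m
    rw [← key, smul_inv_smul]
  obtain ⟨L, hL, hLM⟩ := hlevel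
  let V : Set QBar := Set.range fun qm : (N × (Multiplicative N →* QBarˣ)) × M => φ qm.1 qm.2
  have hV : V.Finite := Set.finite_range _
  haveI : FiniteDimensional ℚ (IntermediateField.adjoin ℚ V) :=
    haveI := hV.to_subtype
    IntermediateField.finiteDimensional_adjoin fun x _ => Algebra.IsIntegral.isIntegral x
  let L' : IntermediateField ℚ QBar := L ⊔ IntermediateField.adjoin ℚ V
  have hfix : ∀ q, ∀ u ∈ A.inertiaSubgroupIn ℚ ⊔ L'.fixingSubgroup, galAct u (φ q) = φ q := by
    intro q
    let St : Subgroup GQ :=
      { carrier := {u | galAct u (φ q) = φ q}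
        one_mem' := funext fun m => by simp [galAct]
        mul_mem' := fun {u v} hu hv => by
          show galAct (u * v) (φ q) = φ q
          rw [galAct_mul, hv, hu]
        inv_mem' := fun {u} hu => by
          show galAct u⁻¹ (φ q) = φ q
          conv_lhs => rw [← show galAct u (φ q) = φ q from hu, ← galAct_mul, inv_mul_cancel]
          exact funext fun m => by simp [galAct] }
    suffices A.inertiaSubgroupIn ℚ ⊔ L'.fixingSubgroup ≤ St from fun u hu => this hu
    refine sup_le (fun g hg => hφI q g hg) fun h hh => funext fun m => ?_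
    rw [IntermediateField.mem_fixingSubgroup_iff] at hh
    have e1 : h⁻¹ • m = m := by
      rw [inv_smul_eq_iff, hLM h (fun x hx => hh x ((le_sup_left : L ≤ L') hx)) m]
    show h (φ q (h⁻¹ • m)) = φ q m
    rw [e1]
    exact hh _ ((le_sup_right : IntermediateField.adjoin ℚ V ≤ L')
      (IntermediateField.subset_adjoin ℚ V ⟨(q, m), rfl⟩))
  have hopen : IsOpen ((A.inertiaSubgroupIn ℚ ⊔ L'.fixingSubgroup : Subgroup GQ) : Set GQ) :=
    Subgroup.isOpen_mono le_sup_right L'.fixingSubgroup_isOpen
  refine (exists_galOrder_of_lattice hA hp S hSint ?_ hopen le_sup_left ?_ ?_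
    (fun f hf => exists_comul e hf) ?_).elim fun O _ => ⟨O⟩
  · intro d hd f hf
    rw [mem_peuLattice]
    intro b
    have hd' : d⁻¹ • A = A := inv_smul_eq_iff.mpr hd.symm
    let α : N →+ N := AddMonoidHom.mk' (fun a => (e (d⁻¹ • e.symm (a, 0))).1) fun a a' => by
      rw [← Prod.fst_add, ← map_add e, ← smul_add, ← map_add e.symm, Prod.mk_add_mk, add_zero]
    have h1 : ∀ a, d⁻¹ • e.symm (a, b) =
        e.symm (α a + (e (d⁻¹ • e.symm (0, b))).1, (e (d⁻¹ • e.symm (0, b))).2) := fun a => by
      apply e.injective
      rw [AddEquiv.apply_symm_apply, show ((a, b) : N × N) = (a, 0) + (0, b) by simp, map_add,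
        smul_add, map_add]
      refine Prod.ext rfl ?_
      rw [Prod.snd_add, hline _ hd' (e.symm (a, 0)) (by simp), zero_add]
    convert charAlg_twist hd α (γ := (e (d⁻¹ • e.symm (0, b))).1) hint
      ((mem_peuLattice e).mp hf (e (d⁻¹ • e.symm (0, b))).2) using 1
    funext a
    show d (f (d⁻¹ • e.symm (a, b))) = _
    rw [h1]
    rfl
  · refine (toSubmodule_peuLattice_le e).trans (Submodule.span_le.mpr ?_)
    rintro _ ⟨q, rfl⟩
    have hq : extend A e q.1 (charFun N q.2) = (⟨(y q)⁻¹, hyA' q⟩ : A) • φ q := funext fun m => by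
      show _ = (y q)⁻¹ * (y q * extend A e q.1 (charFun N q.2) m)
      rw [inv_mul_cancel_left₀ (hy q).1]
    show extend A e q.1 (charFun N q.2) ∈ _
    rw [hq]
    exact Submodule.smul_mem _ _ (Submodule.subset_span ⟨hφS q, hfix q⟩)
  · intro m m' h
    by_contra hne
    by_cases hb : (e m).2 = (e m').2
    · have ha : (e m).1 ≠ (e m').1 := fun ha => hne (e.injective (Prod.ext ha hb))
      obtain ⟨l, hl⟩ := not_forall.mp fun hall => ha (Multiplicative.ofAdd.injective
        ((CommGroup.forall_apply_eq_apply_iff (M := QBar) (Multiplicative N)).mp hall))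
      refine hl (Units.ext ?_)
      have h' := h _ (extend_char_mem e (e m).2 l)
      rwa [extend_apply, extend_apply, if_pos rfl, if_pos hb.symm] at h'
    · have h' := h _ (extend_char_mem e (e m).2 1)
      rw [extend_apply, extend_apply, if_pos rfl, if_neg (Ne.symm hb)] at h'
      exact chv_ne_zero (1 : Multiplicative N →* QBarˣ) (e m).1 h'
  · intro f hf
    rw [mem_peuLattice]
    intro b
    have hone : (1 : GQ) • A = A := one_smul GQ A
    convert charAlg_twist hone (-AddMonoidHom.id N) (γ := (0 : N)) hint
      ((mem_peuLattice e).mp hf (-b)) using 1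
    funext a
    show f (-e.symm (a, b)) = (1 : GQ) (f (e.symm (-a + 0, -b)))
    rw [AlgEquiv.one_apply, add_zero, ← map_neg, Prod.neg_mk]

end Fermat.Agent.RT.Lifting.AtP

end
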