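import Fermat.Agent.GaloisReps.Constructor
import Fermat.Agent.EichlerShimura.Specialization
import Fermat.Prelude.Thm_IsAdicComplete_of_module_finite

/-!
# Functionals carrying `O`-points of the torsion coordinates to points of `J₀(N)`

For a complete discrete valuation ring `O` over `ℤ_[p]`, a linear functional `l : O → ℤ_[p]` sends
a vector of `O ^ d` to a `p ^ n`-torsion point of `J₀(N)`, compatibly with Galois and Hecke.
-/

set_option autoImplicit false

noncomputable section

open IsLocalRing CongruenceSubgroup ModularCurve ModularCurve.Period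

namespace Fermat.Agent.RT.Lifting.AtP

open Fermat.Agent.GaloisReps

variable {p : ℕ} [Fact p.Prime]

section Ring

variable (O : Type) [CommRing O] [IsDomain O] [IsDiscreteValuationRing O]
  [Finite (ResidueField O)] [CharZero O] [Algebra ℤ_[p] O]

/-- A complete discrete valuation ring with finite residue field of residue characteristic `p` is
finite over `ℤ_[p]`. -/
theorem finite_over_padicInt (hp : (p : O) ∈ maximalIdeal O) : Module.Finite ℤ_[p] O := by
  classical
  set I : Ideal ℤ_[p] := maximalIdeal ℤ_[p] with hI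
  have hle : I.map (algebraMap ℤ_[p] O) ≤ maximalIdeal O := by
    rw [hI, PadicInt.maximalIdeal_eq_span_p, Ideal.map_span, Set.image_singleton, map_natCast]
    exact (Ideal.span_singleton_le_iff_mem _).mpr hp
  have : IsHausdorff (I.map (algebraMap ℤ_[p] O)) O := by
    refine ⟨fun x hx => IsHausdorff.haus' (I := maximalIdeal O) x fun n => ?_⟩
    have h := hx n
    rw [SModEq.zero, smul_eq_mul, Ideal.mul_top] at h ⊢
    exact Ideal.pow_right_mono hle n h
  have := IsHausdorff.map_algebraMap_iff.mp this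
  obtain ⟨π, hπ⟩ := IsDiscreteValuationRing.exists_irreducible O
  obtain ⟨e, u, he⟩ := IsDiscreteValuationRing.eq_unit_mul_pow_irreducible
    (show (p : O) ≠ 0 from Nat.cast_ne_zero.mpr (Fact.out : p.Prime).ne_zero) hπ
  have hfin : Finite (O ⧸ maximalIdeal O ^ e) :=
    have : Finite (O ⧸ maximalIdeal O) := inferInstanceAs (Finite (ResidueField O))
    Ideal.finite_quotient_pow (IsNoetherian.noetherian (maximalIdeal O)) e
  have := Fintype.ofFinite (O ⧸ maximalIdeal O ^ e)
  choose lift hlift using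
    Ideal.Quotient.mk_surjective (I := maximalIdeal O ^ e)
  let f : ((O ⧸ maximalIdeal O ^ e) → ℤ_[p]) →ₗ[ℤ_[p]] O :=
    Fintype.linearCombination ℤ_[p] lift
  have hsurj : Function.Surjective (Submodule.mkQ (I • (⊤ : Submodule ℤ_[p] O)) ∘ₗ f) := by
    intro y
    obtain ⟨x, rfl⟩ := Submodule.mkQ_surjective _ y
    refine ⟨Pi.single (Ideal.Quotient.mk _ x) 1, ?_⟩
    rw [LinearMap.comp_apply, Submodule.mkQ_apply, Submodule.mkQ_apply, Submodule.Quotient.eq]
    rw [show f (Pi.single (Ideal.Quotient.mk _ x) 1) = lift (Ideal.Quotient.mk _ x) by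
      simp [f, Fintype.linearCombination_apply_single], Ideal.smul_top_eq_map,
      Submodule.restrictScalars_mem]
    have hpe : maximalIdeal O ^ e ≤ I.map (algebraMap ℤ_[p] O) := by
      rw [hI, PadicInt.maximalIdeal_eq_span_p, Ideal.map_span, Set.image_singleton, map_natCast,
        hπ.maximalIdeal_eq, Ideal.span_singleton_pow, Ideal.span_singleton_le_iff_mem,
        Ideal.mem_span_singleton, he]
      exact Units.mul_left_dvd.mpr dvd_rfl
    exact hpe (Ideal.Quotient.eq.mp (hlift (Ideal.Quotient.mk _ x)))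
  have : IsAdicComplete I ((O ⧸ maximalIdeal O ^ e) → ℤ_[p]) := IsAdicComplete.of_module_finite I _
  exact Module.Finite.of_surjective f (surjective_of_mkQ_comp_surjective (I := I) hsurj)

omit [Finite (ResidueField O)] in
theorem isTorsionFree_padicInt : Module.IsTorsionFree ℤ_[p] O := by
  refine Module.isTorsionFree_iff_algebraMap_injective.2
    ((injective_iff_map_eq_zero _).2 fun a ha => by_contra fun h0 => ?_)
  rw [PadicInt.unitCoeff_spec h0, map_mul, map_pow, map_natCast] at ha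
  rcases mul_eq_zero.1 ha with h | h
  · exact ((PadicInt.unitCoeff h0).isUnit.map (algebraMap ℤ_[p] O)).ne_zero h
  · exact pow_ne_zero _ (Nat.cast_ne_zero.2 (Fact.out : p.Prime).ne_zero) h

/-- Functionals detect divisibility by powers of `p`. -/
theorem pow_dvd_of_forall_functional (hp : (p : O) ∈ maximalIdeal O) {n : ℕ} {x : O}
    (h : ∀ l : O →ₗ[ℤ_[p]] ℤ_[p], PadicInt.toZModPow n (l x) = 0) : (p : O) ^ n ∣ x := by
  have := finite_over_padicInt O hp
  have := isTorsionFree_padicInt (p := p) O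
  have : Module.Free ℤ_[p] O := Module.free_of_finite_type_torsion_free'
  let b := Module.Free.chooseBasis ℤ_[p] O
  rw [← b.sum_repr x]
  refine Finset.dvd_sum fun i _ => ?_
  have hi : (p : ℤ_[p]) ^ n ∣ b.repr x i := by
    rw [← Ideal.mem_span_singleton, ← PadicInt.ker_toZModPow, RingHom.mem_ker]
    exact h (b.coord i)
  obtain ⟨c, hc⟩ := hi
  refine ⟨c • b i, ?_⟩
  rw [hc, Algebra.smul_def, Algebra.smul_def, map_mul, map_pow, map_natCast, mul_assoc]

end Ring

section Pushforward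

variable {N : ℕ} [NeZero N] (E : TorsionIso N p)
  {O : Type} [CommRing O] [Algebra ℤ_[p] O]

/-- The torsion point with coordinates `l (v i)` modulo `p ^ n`. -/
def torPt (n : ℕ) (l : O →ₗ[ℤ_[p]] ℤ_[p]) :
    (Fin (2 * Gamma0.genus N) → O) →+ JTors N p n :=
  (E.psi n).symm.toAddMonoidHom.comp
    (((PadicInt.toZModPow n).toAddMonoidHom.comp l.toAddMonoidHom).compLeft _)

theorem psi_torPt (n : ℕ) (l : O →ₗ[ℤ_[p]] ℤ_[p]) (v : Fin (2 * Gamma0.genus N) → O)
    (i : Fin (2 * Gamma0.genus N)) :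
    E.psi n (torPt E n l v) i = PadicInt.toZModPow n (l (v i)) :=
  congrFun ((E.psi n).apply_symm_apply _) i

theorem torPt_eq_iff {n : ℕ} {l : O →ₗ[ℤ_[p]] ℤ_[p]} {v : Fin (2 * Gamma0.genus N) → O}
    {x : JTors N p n} :
    torPt E n l v = x ↔ ∀ i, PadicInt.toZModPow n (l (v i)) = E.psi n x i :=
  ⟨fun h i => by rw [← h, psi_torPt], fun h => (E.psi n).injective (funext fun i => by
    rw [psi_torPt, h])⟩

theorem torPt_smul (n : ℕ) (l : O →ₗ[ℤ_[p]] ℤ_[p]) (c : O) (v : Fin (2 * Gamma0.genus N) → O) :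
    torPt E n l (c • v) = torPt E n (l.comp (LinearMap.mulLeft ℤ_[p] c)) v :=
  (torPt_eq_iff E).mpr fun i => by rw [psi_torPt]; rfl

theorem torPt_eq_zero (n : ℕ) (l : O →ₗ[ℤ_[p]] ℤ_[p]) {v : Fin (2 * Gamma0.genus N) → O}
    (h : ∀ i, (p : O) ^ n ∣ v i) : torPt E n l v = 0 := by
  refine (torPt_eq_iff E).mpr fun i => ?_
  obtain ⟨w, hw⟩ := h i
  rw [map_zero, Pi.zero_apply, hw,
    show (p : O) ^ n * w = ((p : ℤ_[p]) ^ n) • w by
      rw [Algebra.smul_def, map_pow, map_natCast],
    map_smul, smul_eq_mul, map_mul, map_pow, map_natCast]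
  rw [← Nat.cast_pow, ZMod.natCast_self, zero_mul]

omit [NeZero N] in
theorem mulVec_functional (l : O →ₗ[ℤ_[p]] ℤ_[p])
    (A : Matrix (Fin (2 * Gamma0.genus N)) (Fin (2 * Gamma0.genus N)) ℤ_[p])
    (v : Fin (2 * Gamma0.genus N) → O) (n : ℕ) :
    (fun i => PadicInt.toZModPow n (l ((A.map (algebraMap ℤ_[p] O)).mulVec v i))) =
      (A.map (PadicInt.toZModPow n)).mulVec fun i => PadicInt.toZModPow n (l (v i)) := by
  funext i
  simp only [Matrix.mulVec, dotProduct, Matrix.map_apply, map_sum, ← Algebra.smul_def, map_smul,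
    smul_eq_mul, map_mul]

/-- Galois equivariance. -/
theorem torPt_gal (n : ℕ) (l : O →ₗ[ℤ_[p]] ℤ_[p]) (σ : AbsGal)
    (v : Fin (2 * Gamma0.genus N) → O) :
    (torPt E n l (((E.gal σ).map (algebraMap ℤ_[p] O)).mulVec v) : JZero N) =
      σ • (torPt E n l v : JZero N) := by
  refine congrArg Subtype.val ((torPt_eq_iff E (x := galTors n σ (torPt E n l v))).mpr fun i => ?_)
  rw [← E.galLvl_mulVec, ← E.map_gal]
  refine (congrFun (mulVec_functional l (E.gal σ) v n) i).trans ?_
  simp only [← psi_torPt E n l v]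

/-- Hecke equivariance. -/
theorem torPt_hecke (n : ℕ) (l : O →ₗ[ℤ_[p]] ℤ_[p]) {ℓ : ℕ} (hℓ : ℓ.Prime)
    (v : Fin (2 * Gamma0.genus N) → O) :
    (torPt E n l ((matIn (latticeMat N) O (HeckeDuality.heckeOp N 2 ℓ hℓ)).mulVec v) : JZero N) =
      heckeOperatorBar N ⟨ℓ, hℓ⟩ (torPt E n l v : JZero N) := by
  refine congrArg Subtype.val
    ((torPt_eq_iff E (x := heckeTors n ⟨ℓ, hℓ⟩ (torPt E n l v))).mpr fun i => ?_)
  rw [← E.mat_mulVec, E.mat_heckeTors, ← map_intCast_toZModPow, ← latticeMat_heckeOp]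
  have e : matIn (latticeMat N) O (HeckeDuality.heckeOp N 2 ℓ hℓ) =
      (matIn (latticeMat N) ℤ_[p] (HeckeDuality.heckeOp N 2 ℓ hℓ)).map (algebraMap ℤ_[p] O) := by
    ext i j; simp
  rw [e, matIn_apply]
  refine (congrFun (mulVec_functional l _ v n) i).trans ?_
  simp only [← psi_torPt E n l v]

variable (A : ValuationSubring (AlgebraicClosure ℚ))

/-- The vectors all whose images in `J₀(N)[p ^ n]` reduce to zero at `A`. -/
def redKer (n : ℕ) : Submodule O (Fin (2 * Gamma0.genus N) → O) where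
  carrier := {v | ∀ l : O →ₗ[ℤ_[p]] ℤ_[p], reductionModL A N (torPt E n l v : JZero N) = 0}
  zero_mem' l := by rw [map_zero, ZeroMemClass.coe_zero, map_zero]
  add_mem' hv hw l := by rw [map_add, AddMemClass.coe_add, map_add, hv l, hw l, add_zero]
  smul_mem' c v hv l := by rw [torPt_smul]; exact hv _

theorem mem_redKer {n : ℕ} {v : Fin (2 * Gamma0.genus N) → O} :
    v ∈ redKer E A n ↔ ∀ l : O →ₗ[ℤ_[p]] ℤ_[p], reductionModL A N (torPt E n l v : JZero N) = 0 :=
  Iff.rfl

variable {A}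

theorem smul_sub_mem_redKer [IsAlgClosed (EichlerShimura.Kappa A)]
    (hNA : (N : EichlerShimura.Kappa A) ≠ 0) {σ : AbsGal} (hσ : σ ∈ A.inertiaSubgroupIn ℚ)
    (n : ℕ) (v : Fin (2 * Gamma0.genus N) → O) :
    ((E.gal σ).map (algebraMap ℤ_[p] O)).mulVec v - v ∈ redKer E A n := fun l => by
  rw [map_sub, AddSubgroupClass.coe_sub, torPt_gal, map_sub,
    EichlerShimura.reductionModL_inertia hNA hσ, sub_self]

theorem quadratic_mem_redKer (hpN : ¬ p ∣ N) (hA : A.LiesOverPrime p) {σ : AbsGal}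
    (hσ : A.IsFrobeniusAt σ p) (n : ℕ) (v : Fin (2 * Gamma0.genus N) → O) :
    ((E.gal σ).map (algebraMap ℤ_[p] O)).mulVec (((E.gal σ).map (algebraMap ℤ_[p] O)).mulVec v) -
        (matIn (latticeMat N) O (HeckeDuality.heckeOp N 2 p Fact.out)).mulVec
          (((E.gal σ).map (algebraMap ℤ_[p] O)).mulVec v) + p • v ∈ redKer E A n := fun l => by
  rw [map_add, AddMemClass.coe_add, map_sub, AddSubgroupClass.coe_sub, map_nsmul,
    AddSubmonoidClass.coe_nsmul, torPt_hecke, torPt_gal, torPt_gal]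
  exact EichlerShimura.reductionModL_quadratic Fact.out hpN hA hσ _

end Pushforward

end Fermat.Agent.RT.Lifting.AtP

end
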