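import Fermat.Agent.RT.Lifting.AtP.Conds
import Fermat.Agent.Deform.Residual

/-!
# Transport of residual properties along coefficient extensions

Absolute irreducibility and distinguished ordinarity of `ρbar` pass to any representation whose
residual representation is an extension of scalars of `ρbar`.
-/

set_option autoImplicit false
set_option linter.style.haveILetI false

noncomputable section

open IsLocalRing Module
open scoped TensorProduct

namespace Fermat.Agent.RT.Lifting

open Fermat.Agent.Deform Fermat.Agent.Arith

variable {k k' : Type} [Field k] [Field k']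

/-- A representation whose matrices span the matrix algebra is absolutely irreducible. -/
theorem isAbsolutelyIrreducible_of_span (ρ : ResidualGaloisRep k) (b : Basis (Fin 2) k ρ.V)
    (h : Submodule.span k (Set.range (matRes ρ b)) = ⊤) : ρ.IsAbsolutelyIrreducible := by
  classical
  intro W hW
  let L := AlgebraicClosure k
  let f : Basis (Fin 2) L (L ⊗[k] ρ.V) := b.baseChange L
  have hX : ∀ (X : Module.End k ρ.V), ∀ z ∈ W, X.baseChange L z ∈ W := by
    intro X
    have hX : LinearMap.toMatrixAlgEquiv b X ∈ Submodule.span k (Set.range (matRes ρ b)) :=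
      h ▸ Submodule.mem_top
    suffices H : ∀ Y ∈ Submodule.span k (Set.range (matRes ρ b)),
        ∀ z ∈ W, ((LinearMap.toMatrixAlgEquiv b).symm Y).baseChange L z ∈ W by
      simpa using H _ hX
    intro Y hY
    induction hY using Submodule.span_induction with
    | mem Y hY =>
      obtain ⟨σ, rfl⟩ := hY
      intro z hz
      rw [show (LinearMap.toMatrixAlgEquiv b).symm (matRes ρ b σ) = ρ.ρ σ from
        (LinearMap.toMatrixAlgEquiv b).symm_apply_apply _]
      exact hW σ z hz
    | zero => intro z _; rw [map_zero, LinearMap.baseChange_zero]; exact W.zero_mem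
    | add x y _ _ hx hy =>
      intro z hz
      rw [map_add, LinearMap.baseChange_add]
      exact W.add_mem (hx z hz) (hy z hz)
    | smul c x _ hx =>
      intro z hz
      rw [map_smul, LinearMap.baseChange_smul, LinearMap.smul_apply,
        ← algebraMap_smul L c]
      exact W.smul_mem _ (hx z hz)
  refine or_iff_not_imp_left.mpr fun hne => ?_
  obtain ⟨w, hw, hw0⟩ := Submodule.exists_mem_ne_zero_of_ne_bot hne
  obtain ⟨m, hm⟩ : ∃ m, f.repr w m ≠ 0 := by
    by_contra hall
    push Not at hall
    exact hw0 (f.repr.injective (Finsupp.ext fun i => by rw [hall i, map_zero]; rfl))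
  have hall : ∀ l, f l ∈ W := by
    intro l
    set X : Module.End k ρ.V := b.constr k (fun i => if i = m then b l else 0)
    have e : X.baseChange L w = f.repr w m • f l := by
      conv_lhs => rw [← f.sum_repr w]
      rw [map_sum, Finset.sum_eq_single m]
      · rw [map_smul, show f m = (1 : L) ⊗ₜ[k] b m from Basis.baseChange_apply _ _ _,
          show f l = (1 : L) ⊗ₜ[k] b l from Basis.baseChange_apply _ _ _,
          LinearMap.baseChange_tmul, Basis.constr_basis, if_pos rfl]
      · intro i _ hi
        rw [map_smul, show f i = (1 : L) ⊗ₜ[k] b i from Basis.baseChange_apply _ _ _,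
          LinearMap.baseChange_tmul, Basis.constr_basis, if_neg hi, TensorProduct.tmul_zero,
          smul_zero]
      · exact fun hn => absurd (Finset.mem_univ m) hn
    have := W.smul_mem (f.repr w m)⁻¹ (e ▸ hX X w hw)
    rwa [smul_smul, inv_mul_cancel₀ hm, one_smul] at this
  refine eq_top_iff.mpr fun x _ => ?_
  rw [show x = ∑ i, f.repr x i • f i from (f.sum_repr x).symm]
  exact W.sum_mem fun i _ => W.smul_mem _ (hall i)

/-- Absolute irreducibility passes to an extension of scalars, up to equivalence. -/
theorem isAbsolutelyIrreducible_of_isEquiv_baseChange (f : k →+* k') {ρ₀ : ResidualGaloisRep k}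
    (habs : ρ₀.IsAbsolutelyIrreducible) {ρ : ResidualGaloisRep k'}
    (he : ρ.IsEquiv (ρ₀.baseChangeAlong f)) : ρ.IsAbsolutelyIrreducible := by
  classical
  obtain ⟨e⟩ := he
  letI := f.toAlgebra
  let b := Module.finBasisOfFinrankEq k ρ₀.V ρ₀.finrank_eq
  let b' : Basis (Fin 2) k' (ρ₀.baseChangeAlong f).V := b.baseChange k'
  refine isAbsolutelyIrreducible_of_span ρ (b'.map e.symm.toLinearEquiv) ?_
  rw [(matRes_eq_of_equiv e.symm b').trans (matRes_baseChangeAlong f ρ₀ b)]
  refine top_le_iff.mp fun X _ => ?_
  rw [Matrix.matrix_eq_sum_single X]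
  refine Submodule.sum_mem _ fun i _ => Submodule.sum_mem _ fun j _ => ?_
  have hsingle : Matrix.single i j (X i j) = X i j • (Matrix.single i j (1 : k)).map f := by
    ext a c
    simp [Matrix.single_apply]
  rw [hsingle]
  refine Submodule.smul_mem _ _ ?_
  have hmem : Matrix.single i j (1 : k) ∈ Submodule.span k (Set.range (matRes ρ₀ b)) := by
    have := span_matrix_eq_top ρ₀ habs b
    exact (SetLike.ext_iff.mp this _).mpr Submodule.mem_top
  generalize Matrix.single i j (1 : k) = Z at hmem ⊢
  induction hmem using Submodule.span_induction with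
  | mem Y hY =>
    obtain ⟨σ, rfl⟩ := hY
    exact Submodule.subset_span ⟨σ, rfl⟩
  | zero => rw [Matrix.map_zero _ (map_zero f)]; exact zero_mem _
  | add x y _ _ hx hy => rw [Matrix.map_add _ (map_add f)]; exact add_mem hx hy
  | smul c x _ hx =>
    have : (c • x).map f = f c • x.map f := by ext a b; simp
    rw [this]
    exact Submodule.smul_mem _ _ hx

variable {p : ℕ}

/-- Distinguished ordinarity passes to a residual representation which extends `ρbar`. -/
theorem isDistinguishedOrdinary_residual {O : Type} [CommRing O] [IsDomain O]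
    [IsDiscreteValuationRing O] {O' : Type} [CommRing O'] [IsDomain O']
    [IsDiscreteValuationRing O'] {ρbar : ResidualGaloisRep (ResidueField O)}
    (f : ResidueField O →+* ResidueField O') {ρ : GaloisRepAdic O'}
    (he : ρ.residual.IsEquiv (ρbar.baseChangeAlong f)) (h : IsDistinguishedOrdinary p ρbar) :
    IsDistinguishedOrdinary p ρ.residual := by
  haveI : IsLocalHom f := inferInstance
  refine ⟨?_, fun P hP => ?_⟩
  · obtain ⟨e⟩ := he
    exact isOrdinaryAt_of_isEquiv
      (ρ := (GaloisRepAdic.ofResidualGaloisRep ρbar).baseChangeAlong f inferInstance)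
      ⟨⟨e.symm.toLinearEquiv, e.symm.map_apply⟩⟩ (isOrdinaryAt_baseChange f inferInstance h.1)
  · obtain ⟨τ, hτ, hdet⟩ := h.2 P hP
    refine ⟨τ, hτ, fun h1 => ?_⟩
    have hu := isUnit_det_sub_one f he hdet
    have e2 : LinearMap.det (ρ.residual.ρ τ) = residue O' (LinearMap.det (ρ.ρ τ)) :=
      LinearMap.det_baseChange (A := ResidueField O') (ρ.ρ τ)
    refine (residue_ne_zero_iff_isUnit _).mpr hu ?_
    rw [map_sub, map_one, ← e2, h1, sub_self]

/-- The residual representation of a base change is the base change of the residual one. -/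
theorem residual_baseChangeAlong_isEquiv {A B : Type} [CommRing A] [IsLocalRing A] [CommRing B]
    [IsLocalRing B] (φ : A →+* B) (hφ : IsLocalHom φ) (ρ : GaloisRepAdic A) :
    haveI := hφ
    (ρ.baseChangeAlong φ hφ).residual.IsEquiv
      (ρ.residual.baseChangeAlong (ResidueField.map φ)) := by
  haveI := hφ
  let b := Module.finBasisOfFinrankEq A ρ.V ρ.finrank_eq
  letI := φ.toAlgebra
  letI := (ResidueField.map φ).toAlgebra
  refine isEquiv_of_matRes_eq
    (Basis.baseChange (ResidueField B) (b.baseChange B : Basis (Fin 2) B (ρ.baseChangeAlong φ hφ).V))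
    ((b.baseChange (ResidueField A) : Basis (Fin 2) (ResidueField A) ρ.residual.V).baseChange
      (ResidueField B)) ?_
  refine (matRes_residual _ _).trans (Eq.trans ?_ (matRes_baseChangeAlong (ResidueField.map φ)
    ρ.residual _).symm)
  rw [matRes_residual, matOf_baseChangeAlong]
  ext σ i j
  rfl

end Fermat.Agent.RT.Lifting

end
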