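import Fermat.Agent.RT.MazurP.Jump
import Fermat.Agent.CFT.Tangent.Dictionary
import Fermat.Agent.EC.AtP.NodeGalois
import Mathlib.GroupTheory.FiniteAbelian.Duality
import Mathlib.RingTheory.RootsOfUnity.AlgebraicallyClosed
import Mathlib.LinearAlgebra.LinearIndependent.Basic

/-!
# The valuation component of a cyclotomically twisted cocycle on inertia

For `c : GQ → N` with `c (g h) = χ(g) • c h + c g` on inertia at a place over `p`, `N` killed by
`p ^ n`, every character of `N` turns `c` into a Kummer cocycle `g y / y`; the valuations of the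
generators `y` define an element of `N`, zero exactly when all generators can be taken units.
-/

set_option autoImplicit false
set_option linter.style.haveILetI false
set_option linter.unusedSectionVars false

noncomputable section

namespace Fermat.Agent.RT.Lifting.AtP

open Fermat.Agent.Arith Fermat.Agent.EC.Reduction
open Fermat.Agent.CFT.Tangent (exists_pow_eq_on_roots)
open scoped Pointwise

/-- `g` raises the `p ^ n`-th roots of unity to the power `a`. -/
def IsExp (p n : ℕ) (g : GQ) (a : ℕ) : Prop := ∀ μ : QBar, μ ^ p ^ n = 1 → g μ = μ ^ a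

variable {N N' : Type} [AddCommGroup N] [AddCommGroup N']

/-- Evaluation of a character of `N` in `QBar`. -/
def chv (l : Multiplicative N →* QBarˣ) (x : N) : QBar := (l (Multiplicative.ofAdd x) : QBarˣ)

section Chv

variable (l : Multiplicative N →* QBarˣ)

theorem chv_zero : chv l 0 = 1 := by simp [chv]

theorem chv_add (x y : N) : chv l (x + y) = chv l x * chv l y := by simp [chv, ofAdd_add]

theorem chv_ne_zero (x : N) : chv l x ≠ 0 := Units.ne_zero _

theorem chv_nsmul (a : ℕ) (x : N) : chv l (a • x) = chv l x ^ a := by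
  induction a with
  | zero => rw [zero_smul, chv_zero, pow_zero]
  | succ a ih => rw [succ_nsmul, chv_add, ih, pow_succ]

theorem chv_sub (x y : N) : chv l (x - y) = chv l x / chv l y :=
  eq_div_of_mul_eq (chv_ne_zero l y) (by rw [← chv_add, sub_add_cancel])

theorem chv_mul (l' : Multiplicative N →* QBarˣ) (x : N) :
    chv (l * l') x = chv l x * chv l' x := by
  simp [chv]

theorem chv_pow_eq_one {m : ℕ} {x : N} (hx : m • x = 0) : chv l x ^ m = 1 := by
  rw [← chv_nsmul, hx, chv_zero]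

theorem map_chv {p n : ℕ} (hN : ∀ x : N, (p ^ n) • x = 0) {g : GQ} {a : ℕ} (hg : IsExp p n g a)
    (x : N) : g (chv l x) = chv l (a • x) := by
  rw [chv_nsmul]; exact hg _ (chv_pow_eq_one l (hN x))

theorem valuation_chv (A : ValuationSubring QBar) {m : ℕ} (hm : m ≠ 0) {x : N} (hx : m • x = 0) :
    A.valuation (chv l x) = 1 :=
  (pow_eq_one_iff_left hm).mp (by rw [← map_pow, chv_pow_eq_one l hx, map_one])

end Chv

variable (A : ValuationSubring QBar) (p n : ℕ)

/-- A cocycle on inertia for the cyclotomic character modulo `p ^ n`, of finite level. -/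
structure IsTwist (c : GQ → N) : Prop where
  mul : ∀ g ∈ A.inertiaSubgroupIn ℚ, ∀ h ∈ A.inertiaSubgroupIn ℚ, ∀ a : ℕ, IsExp p n g a →
    c (g * h) = a • c h + c g
  level : ∃ L : IntermediateField ℚ QBar, FiniteDimensional ℚ L ∧
    ∀ h ∈ A.inertiaSubgroupIn ℚ, (∀ x ∈ L, h x = x) → c h = 0

/-- `y` is a Kummer generator for the image of `c` by the character `l`. -/
def IsKummer (c : GQ → N) (l : Multiplicative N →* QBarˣ) (y : QBar) : Prop :=
  y ≠ 0 ∧ ∀ g ∈ A.inertiaSubgroupIn ℚ, g y = chv l (c g) * y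

/-- All Kummer generators may be taken units. -/
def IsPeu (c : GQ → N) : Prop :=
  ∀ l : Multiplicative N →* QBarˣ, ∃ y, IsKummer A c l y ∧ A.valuation y = 1

variable [hp : Fact p.Prime]

/-- A fixed primitive `p ^ n`-th root of unity. -/
def rootN : QBar :=
  haveI : NeZero ((p ^ n : ℕ) : QBar) := ⟨Nat.cast_ne_zero.mpr (pow_ne_zero n hp.out.ne_zero)⟩
  (HasEnoughRootsOfUnity.exists_primitiveRoot QBar (p ^ n)).choose

theorem rootN_spec : IsPrimitiveRoot (rootN p n) (p ^ n) :=
  haveI : NeZero ((p ^ n : ℕ) : QBar) := ⟨Nat.cast_ne_zero.mpr (pow_ne_zero n hp.out.ne_zero)⟩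
  (HasEnoughRootsOfUnity.exists_primitiveRoot QBar (p ^ n)).choose_spec

theorem rootN_ne_zero : rootN p n ≠ 0 :=
  (rootN_spec p n).ne_zero (pow_ne_zero n hp.out.ne_zero)

theorem exists_isExp (g : GQ) : ∃ a, IsExp p n g a :=
  haveI : NeZero (p ^ n) := ⟨pow_ne_zero n hp.out.ne_zero⟩
  exists_pow_eq_on_roots (p ^ n) g

/-- `V` is the valuation component of `c`. -/
def HasVal (c : GQ → N) (V : N) : Prop :=
  ∀ l : Multiplicative N →* QBarˣ, ∃ (y : QBar) (k : ℤ), IsKummer A c l y ∧
    A.valuation y ^ p ^ n = A.valuation (p : QBar) ^ k ∧ chv l V = rootN p n ^ k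

variable {A p n}

theorem inertia_conj {s g : GQ} (hs : s • A = A) (hg : g ∈ A.inertiaSubgroupIn ℚ) :
    s⁻¹ * g * s ∈ A.inertiaSubgroupIn ℚ := by
  obtain ⟨h1, h2⟩ := mem_inertia_iff_forall_mem.mp hg
  have hs' : s⁻¹ • A = A := inv_smul_eq_iff.mpr hs.symm
  refine mem_inertia_iff_forall_mem.mpr ⟨by rw [mul_smul, mul_smul, hs, h1, hs'], fun x hx => ?_⟩
  have h3 := EC.AtP.map_mem_nonunits_of_smul_eq hs' (h2 _ (map_mem_of_mem_decomposition hs hx))
  rw [map_sub] at h3
  convert h3 using 1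
  rw [AlgEquiv.mul_apply, AlgEquiv.mul_apply, ← AlgEquiv.mul_apply s⁻¹ s, inv_mul_cancel,
    AlgEquiv.one_apply]

variable {c c' : GQ → N} {l : Multiplicative N →* QBarˣ}

theorem IsKummer.mul {l' : Multiplicative N →* QBarˣ} {y y' : QBar} (h : IsKummer A c l y)
    (h' : IsKummer A c l' y') : IsKummer A c (l * l') (y * y') :=
  ⟨mul_ne_zero h.1 h'.1, fun g hg => by rw [map_mul, h.2 g hg, h'.2 g hg, chv_mul]; ring⟩

variable (hA : A.LiesOverPrime p)
include hA

theorem valuation_natCast_pos : 0 < A.valuation (p : QBar) :=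
  zero_lt_iff.mpr ((Valuation.ne_zero_iff _).mpr (Nat.cast_ne_zero.mpr hp.out.ne_zero))

theorem valuation_zpow_injective : Function.Injective fun k : ℤ => A.valuation (p : QBar) ^ k :=
  zpow_right_injective₀ (valuation_natCast_pos hA) (A.mem_nonunits_iff.mp hA).ne

/-- A Kummer generator exists. -/
theorem IsTwist.exists_kummer (hN : ∀ x : N, (p ^ n) • x = 0) (hc : IsTwist A p n c)
    (l : Multiplicative N →* QBarˣ) : ∃ y, IsKummer A c l y := by
  classical
  obtain ⟨L₀, hL₀, h₀⟩ := hc.level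
  haveI : Normal ℚ QBar := IsAlgClosure.normal ℚ QBar
  haveI : FiniteDimensional ℚ (IntermediateField.adjoin ℚ {rootN p n}) :=
    IntermediateField.adjoin.finiteDimensional (Algebra.IsIntegral.isIntegral _)
  set M : IntermediateField ℚ QBar := L₀ ⊔ IntermediateField.adjoin ℚ {rootN p n}
  set L : IntermediateField ℚ QBar := IntermediateField.normalClosure ℚ M QBar
  haveI : Normal ℚ L := normalClosure.normal ℚ M QBar
  haveI : FiniteDimensional ℚ L := inferInstance
  set I := A.inertiaSubgroupIn ℚ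
  let R : GQ →* (L ≃ₐ[ℚ] L) := AlgEquiv.restrictNormalHom L
  have hR : ∀ (g : GQ) (x : L), ((R g x : L) : QBar) = g (x : QBar) :=
    fun g x => AlgEquiv.restrictNormal_commutes g L x
  have hfix : ∀ g g' : GQ, R g = R g' → ∀ x ∈ L, (g'⁻¹ * g) x = x := fun g g' h x hx => by
    rw [AlgEquiv.mul_apply, show g x = g' x by rw [← hR g ⟨x, hx⟩, h, hR g' ⟨x, hx⟩]]
    exact g'.symm_apply_apply x
  let G := I.map R
  haveI : Finite G := inferInstance
  haveI := Fintype.ofFinite G
  choose lift hlift hlift' using fun x : G => Subgroup.mem_map.mp x.2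
  have hagree : ∀ g ∈ I, ∀ g' ∈ I, R g = R g' → c g = c g' := by
    intro g hg g' hg' h
    obtain ⟨a, ha⟩ := exists_isExp p n g'
    have h1 : g'⁻¹ * g ∈ I := I.mul_mem (I.inv_mem hg') hg
    have h2 := h₀ _ h1 fun x hx =>
      hfix g g' h x (M.le_normalClosure ((le_sup_left : L₀ ≤ M) hx))
    have h3 := hc.mul g' hg' _ h1 a ha
    rw [mul_inv_cancel_left, h2, smul_zero, zero_add] at h3
    exact h3
  let e : G → QBar := fun x => chv l (c (lift x))
  -- some resolvent does not vanish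
  obtain ⟨w, hw⟩ : ∃ w : L, (∑ x : G, e x * ((x.1 w : L) : QBar)) ≠ 0 := by
    by_contra hall
    simp only [not_exists, not_not] at hall
    let φ : G → (L →* QBar) := fun x =>
      { toFun := fun z => ((x.1 z : L) : QBar)
        map_one' := by simp
        map_mul' := fun z z' => by simp }
    have hφ : Function.Injective φ := fun x x' h =>
      Subtype.ext (AlgEquiv.ext fun z => Subtype.ext (DFunLike.congr_fun h z))
    have h0 := Fintype.linearIndependent_iff.mp ((linearIndependent_monoidHom L QBar).comp φ hφ) e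
      (funext fun z => by simpa [Finset.sum_apply, φ] using hall z)
    exact chv_ne_zero l _ (h0 1)
  refine ⟨(∑ x : G, e x * ((x.1 w : L) : QBar))⁻¹, inv_ne_zero hw, fun g hg => ?_⟩
  obtain ⟨a, ha⟩ := exists_isExp p n g
  let gb : G := ⟨R g, Subgroup.mem_map_of_mem R hg⟩
  have key : g (∑ x : G, e x * ((x.1 w : L) : QBar)) =
      (chv l (c g))⁻¹ * ∑ x : G, e x * ((x.1 w : L) : QBar) := by
    rw [map_sum, Finset.mul_sum]
    refine Fintype.sum_equiv (Equiv.mulLeft gb) _ _ fun x => ?_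
    have h1 : c (lift (gb * x)) = a • c (lift x) + c g := by
      rw [← hc.mul g hg _ (hlift x) a ha]
      refine hagree _ (hlift _) _ (I.mul_mem hg (hlift x)) ?_
      rw [hlift', map_mul, hlift']
      rfl
    rw [Equiv.coe_mulLeft, map_mul, ← mul_assoc]
    congr 1
    · show g (chv l (c (lift x))) = _ * chv l (c (lift (gb * x)))
      rw [map_chv l hN ha, h1, chv_add]
      field_simp [chv_ne_zero l (c g)]
    · show g ((x.1 w : L) : QBar) = (((gb * x : G) : L ≃ₐ[ℚ] L) w : L)
      rw [Subgroup.coe_mul, AlgEquiv.mul_apply, hR]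
  rw [map_inv₀, key, mul_inv, inv_inv]

/-- The valuation of a Kummer generator. -/
theorem IsKummer.exists_zpow (hN : ∀ x : N, (p ^ n) • x = 0) {y : QBar}
    (h : IsKummer A c l y) : ∃ k : ℤ, A.valuation y ^ p ^ n = A.valuation (p : QBar) ^ k := by
  obtain ⟨k, hk⟩ := MazurP.exists_zpow_of_inertiaFixed hA hp.out (pow_ne_zero (p ^ n) h.1)
    fun g hg => by rw [map_pow, h.2 g hg, mul_pow, chv_pow_eq_one l (hN _), one_mul]
  exact ⟨k, by rw [← hk, map_pow]⟩

theorem IsKummer.rootN_zpow_eq {y y' : QBar} (h : IsKummer A c l y) (h' : IsKummer A c l y')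
    {k k' : ℤ} (hk : A.valuation y ^ p ^ n = A.valuation (p : QBar) ^ k)
    (hk' : A.valuation y' ^ p ^ n = A.valuation (p : QBar) ^ k') :
    rootN p n ^ k = rootN p n ^ k' := by
  obtain ⟨j, hj⟩ := MazurP.exists_zpow_of_inertiaFixed hA hp.out (div_ne_zero h'.1 h.1)
    fun g hg => by
      rw [map_div₀, h.2 g hg, h'.2 g hg, mul_div_mul_left _ _ (chv_ne_zero l _)]
  have he : k' = k + j * ((p ^ n : ℕ) : ℤ) := by
    refine valuation_zpow_injective hA ?_
    show A.valuation (p : QBar) ^ k' = A.valuation (p : QBar) ^ (k + j * ((p ^ n : ℕ) : ℤ))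
    rw [zpow_add₀ (valuation_natCast_pos hA).ne', zpow_mul, ← hj, zpow_natCast, ← hk, ← hk',
      ← mul_pow, map_div₀, mul_div_cancel₀ _ ((Valuation.ne_zero_iff _).mpr h.1)]
  rw [he, zpow_add₀ (rootN_ne_zero p n), mul_comm j, zpow_mul, zpow_natCast,
    (rootN_spec p n).pow_eq_one, one_zpow, mul_one]

/-- Valuation components are unique. -/
theorem HasVal.unique [Finite N] {V V' : N} (h : HasVal A p n c V) (h' : HasVal A p n c V') :
    V = V' := by
  haveI : NeZero ((Monoid.exponent (Multiplicative N) : ℕ) : QBar) :=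
    ⟨Nat.cast_ne_zero.mpr Monoid.exponent_ne_zero_of_finite⟩
  refine Multiplicative.ofAdd.injective
    ((CommGroup.forall_apply_eq_apply_iff (M := QBar) (Multiplicative N)).mp fun l => Units.ext ?_)
  obtain ⟨y, k, hy, hk, he⟩ := h l
  obtain ⟨y', k', hy', hk', he'⟩ := h' l
  exact he.trans ((hy.rootN_zpow_eq hA hy' hk hk').trans he'.symm)

/-- Every cocycle has a valuation component. -/
theorem IsTwist.exists_hasVal [Finite N] (hN : ∀ x : N, (p ^ n) • x = 0)
    (hc : IsTwist A p n c) : ∃ V, HasVal A p n c V := by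
  haveI : NeZero ((Monoid.exponent (Multiplicative N) : ℕ) : QBar) :=
    ⟨Nat.cast_ne_zero.mpr Monoid.exponent_ne_zero_of_finite⟩
  choose y hy using hc.exists_kummer hA hN
  choose k hk using fun l => (hy l).exists_zpow hA hN
  have hmul : ∀ l l', rootN p n ^ k (l * l') = rootN p n ^ k l * rootN p n ^ k l' := fun l l' => by
    rw [← zpow_add₀ (rootN_ne_zero p n)]
    refine (hy (l * l')).rootN_zpow_eq hA ((hy l).mul (hy l')) (hk _) ?_
    rw [map_mul, mul_pow, hk, hk, ← zpow_add₀ (valuation_natCast_pos hA).ne']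
  let η : (Multiplicative N →* QBarˣ) →* QBarˣ := MonoidHom.mk'
    (fun l => Units.mk0 (rootN p n ^ k l) (zpow_ne_zero _ (rootN_ne_zero p n)))
    fun l l' => Units.ext (hmul l l')
  refine ⟨Multiplicative.toAdd (CommGroup.monoidHomMonoidHomEquiv (Multiplicative N) QBar η),
    fun l => ⟨y l, k l, hy l, hk l, ?_⟩⟩
  show ((l (CommGroup.monoidHomMonoidHomEquiv (Multiplicative N) QBar η) : QBarˣ) : QBar) = _
  rw [CommGroup.apply_monoidHomMonoidHomEquiv]
  rfl

omit hA

theorem HasVal.add {V V' : N} (h : HasVal A p n c V) (h' : HasVal A p n c' V') (hA : A.LiesOverPrime p) :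
    HasVal A p n (c + c') (V + V') := fun l => by
  obtain ⟨y, k, hy, hk, he⟩ := h l
  obtain ⟨y', k', hy', hk', he'⟩ := h' l
  refine ⟨y * y', k + k', ⟨mul_ne_zero hy.1 hy'.1, fun g hg => ?_⟩, ?_, ?_⟩
  · rw [map_mul, hy.2 g hg, hy'.2 g hg, Pi.add_apply, chv_add]; ring
  · rw [map_mul, mul_pow, hk, hk', zpow_add₀ (valuation_natCast_pos hA).ne']
  · rw [chv_add, he, he', zpow_add₀ (rootN_ne_zero p n)]

theorem HasVal.map {V : N} (h : HasVal A p n c V) (f : N →+ N') :
    HasVal A p n (fun g => f (c g)) (f V) :=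
  fun l => h (l.comp (AddMonoidHom.toMultiplicative f))

theorem HasVal.congr {V : N} (h : HasVal A p n c V)
    (he : ∀ g ∈ A.inertiaSubgroupIn ℚ, c g = c' g) : HasVal A p n c' V := fun l => by
  obtain ⟨y, k, hy, hk, hV⟩ := h l
  exact ⟨y, k, ⟨hy.1, fun g hg => by rw [← he g hg]; exact hy.2 g hg⟩, hk, hV⟩

theorem HasVal.isPeu (h : HasVal A p n c 0) : IsPeu A c := fun l => by
  obtain ⟨y, k, hy, hk, he⟩ := h l
  rw [chv_zero] at he
  obtain ⟨j, rfl⟩ := ((rootN_spec p n).zpow_eq_one_iff_dvd k).mp he.symm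
  refine ⟨y / (p : QBar) ^ j,
    ⟨div_ne_zero hy.1 (zpow_ne_zero _ (Nat.cast_ne_zero.mpr hp.out.ne_zero)), fun g hg => ?_⟩, ?_⟩
  · rw [map_div₀, map_zpow₀, map_natCast, hy.2 g hg, mul_div_assoc]
  · refine (pow_eq_one_iff_left (pow_ne_zero n hp.out.ne_zero)).mp ?_
    rw [map_div₀, map_zpow₀, div_pow, hk, mul_comm _ j, zpow_mul, zpow_natCast, div_self]
    exact pow_ne_zero _ (zpow_ne_zero _ ((Valuation.ne_zero_iff _).mpr
      (Nat.cast_ne_zero.mpr hp.out.ne_zero)))

omit hp in
theorem IsPeu.add (h : IsPeu A c) (h' : IsPeu A c') : IsPeu A (c + c') := fun l => by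
  obtain ⟨y, hy, hv⟩ := h l
  obtain ⟨y', hy', hv'⟩ := h' l
  refine ⟨y * y', ⟨mul_ne_zero hy.1 hy'.1, fun g hg => ?_⟩, by rw [map_mul, hv, hv', one_mul]⟩
  rw [map_mul, hy.2 g hg, hy'.2 g hg, Pi.add_apply, chv_add]; ring

omit hp in
theorem IsPeu.map (h : IsPeu A c) (f : N →+ N') : IsPeu A fun g => f (c g) :=
  fun l => h (l.comp (AddMonoidHom.toMultiplicative f))

omit hp in
theorem IsPeu.congr (h : IsPeu A c) (he : ∀ g ∈ A.inertiaSubgroupIn ℚ, c g = c' g) :
    IsPeu A c' := fun l => by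
  obtain ⟨y, hy, hv⟩ := h l
  exact ⟨y, ⟨hy.1, fun g hg => by rw [← he g hg]; exact hy.2 g hg⟩, hv⟩

theorem IsPeu.hasVal (h : IsPeu A c) : HasVal A p n c 0 := fun l => by
  obtain ⟨y, hy, hv⟩ := h l
  exact ⟨y, 0, hy, by rw [hv, one_pow, zpow_zero], by rw [chv_zero, zpow_zero]⟩

/-- The valuation component is invariant under the decomposition group. -/
theorem HasVal.conj (hN : ∀ x : N, (p ^ n) • x = 0) {V : N} (h : HasVal A p n c V) {s : GQ}
    (hs : s • A = A) {b : ℕ} (hb : IsExp p n s b) (w : N)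
    (hrel : ∀ g ∈ A.inertiaSubgroupIn ℚ, ∀ a : ℕ, IsExp p n g a →
      b • c (s⁻¹ * g * s) = c' g + (a • w - w)) :
    HasVal A p n c' V := fun l => by
  obtain ⟨y, k, hy, hk, he⟩ := h l
  refine ⟨s y / chv l w, k, ⟨div_ne_zero ((map_ne_zero _).mpr hy.1) (chv_ne_zero l w),
    fun g hg => ?_⟩, ?_, he⟩
  · obtain ⟨a, ha⟩ := exists_isExp p n g
    have e1 : g (s y) = s ((s⁻¹ * g * s) y) := by
      rw [AlgEquiv.mul_apply, AlgEquiv.mul_apply, ← AlgEquiv.mul_apply s s⁻¹, mul_inv_cancel,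
        AlgEquiv.one_apply]
    rw [map_div₀, e1, hy.2 _ (inertia_conj hs hg), map_mul, map_chv l hN hb, hrel g hg a ha,
      map_chv l hN ha, chv_add, chv_sub]
    field_simp [chv_ne_zero l (a • w), chv_ne_zero l w]
  · rw [map_div₀, EC.Multiplicative.valuation_map_eq hs,
      valuation_chv l A (pow_ne_zero n hp.out.ne_zero) (hN w), div_one, hk]

end Fermat.Agent.RT.Lifting.AtP

end
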